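import Mathlib
import Fermat.Prelude.Def_GaloisRep_Residual

set_option autoImplicit false

namespace Fermat.Agent.S53

open Module

section Burnside

variable {K V G : Type*} [Field K] [IsAlgClosed K] [AddCommGroup V] [Module K V]
  [FiniteDimensional K V] [Nontrivial V] [Monoid G]

theorem burnside_algClosed (ρ : G →* Module.End K V)
    (hirr : ∀ W : Submodule K V, (∀ g, ∀ x ∈ W, ρ g x ∈ W) → W = ⊥ ∨ W = ⊤) :
    Submodule.span K (Set.range ρ) = ⊤ := by
  classical
  set 𝒜 : Subalgebra K (Module.End K V) := Algebra.adjoin K (Set.range ρ) with h𝒜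
  have hspan : Subalgebra.toSubmodule 𝒜 = Submodule.span K (Set.range ρ) := by
    rw [h𝒜, Algebra.adjoin_eq_span]
    congr 1
    have : (Set.range ρ) = (MonoidHom.mrange ρ : Set (Module.End K V)) := by
      ext; simp
    rw [this, Submonoid.closure_eq]
  have hsimple : IsSimpleModule 𝒜 V := by
    rw [isSimpleModule_iff]
    refine ⟨fun W => ?_⟩
    have hW := hirr (W.restrictScalars K) (fun g x hx => by
      have : (⟨ρ g, Algebra.subset_adjoin ⟨g, rfl⟩⟩ : 𝒜) • x ∈ W := W.smul_mem _ hx
      exact this)
    rcases hW with h | h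
    · left
      exact (Submodule.restrictScalars_eq_bot_iff K _ _).mp h
    · right
      exact (Submodule.restrictScalars_eq_top_iff K _ _).mp h
  have hschur := IsSimpleModule.algebraMap_end_bijective_of_isAlgClosed (A := 𝒜) (V := V) K
  have hfin : Module.Finite (Module.End 𝒜 V) V := by
    have : Module.Finite K V := inferInstance
    obtain ⟨s, hs⟩ := this.fg_top
    refine ⟨⟨s, ?_⟩⟩
    rw [eq_top_iff]
    intro x _
    have hx : x ∈ Submodule.span K (s : Set V) := hs ▸ Submodule.mem_top
    induction hx using Submodule.span_induction with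
    | mem y hy => exact Submodule.subset_span hy
    | zero => exact Submodule.zero_mem _
    | add y z _ _ hy hz => exact Submodule.add_mem _ (hy trivial) (hz trivial)
    | smul c y _ hy =>
      have : c • y = (algebraMap K (Module.End 𝒜 V) c) • y := by
        simp
      rw [this]
      exact Submodule.smul_mem _ _ (hy trivial)
  have hdens := Module.Finite.toModuleEnd_moduleEnd_surjective (R := 𝒜) (M := V)
  rw [← hspan, eq_top_iff]
  intro φ _
  let f : Module.End (Module.End 𝒜 V) V :=
    { toFun := φ
      map_add' := φ.map_add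
      map_smul' := fun e x => by
        obtain ⟨c, rfl⟩ := hschur.2 e
        simp }
  obtain ⟨r, hr⟩ := hdens f
  have : (r : Module.End K V) = φ := by
    ext x
    have := congrArg (fun g => g x) hr
    exact this
  rw [← this]
  exact r.2

end Burnside


local notation "Γℚ" => (AlgebraicClosure ℚ ≃ₐ[ℚ] AlgebraicClosure ℚ)

variable {k : Type} [Field k]

/-- The matrix form of a residual representation in a basis. -/
noncomputable def matOfResidual (ρbar : ResidualGaloisRep k) (b : Basis (Fin 2) k ρbar.V) :
    Γℚ →* Matrix (Fin 2) (Fin 2) k :=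
  (LinearMap.toMatrixAlgEquiv b : Module.End k ρbar.V →* Matrix (Fin 2) (Fin 2) k).comp ρbar.ρ

theorem matOfResidual_apply (ρbar : ResidualGaloisRep k) (b : Basis (Fin 2) k ρbar.V) (g : Γℚ) :
    matOfResidual ρbar b g = LinearMap.toMatrix b b (ρbar.ρ g) := rfl

theorem span_matOfResidual (ρbar : ResidualGaloisRep k) (habs : ρbar.IsAbsolutelyIrreducible)
    (b : Basis (Fin 2) k ρbar.V) :
    Submodule.span k (Set.range (matOfResidual ρbar b)) = ⊤ := by
  classical
  by_contra hne
  obtain ⟨f, hf0, hf⟩ := Submodule.exists_le_ker_of_lt_top _ (lt_top_iff_ne_top.mpr hne)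
  set K := AlgebraicClosure k
  have hfin : Module.finrank K (ρbar.baseChange K).V = 2 := (ρbar.baseChange K).finrank_eq
  have : Nontrivial (ρbar.baseChange K).V := Module.nontrivial_of_finrank_pos (R := K) (by omega)
  have hB := burnside_algClosed (K := K) (ρbar.baseChange K).ρ habs
  let bK : Basis (Fin 2) K (ρbar.baseChange K).V := Algebra.TensorProduct.basis K b
  let fK : Matrix (Fin 2) (Fin 2) K →ₗ[K] K :=
    ∑ i, ∑ j, (algebraMap k K (f (Matrix.single i j 1))) • Matrix.entryLinearMap K K i j
  have hfK : ∀ M : Matrix (Fin 2) (Fin 2) k, fK (M.map (algebraMap k K)) = algebraMap k K (f M) := by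
    intro M
    conv_rhs => rw [Matrix.matrix_eq_sum_single M]
    simp only [fK, LinearMap.sum_apply, LinearMap.smul_apply, Matrix.entryLinearMap_apply,
      Matrix.map_apply, map_sum, smul_eq_mul]
    refine Finset.sum_congr rfl fun i _ => Finset.sum_congr rfl fun j _ => ?_
    have : Matrix.single i j (M i j) = M i j • Matrix.single i j (1 : k) := by
      rw [Matrix.smul_single, smul_eq_mul, mul_one]
    rw [this, map_smul, smul_eq_mul, map_mul, mul_comm]
  let F : Module.End K (ρbar.baseChange K).V →ₗ[K] K := fK ∘ₗ (LinearMap.toMatrix bK bK).toLinearMap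
  have hF : ∀ φ, F φ = 0 := by
    intro φ
    have hφ : φ ∈ Submodule.span K (Set.range (ρbar.baseChange K).ρ) := hB ▸ Submodule.mem_top
    induction hφ using Submodule.span_induction with
    | mem y hy =>
      obtain ⟨g, rfl⟩ := hy
      have h1 : LinearMap.toMatrix bK bK ((ρbar.baseChange K).ρ g) =
          (LinearMap.toMatrix b b (ρbar.ρ g)).map (algebraMap k K) :=
        LinearMap.toMatrix_baseChange K (ρbar.ρ g) b b
      have h2 : f (LinearMap.toMatrix b b (ρbar.ρ g)) = 0 :=
        hf (Submodule.subset_span ⟨g, rfl⟩)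
      show fK (LinearMap.toMatrix bK bK ((ρbar.baseChange K).ρ g)) = 0
      rw [h1, hfK, h2, map_zero]
    | zero => exact map_zero _
    | add y z _ _ hy hz => rw [map_add, hy, hz, add_zero]
    | smul c y _ hy => rw [map_smul, hy, smul_zero]
  apply hf0
  ext M
  have h3 := hF ((LinearMap.toMatrix bK bK).symm (M.map (algebraMap k K)))
  have h4 : fK (M.map (algebraMap k K)) = 0 := by
    simpa [F] using h3
  rw [hfK] at h4
  simpa using h4

theorem exists_finsupp_matOfResidual (ρbar : ResidualGaloisRep k)
    (habs : ρbar.IsAbsolutelyIrreducible) (b : Basis (Fin 2) k ρbar.V)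
    (T : Matrix (Fin 2) (Fin 2) k) :
    ∃ c : Γℚ →₀ k, (c.sum fun g a => a • matOfResidual ρbar b g) = T := by
  have hT : T ∈ Submodule.span k (Set.range (matOfResidual ρbar b)) :=
    span_matOfResidual ρbar habs b ▸ Submodule.mem_top
  exact (Finsupp.mem_span_range_iff_exists_finsupp).mp hT

end Fermat.Agent.S53
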