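import Mathlib
import Fermat.Prelude.Def_GaloisRep_Adic

set_option autoImplicit false

namespace Fermat.Agent.S53

open IsLocalRing Module
open scoped TensorProduct

local notation "Γ" => (AlgebraicClosure ℚ ≃ₐ[ℚ] AlgebraicClosure ℚ)

variable {A : Type} [CommRing A]

theorem mem_smul_top_of_forall_mem (I : Ideal A) (w : Fin 2 → A) (hw : ∀ i, w i ∈ I) :
    w ∈ I • (⊤ : Submodule A (Fin 2 → A)) := by
  have : w = w 0 • (Pi.single 0 1 : Fin 2 → A) + w 1 • (Pi.single 1 1 : Fin 2 → A) := by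
    ext i
    fin_cases i <;> simp
  rw [this]
  exact Submodule.add_mem _ (Submodule.smul_mem_smul (hw 0) Submodule.mem_top)
    (Submodule.smul_mem_smul (hw 1) Submodule.mem_top)

theorem repr_mem_of_mem_smul_top {V : Type} [AddCommGroup V] [Module A V]
    (b : Basis (Fin 2) A V) (I : Ideal A) {x : V} (hx : x ∈ I • (⊤ : Submodule A V)) (i : Fin 2) :
    b.repr x i ∈ I := by
  refine Submodule.smul_induction_on (p := fun x => b.repr x i ∈ I) hx ?_ ?_
  · intro a ha w _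
    rw [map_smul, Finsupp.smul_apply, smul_eq_mul]
    exact I.mul_mem_right _ ha
  · intro x y hx hy
    rw [map_add, Finsupp.add_apply]
    exact I.add_mem hx hy

variable [IsLocalRing A]

/-- Adic continuity of a matrix valued function on the Galois group. -/
def MatCont (r : Γ → Matrix (Fin 2) (Fin 2) A) : Prop :=
  ∀ n : ℕ, ∃ L : IntermediateField ℚ (AlgebraicClosure ℚ), FiniteDimensional ℚ L ∧
    ∀ σ : Γ, (∀ x ∈ L, σ x = x) →
      ∀ i j, r σ i j - (1 : Matrix (Fin 2) (Fin 2) A) i j ∈ maximalIdeal A ^ n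

/-- The Galois representation attached to a continuous matrix representation. -/
noncomputable abbrev ofMat (r : Γ →* Matrix (Fin 2) (Fin 2) A) (h : MatCont r) : GaloisRepAdic A where
  V := Fin 2 → A
  finrank_eq := by simp
  ρ :=
    { toFun := fun σ => Matrix.toLin' (r σ)
      map_one' := by rw [map_one, Matrix.toLin'_one]; rfl
      map_mul' := fun σ τ => by rw [map_mul, Matrix.toLin'_mul]; rfl }
  isAdicContinuous := by
    intro n
    obtain ⟨L, hL, h1⟩ := h n
    refine ⟨L, hL, fun σ hσ v => ?_⟩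
    apply mem_smul_top_of_forall_mem
    intro i
    have : (Matrix.toLin' (r σ) v - v) i
        = (r σ i 0 - (1 : Matrix (Fin 2) (Fin 2) A) i 0) * v 0
          + (r σ i 1 - (1 : Matrix (Fin 2) (Fin 2) A) i 1) * v 1 := by
      have h2 : Matrix.toLin' (r σ) v - v = (r σ - 1).mulVec v := by
        rw [Matrix.toLin'_apply, Matrix.sub_mulVec, Matrix.one_mulVec]
      rw [h2, Matrix.mulVec, dotProduct, Fin.sum_univ_two, Matrix.sub_apply, Matrix.sub_apply]
    show (Matrix.toLin' (r σ) v - v) i ∈ _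
    rw [this]
    exact Ideal.add_mem _ (Ideal.mul_mem_right _ _ (h1 σ hσ i 0))
      (Ideal.mul_mem_right _ _ (h1 σ hσ i 1))

@[simp] theorem ofMat_ρ_apply (r : Γ →* Matrix (Fin 2) (Fin 2) A) (h : MatCont r) (σ : Γ) :
    (ofMat r h).ρ σ = Matrix.toLin' (r σ) := rfl

/-- The matrix form of a representation in a basis. -/
noncomputable def matOf (ρ : GaloisRepAdic A) (b : Basis (Fin 2) A ρ.V) :
    Γ →* Matrix (Fin 2) (Fin 2) A :=
  (LinearMap.toMatrixAlgEquiv b : Module.End A ρ.V →* Matrix (Fin 2) (Fin 2) A).comp ρ.ρ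

theorem matOf_apply (ρ : GaloisRepAdic A) (b : Basis (Fin 2) A ρ.V) (σ : Γ) :
    matOf ρ b σ = LinearMap.toMatrix b b (ρ.ρ σ) := rfl

theorem matCont_matOf (ρ : GaloisRepAdic A) (b : Basis (Fin 2) A ρ.V) : MatCont (matOf ρ b) := by
  intro n
  obtain ⟨L, hL, h1⟩ := ρ.isAdicContinuous n
  refine ⟨L, hL, fun σ hσ i j => ?_⟩
  have h2 := repr_mem_of_mem_smul_top b _ (h1 σ hσ (b j)) i
  rw [map_sub, Finsupp.sub_apply, Basis.repr_self] at h2
  rw [matOf_apply, LinearMap.toMatrix_apply, Matrix.one_apply]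
  rw [Finsupp.single_apply] at h2
  simpa [eq_comm] using h2

/-- A representation is equivalent to its matrix model. -/
noncomputable def equivOfMatOf (ρ : GaloisRepAdic A) (b : Basis (Fin 2) A ρ.V) :
    GaloisRepAdic.Equiv ρ (ofMat (matOf ρ b) (matCont_matOf ρ b)) where
  toLinearEquiv := b.equivFun
  map_apply := fun σ x => by
    rw [ofMat_ρ_apply, matOf_apply, Matrix.toLin'_apply]
    exact (LinearMap.toMatrix_mulVec_repr b b (ρ.ρ σ) x).symm

theorem matOf_ofMat (r : Γ →* Matrix (Fin 2) (Fin 2) A) (h : MatCont r) :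
    matOf (ofMat r h) (Pi.basisFun A (Fin 2)) = r := by
  ext σ : 1
  rw [matOf_apply, ofMat_ρ_apply]
  exact LinearMap.toMatrix'_toLin' (r σ)

theorem ofMat_congr {r r' : Γ →* Matrix (Fin 2) (Fin 2) A} (h : MatCont r) (hrr' : r = r') :
    ofMat r h = ofMat r' (hrr' ▸ h) := by
  subst hrr'; rfl

/-- Equivalence of matrix models is conjugation. -/
theorem ofMat_isEquiv_iff (r r' : Γ →* Matrix (Fin 2) (Fin 2) A) (h : MatCont r)
    (h' : MatCont r') :
    (ofMat r h).IsEquiv (ofMat r' h') ↔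
      ∃ M : Matrix (Fin 2) (Fin 2) A, IsUnit M.det ∧ ∀ σ, M * r σ = r' σ * M := by
  constructor
  · rintro ⟨e⟩
    let f : (Fin 2 → A) ≃ₗ[A] (Fin 2 → A) := e.toLinearEquiv
    refine ⟨LinearMap.toMatrix' (f : (Fin 2 → A) →ₗ[A] (Fin 2 → A)), ?_, fun σ => ?_⟩
    · rw [LinearMap.det_toMatrix']
      exact LinearEquiv.isUnit_det' f
    · have h1 : (f : (Fin 2 → A) →ₗ[A] (Fin 2 → A)) ∘ₗ Matrix.toLin' (r σ)
          = Matrix.toLin' (r' σ) ∘ₗ (f : (Fin 2 → A) →ₗ[A] (Fin 2 → A)) := by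
        ext1 x
        exact LinearMap.ext fun y => e.map_apply σ _
      have h2 := congrArg LinearMap.toMatrix' h1
      rwa [LinearMap.toMatrix'_comp, LinearMap.toMatrix'_comp, LinearMap.toMatrix'_toLin',
        LinearMap.toMatrix'_toLin'] at h2
  · rintro ⟨M, hM, hconj⟩
    refine ⟨⟨Matrix.toLinearEquiv' M (Matrix.invertibleOfIsUnitDet M hM), fun σ x => ?_⟩⟩
    show Matrix.toLin' M (Matrix.toLin' (r σ) x) = Matrix.toLin' (r' σ) (Matrix.toLin' M x)
    rw [← LinearMap.comp_apply, ← LinearMap.comp_apply, ← Matrix.toLin'_mul, ← Matrix.toLin'_mul,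
      hconj σ]

section BaseChange

variable {B : Type} [CommRing B] [IsLocalRing B]

/-- Push a matrix representation along a ring homomorphism. -/
noncomputable def mapMat (φ : A →+* B) (r : Γ →* Matrix (Fin 2) (Fin 2) A) :
    Γ →* Matrix (Fin 2) (Fin 2) B :=
  ((φ.mapMatrix : Matrix (Fin 2) (Fin 2) A →+* Matrix (Fin 2) (Fin 2) B) :
    Matrix (Fin 2) (Fin 2) A →* Matrix (Fin 2) (Fin 2) B).comp r

omit [IsLocalRing A] [IsLocalRing B] in
theorem mapMat_apply (φ : A →+* B) (r : Γ →* Matrix (Fin 2) (Fin 2) A) (σ : Γ) :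
    mapMat φ r σ = (r σ).map φ := rfl

theorem MatCont.map {r : Γ →* Matrix (Fin 2) (Fin 2) A} (h : MatCont r) (φ : A →+* B)
    (hφ : IsLocalHom φ) : MatCont (mapMat φ r) := by
  intro n
  obtain ⟨L, hL, h1⟩ := h n
  refine ⟨L, hL, fun σ hσ i j => ?_⟩
  have hmap : (maximalIdeal A ^ n).map φ ≤ maximalIdeal B ^ n := by
    rw [Ideal.map_pow]
    exact Ideal.pow_right_mono (Ideal.map_le_iff_le_comap.mpr fun a ha =>
      Ideal.mem_comap.mpr (map_nonunit φ a ha)) n
  have h2 := hmap (Ideal.mem_map_of_mem φ (h1 σ hσ i j))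
  rw [map_sub] at h2
  rw [mapMat_apply, Matrix.map_apply]
  have h3 : φ ((1 : Matrix (Fin 2) (Fin 2) A) i j) = (1 : Matrix (Fin 2) (Fin 2) B) i j := by
    rw [Matrix.one_apply, Matrix.one_apply]
    split_ifs <;> simp
  rwa [h3] at h2

/-- The basis of the base change. -/
noncomputable def baseChangeBasis (ρ : GaloisRepAdic A) (b : Basis (Fin 2) A ρ.V) (φ : A →+* B)
    (hφ : IsLocalHom φ) : Basis (Fin 2) B (ρ.baseChangeAlong φ hφ).V :=
  letI : Algebra A B := φ.toAlgebra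
  Algebra.TensorProduct.basis B b

theorem matOf_baseChangeAlong (ρ : GaloisRepAdic A) (b : Basis (Fin 2) A ρ.V) (φ : A →+* B)
    (hφ : IsLocalHom φ) :
    matOf (ρ.baseChangeAlong φ hφ) (baseChangeBasis ρ b φ hφ) = mapMat φ (matOf ρ b) := by
  let _ : Algebra A B := φ.toAlgebra
  ext σ : 1
  exact LinearMap.toMatrix_baseChange B (ρ.ρ σ) b b

/-- Base change of a matrix model is the matrix model of the pushed matrices. -/
theorem ofMat_baseChangeAlong_isEquiv (r : Γ →* Matrix (Fin 2) (Fin 2) A) (h : MatCont r)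
    (φ : A →+* B) (hφ : IsLocalHom φ) :
    ((ofMat r h).baseChangeAlong φ hφ).IsEquiv (ofMat (mapMat φ r) (h.map φ hφ)) := by
  have e := equivOfMatOf ((ofMat r h).baseChangeAlong φ hφ)
    (baseChangeBasis (ofMat r h) (Pi.basisFun A (Fin 2)) φ hφ)
  have h1 : matOf ((ofMat r h).baseChangeAlong φ hφ)
      (baseChangeBasis (ofMat r h) (Pi.basisFun A (Fin 2)) φ hφ) = mapMat φ r := by
    rw [matOf_baseChangeAlong, matOf_ofMat]
  rw [ofMat_congr _ h1] at e
  exact ⟨e⟩

end BaseChange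

section Conj

omit [IsLocalRing A] in
theorem mul_mul_apply_mem (I : Ideal A) (M X N : Matrix (Fin 2) (Fin 2) A)
    (hX : ∀ i j, X i j ∈ I) (i j : Fin 2) : (M * X * N) i j ∈ I := by
  rw [Matrix.mul_apply]
  refine Ideal.sum_mem _ fun l _ => Ideal.mul_mem_right _ _ ?_
  rw [Matrix.mul_apply]
  exact Ideal.sum_mem _ fun m _ => Ideal.mul_mem_left _ _ (hX m l)

/-- Conjugate a matrix representation: `σ ↦ P⁻¹ * r σ * P`. -/
noncomputable def conjMat (P : Matrix (Fin 2) (Fin 2) A) (hP : IsUnit P.det)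
    (r : Γ →* Matrix (Fin 2) (Fin 2) A) : Γ →* Matrix (Fin 2) (Fin 2) A where
  toFun σ := P⁻¹ * r σ * P
  map_one' := by rw [map_one, Matrix.mul_one, Matrix.nonsing_inv_mul P hP]
  map_mul' σ τ := by
    rw [map_mul]
    calc P⁻¹ * (r σ * r τ) * P = P⁻¹ * r σ * 1 * r τ * P := by
          simp only [Matrix.mul_assoc, Matrix.one_mul]
      _ = P⁻¹ * r σ * (P * P⁻¹) * r τ * P := by rw [Matrix.mul_nonsing_inv P hP]
      _ = P⁻¹ * r σ * P * (P⁻¹ * r τ * P) := by simp only [Matrix.mul_assoc]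

omit [IsLocalRing A] in
theorem conjMat_apply (P : Matrix (Fin 2) (Fin 2) A) (hP : IsUnit P.det)
    (r : Γ →* Matrix (Fin 2) (Fin 2) A) (σ : Γ) : conjMat P hP r σ = P⁻¹ * r σ * P := rfl

theorem MatCont.conj {r : Γ →* Matrix (Fin 2) (Fin 2) A} (h : MatCont r)
    (P : Matrix (Fin 2) (Fin 2) A) (hP : IsUnit P.det) : MatCont (conjMat P hP r) := by
  intro n
  obtain ⟨L, hL, h1⟩ := h n
  refine ⟨L, hL, fun σ hσ i j => ?_⟩
  have h2 : conjMat P hP r σ - 1 = P⁻¹ * (r σ - 1) * P := by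
    rw [conjMat_apply, Matrix.mul_sub, Matrix.sub_mul, Matrix.mul_one, Matrix.nonsing_inv_mul P hP]
  rw [← Matrix.sub_apply, h2]
  exact mul_mul_apply_mem _ _ _ _ (fun i j => by rw [Matrix.sub_apply]; exact h1 σ hσ i j) i j

theorem ofMat_conjMat_isEquiv (r : Γ →* Matrix (Fin 2) (Fin 2) A) (h : MatCont r)
    (P : Matrix (Fin 2) (Fin 2) A) (hP : IsUnit P.det) :
    (ofMat (conjMat P hP r) (h.conj P hP)).IsEquiv (ofMat r h) := by
  rw [ofMat_isEquiv_iff]
  refine ⟨P, hP, fun σ => ?_⟩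
  rw [conjMat_apply, ← Matrix.mul_assoc, ← Matrix.mul_assoc, Matrix.mul_nonsing_inv P hP,
    Matrix.one_mul]

end Conj

section Residual

/-- Equivalence of residual representations in terms of matrices. -/
theorem residual_isEquiv_iff {k : Type} [Field k] (ρ₁ ρ₂ : ResidualGaloisRep k)
    (b₁ : Basis (Fin 2) k ρ₁.V) (b₂ : Basis (Fin 2) k ρ₂.V) :
    ρ₁.IsEquiv ρ₂ ↔ ∃ M : Matrix (Fin 2) (Fin 2) k, IsUnit M.det ∧
      ∀ σ, M * LinearMap.toMatrix b₁ b₁ (ρ₁.ρ σ) = LinearMap.toMatrix b₂ b₂ (ρ₂.ρ σ) * M := by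
  constructor
  · rintro ⟨e⟩
    refine ⟨LinearMap.toMatrix b₁ b₂ (e.toLinearEquiv : ρ₁.V →ₗ[k] ρ₂.V),
      LinearEquiv.isUnit_det e.toLinearEquiv b₁ b₂, fun σ => ?_⟩
    rw [← LinearMap.toMatrix_comp b₁ b₁ b₂, ← LinearMap.toMatrix_comp b₁ b₂ b₂]
    congr 1
    ext x
    exact e.map_apply σ x
  · rintro ⟨M, hM, hconj⟩
    have hdet : IsUnit (LinearMap.toMatrix b₁ b₂ (Matrix.toLin b₁ b₂ M)).det := by
      rw [LinearMap.toMatrix_toLin]; exact hM
    refine ⟨⟨LinearEquiv.ofIsUnitDet hdet, fun σ x => ?_⟩⟩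
    show Matrix.toLin b₁ b₂ M (ρ₁.ρ σ x) = ρ₂.ρ σ (Matrix.toLin b₁ b₂ M x)
    have h1 : Matrix.toLin b₁ b₂ M ∘ₗ ρ₁.ρ σ = ρ₂.ρ σ ∘ₗ Matrix.toLin b₁ b₂ M := by
      apply (LinearMap.toMatrix b₁ b₂).injective
      rw [LinearMap.toMatrix_comp b₁ b₁ b₂, LinearMap.toMatrix_comp b₁ b₂ b₂,
        LinearMap.toMatrix_toLin, hconj σ]
    exact LinearMap.congr_fun h1 x

/-- The basis of the residual representation induced by a basis. -/
noncomputable def residualBasis (ρ : GaloisRepAdic A) (b : Basis (Fin 2) A ρ.V) :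
    Basis (Fin 2) (ResidueField A) ρ.residual.V :=
  Algebra.TensorProduct.basis (ResidueField A) b

theorem toMatrix_residual (ρ : GaloisRepAdic A) (b : Basis (Fin 2) A ρ.V) (σ : Γ) :
    LinearMap.toMatrix (residualBasis ρ b) (residualBasis ρ b) (ρ.residual.ρ σ)
      = (matOf ρ b σ).map (residue A) :=
  LinearMap.toMatrix_baseChange (ResidueField A) (ρ.ρ σ) b b

/-- The basis of a base-changed residual representation. -/
noncomputable def residualBaseChangeBasis {k k' : Type} [Field k] [Field k'] (ψ : k →+* k')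
    (ρbar : ResidualGaloisRep k) (b : Basis (Fin 2) k ρbar.V) :
    Basis (Fin 2) k' (ρbar.baseChangeAlong ψ).V :=
  letI : Algebra k k' := ψ.toAlgebra
  Algebra.TensorProduct.basis k' b

theorem toMatrix_residualBaseChange {k k' : Type} [Field k] [Field k'] (ψ : k →+* k')
    (ρbar : ResidualGaloisRep k) (b : Basis (Fin 2) k ρbar.V) (σ : Γ) :
    LinearMap.toMatrix (residualBaseChangeBasis ψ ρbar b) (residualBaseChangeBasis ψ ρbar b)
      ((ρbar.baseChangeAlong ψ).ρ σ) = (LinearMap.toMatrix b b (ρbar.ρ σ)).map ψ := by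
  let _ : Algebra k k' := ψ.toAlgebra
  exact LinearMap.toMatrix_baseChange k' (ρbar.ρ σ) b b

theorem exists_matrix_lift (M : Matrix (Fin 2) (Fin 2) (ResidueField A)) (hM : IsUnit M.det) :
    ∃ N : Matrix (Fin 2) (Fin 2) A, IsUnit N.det ∧ N.map (residue A) = M := by
  choose f hf using fun i j => residue_surjective (R := A) (M i j)
  refine ⟨Matrix.of f, ?_, ?_⟩
  · have h1 : residue A (Matrix.of f).det = M.det := by
      rw [RingHom.map_det]
      congr 1
      ext i j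
      exact hf i j
    by_contra hn
    have h2 : (Matrix.of f).det ∈ maximalIdeal A := (mem_maximalIdeal _).mpr hn
    rw [← residue_eq_zero_iff, h1] at h2
    rw [h2] at hM
    exact not_isUnit_zero hM
  · ext i j
    exact hf i j

omit [IsLocalRing A] in
theorem map_nonsing_inv {B : Type} [CommRing B] (φ : A →+* B) (P : Matrix (Fin 2) (Fin 2) A)
    (hP : IsUnit P.det) : (P⁻¹).map φ = (P.map φ)⁻¹ := by
  have h1 : P.map φ * (P⁻¹).map φ = 1 := by
    have := congrArg (fun X : Matrix (Fin 2) (Fin 2) A => X.map φ) (Matrix.mul_nonsing_inv P hP)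
    simpa [Matrix.map_mul] using this
  exact (Matrix.inv_eq_right_inv h1).symm

/-- A representation whose residual representation is `ρbar` has a matrix model lifting the
matrices of `ρbar`. -/
theorem exists_lift_of_residual_isEquiv {k : Type} [Field k] (ψ : k →+* ResidueField A)
    (ρbar : ResidualGaloisRep k) (bbar : Basis (Fin 2) k ρbar.V) (ρ : GaloisRepAdic A)
    (h : ρ.residual.IsEquiv (ρbar.baseChangeAlong ψ)) :
    ∃ (r : Γ →* Matrix (Fin 2) (Fin 2) A) (hr : MatCont r), (ofMat r hr).IsEquiv ρ ∧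
      ∀ σ, (r σ).map (residue A) = (LinearMap.toMatrix bbar bbar (ρbar.ρ σ)).map ψ := by
  let b : Basis (Fin 2) A ρ.V := Module.finBasisOfFinrankEq A ρ.V ρ.finrank_eq
  obtain ⟨M, hM, hconj⟩ := (residual_isEquiv_iff _ _ (residualBasis ρ b)
    (residualBaseChangeBasis ψ ρbar bbar)).mp h
  obtain ⟨N, hN, hNM⟩ := exists_matrix_lift M hM
  have hN' : IsUnit (N⁻¹).det := by
    rw [Matrix.det_nonsing_inv]
    exact hN.ringInverse
  refine ⟨conjMat N⁻¹ hN' (matOf ρ b), (matCont_matOf ρ b).conj _ _, ?_, fun σ => ?_⟩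
  · obtain ⟨e₁⟩ := ofMat_conjMat_isEquiv (matOf ρ b) (matCont_matOf ρ b) N⁻¹ hN'
    exact ⟨e₁.trans (equivOfMatOf ρ b).symm⟩
  · have h1 := hconj σ
    rw [toMatrix_residual, toMatrix_residualBaseChange] at h1
    rw [conjMat_apply, Matrix.nonsing_inv_nonsing_inv N hN, Matrix.map_mul, Matrix.map_mul, hNM,
      h1, map_nonsing_inv _ N hN, hNM, Matrix.mul_assoc, Matrix.mul_nonsing_inv M hM,
      Matrix.mul_one]

/-- Conversely a matrix model lifting the matrices of `ρbar` has residual representation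
`ρbar`. -/
theorem residual_isEquiv_of_lift {k : Type} [Field k] (ψ : k →+* ResidueField A)
    (ρbar : ResidualGaloisRep k) (bbar : Basis (Fin 2) k ρbar.V)
    (r : Γ →* Matrix (Fin 2) (Fin 2) A) (hr : MatCont r)
    (h : ∀ σ, (r σ).map (residue A) = (LinearMap.toMatrix bbar bbar (ρbar.ρ σ)).map ψ) :
    (ofMat r hr).residual.IsEquiv (ρbar.baseChangeAlong ψ) := by
  rw [residual_isEquiv_iff _ _ (residualBasis (ofMat r hr) (Pi.basisFun A (Fin 2)))
    (residualBaseChangeBasis ψ ρbar bbar)]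
  refine ⟨1, by simp, fun σ => ?_⟩
  rw [toMatrix_residual, toMatrix_residualBaseChange, matOf_ofMat, h σ, Matrix.one_mul,
    Matrix.mul_one]

end Residual

end Fermat.Agent.S53
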