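import Fermat.Agent.S53.Defs
import Fermat.Agent.S53.MatrixModel

set_option autoImplicit false

open IsLocalRing

namespace Fermat.Agent.S53

section adic
variable {A : Type} [CommRing A] [IsLocalRing A]

theorem hasMatrix_matOf (ρ : GaloisRepAdic A) (b : Module.Basis (Fin 2) A ρ.V) :
    HasMatrix ρ (matOf ρ b) := ⟨b, fun _ => rfl⟩

theorem HasMatrix.exists_matOf {ρ : GaloisRepAdic A} {r : G → M2 A} (h : HasMatrix ρ r) :
    ∃ b : Module.Basis (Fin 2) A ρ.V, (matOf ρ b : G → M2 A) = r := by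
  obtain ⟨b, hb⟩ := h
  exact ⟨b, funext hb⟩

theorem exists_hasMatrix (ρ : GaloisRepAdic A) : ∃ r, HasMatrix ρ r :=
  ⟨_, hasMatrix_matOf ρ (Module.finBasisOfFinrankEq A ρ.V ρ.finrank_eq)⟩

theorem HasMatrix.baseChangeAlong {B : Type} [CommRing B] [IsLocalRing B]
    {ρ : GaloisRepAdic A} {r : G → M2 A} (h : HasMatrix ρ r) (φ : A →+* B) (hφ : IsLocalHom φ) :
    HasMatrix (ρ.baseChangeAlong φ hφ) (fun σ => (r σ).map φ) := by
  obtain ⟨b, hb⟩ := h
  refine ⟨baseChangeBasis ρ b φ hφ, fun σ => ?_⟩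
  have h1 := congrArg (fun f => f σ) (matOf_baseChangeAlong ρ b φ hφ)
  simp only [matOf_apply, mapMat_apply] at h1
  rw [h1, hb]

theorem hasMatrix_ofMat (r : G →* M2 A) (h : MatCont r) : HasMatrix (ofMat r h) r :=
  ⟨Pi.basisFun A (Fin 2), fun σ => congrArg (fun f => f σ) (matOf_ofMat r h)⟩

theorem HasMatrix.of_isEquiv {ρ ρ' : GaloisRepAdic A} {r : G → M2 A} (h : HasMatrix ρ r)
    (e : ρ.IsEquiv ρ') : HasMatrix ρ' r := by
  obtain ⟨b, hb⟩ := h
  obtain ⟨e⟩ := e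
  refine ⟨b.map e.toLinearEquiv, fun σ => ?_⟩
  rw [← hb σ]
  ext i j
  rw [LinearMap.toMatrix_apply, LinearMap.toMatrix_apply, Module.Basis.map_apply,
    ← e.map_apply, Module.Basis.map_repr, LinearEquiv.trans_apply, LinearEquiv.symm_apply_apply]

theorem HasMatrix.isEquiv_ofMat {ρ : GaloisRepAdic A} {r : G →* M2 A} (h : HasMatrix ρ r)
    (hr : MatCont r) : ρ.IsEquiv (ofMat r hr) := by
  obtain ⟨b, hb⟩ := h
  have e := equivOfMatOf ρ b
  have h1 : matOf ρ b = r := by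
    ext σ : 1
    exact hb σ
  rw [ofMat_congr _ h1] at e
  exact ⟨e⟩

theorem HasMatrix.isMatRep {ρ : GaloisRepAdic A} {r : G → M2 A} (h : HasMatrix ρ r) :
    IsMatRep r := by
  obtain ⟨b, rfl⟩ := h.exists_matOf
  refine ⟨map_one _, map_mul _, fun n => ?_⟩
  obtain ⟨L, hL, h1⟩ := matCont_matOf ρ b n
  exact ⟨L, hL, fun σ hσ i j => by rw [Matrix.sub_apply]; exact h1 σ hσ i j⟩

/-- The monoid hom underlying a matrix representation. -/
def IsMatRep.toMonoidHom {r : G → M2 A} (h : IsMatRep r) : G →* M2 A where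
  toFun := r
  map_one' := h.map_one
  map_mul' := h.map_mul

theorem IsMatRep.matCont {r : G → M2 A} (h : IsMatRep r) : MatCont h.toMonoidHom := by
  intro n
  obtain ⟨L, hL, h1⟩ := h.cont n
  exact ⟨L, hL, fun σ hσ i j => by
    have := h1 σ hσ i j
    rwa [Matrix.sub_apply] at this⟩

theorem IsMatRep.exists_hasMatrix {r : G → M2 A} (h : IsMatRep r) :
    ∃ ρ : GaloisRepAdic A, HasMatrix ρ r :=
  ⟨ofMat h.toMonoidHom h.matCont, hasMatrix_ofMat h.toMonoidHom h.matCont⟩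

theorem HasMatrix.isEquiv {ρ ρ' : GaloisRepAdic A} {r : G → M2 A} (h : HasMatrix ρ r)
    (h' : HasMatrix ρ' r) : ρ.IsEquiv ρ' := by
  have hr := h.isMatRep
  obtain ⟨e⟩ := HasMatrix.isEquiv_ofMat (r := hr.toMonoidHom) h hr.matCont
  obtain ⟨e'⟩ := HasMatrix.isEquiv_ofMat (r := hr.toMonoidHom) h' hr.matCont
  exact ⟨e.trans e'.symm⟩

theorem HasMatrix.conj {ρ : GaloisRepAdic A} {r : G → M2 A} (h : HasMatrix ρ r)
    (P : M2 A) (hP : IsUnit P) : HasMatrix ρ (fun σ => P * r σ * P⁻¹) := by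
  have hr := h.isMatRep
  have hPd : IsUnit P.det := (Matrix.isUnit_iff_isUnit_det P).mp hP
  have hP' : IsUnit (P⁻¹).det := by
    rw [Matrix.det_nonsing_inv]
    exact hPd.ringInverse
  obtain ⟨e⟩ := HasMatrix.isEquiv_ofMat (r := hr.toMonoidHom) h hr.matCont
  obtain ⟨e'⟩ := ofMat_conjMat_isEquiv hr.toMonoidHom hr.matCont P⁻¹ hP'
  have h2 := (hasMatrix_ofMat (conjMat P⁻¹ hP' hr.toMonoidHom) (hr.matCont.conj _ _)).of_isEquiv
    ⟨e'.trans e.symm⟩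
  have h3 : (conjMat P⁻¹ hP' hr.toMonoidHom : G → M2 A) = fun σ => P * r σ * P⁻¹ := by
    funext σ
    rw [conjMat_apply, Matrix.nonsing_inv_nonsing_inv P hPd]
    rfl
  rwa [h3] at h2

theorem HasMatrix.exists_conj {ρ : GaloisRepAdic A} {r r' : G → M2 A} (h : HasMatrix ρ r)
    (h' : HasMatrix ρ r') : ∃ P : M2 A, IsUnit P ∧ ∀ σ, P * r σ = r' σ * P := by
  have hr := h.isMatRep
  have hr' := h'.isMatRep
  obtain ⟨e⟩ := HasMatrix.isEquiv_ofMat (r := hr.toMonoidHom) h hr.matCont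
  obtain ⟨e'⟩ := HasMatrix.isEquiv_ofMat (r := hr'.toMonoidHom) h' hr'.matCont
  obtain ⟨M, hM, hc⟩ := (ofMat_isEquiv_iff _ _ hr.matCont hr'.matCont).mp ⟨e.symm.trans e'⟩
  exact ⟨M, (Matrix.isUnit_iff_isUnit_det M).mpr hM, hc⟩

theorem HasMatrix.residual {ρ : GaloisRepAdic A} {r : G → M2 A} (h : HasMatrix ρ r) :
    HasMatrixRes ρ.residual (fun σ => (r σ).map (residue A)) := by
  obtain ⟨b, hb⟩ := h
  refine ⟨residualBasis ρ b, fun σ => ?_⟩
  rw [toMatrix_residual, matOf_apply, hb]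

end adic

section res
variable {k : Type} [Field k]

theorem exists_hasMatrixRes (ρ : ResidualGaloisRep k) : ∃ r, HasMatrixRes ρ r :=
  ⟨_, Module.finBasisOfFinrankEq k ρ.V ρ.finrank_eq, fun _ => rfl⟩

theorem HasMatrixRes.baseChangeAlong {k' : Type} [Field k']
    {ρ : ResidualGaloisRep k} {r : G → M2 k} (h : HasMatrixRes ρ r) (φ : k →+* k') :
    HasMatrixRes (ρ.baseChangeAlong φ) (fun σ => (r σ).map φ) := by
  obtain ⟨b, hb⟩ := h
  refine ⟨residualBaseChangeBasis φ ρ b, fun σ => ?_⟩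
  rw [toMatrix_residualBaseChange, hb]

theorem HasMatrixRes.isEquiv {ρ ρ' : ResidualGaloisRep k} {r : G → M2 k} (h : HasMatrixRes ρ r)
    (h' : HasMatrixRes ρ' r) : ρ.IsEquiv ρ' := by
  obtain ⟨b, hb⟩ := h
  obtain ⟨b', hb'⟩ := h'
  rw [residual_isEquiv_iff _ _ b b']
  exact ⟨1, by simp, fun σ => by rw [hb, hb', Matrix.one_mul, Matrix.mul_one]⟩

theorem HasMatrixRes.of_isEquiv {ρ ρ' : ResidualGaloisRep k} {r : G → M2 k}
    (h : HasMatrixRes ρ r) (e : ρ.IsEquiv ρ') : HasMatrixRes ρ' r := by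
  obtain ⟨b, hb⟩ := h
  obtain ⟨e⟩ := e
  refine ⟨b.map e.toLinearEquiv, fun σ => ?_⟩
  rw [← hb σ]
  ext i j
  rw [LinearMap.toMatrix_apply, LinearMap.toMatrix_apply, Module.Basis.map_apply,
    ← e.map_apply, Module.Basis.map_repr, LinearEquiv.trans_apply, LinearEquiv.symm_apply_apply]

theorem HasMatrixRes.exists_conj {ρ : ResidualGaloisRep k} {r r' : G → M2 k}
    (h : HasMatrixRes ρ r) (h' : HasMatrixRes ρ r') :
    ∃ P : M2 k, IsUnit P ∧ ∀ σ, P * r σ = r' σ * P := by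
  obtain ⟨b, hb⟩ := h
  obtain ⟨b', hb'⟩ := h'
  obtain ⟨M, hM, hc⟩ := (residual_isEquiv_iff ρ ρ b b').mp ⟨ResidualGaloisRep.Equiv.refl ρ⟩
  exact ⟨M, (Matrix.isUnit_iff_isUnit_det M).mpr hM, fun σ => by rw [← hb, ← hb']; exact hc σ⟩

theorem HasMatrixRes.ofResidualGaloisRep {ρ : ResidualGaloisRep k} {r : G → M2 k}
    (h : HasMatrixRes ρ r) : HasMatrix (GaloisRepAdic.ofResidualGaloisRep ρ) r := by
  obtain ⟨b, hb⟩ := h
  exact ⟨b, hb⟩

end res

end Fermat.Agent.S53
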