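import Fermat.Agent.S53.RepDefs

set_option autoImplicit false

open IsLocalRing

namespace Fermat.Agent.S53

/-- (SEP) homs to the dual numbers separate points of a square zero `k`-algebra. -/
theorem exists_algHom_dualNumber_ne_zero (𝒪 : Type) [CommRing 𝒪] [IsLocalRing 𝒪]
    {A : Type} [CommRing A] [IsLocalRing A] [Algebra 𝒪 A] [IsLocalHom (algebraMap 𝒪 A)]
    (hres : Function.Surjective (IsLocalRing.residue A ∘ algebraMap 𝒪 A))
    (hpi : ∀ c ∈ maximalIdeal 𝒪, algebraMap 𝒪 A c = 0)
    (hsq : ∀ x ∈ maximalIdeal A, ∀ y ∈ maximalIdeal A, x * y = 0)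
    (a : A) (ha : a ≠ 0) :
    letI := dualAlg 𝒪
    ∃ φ : A →ₐ[𝒪] DualNumber (ResidueField 𝒪), φ a ≠ 0 := by
  classical
  letI := dualAlg 𝒪
  -- the section `k → A`
  let ι : ResidueField 𝒪 →+* A := Ideal.Quotient.lift (maximalIdeal 𝒪) (algebraMap 𝒪 A) hpi
  have hι : ∀ c : 𝒪, ι (residue 𝒪 c) = algebraMap 𝒪 A c := fun c => rfl
  -- the retraction `A → k`
  have hbij : Function.Bijective (ResidueField.map (algebraMap 𝒪 A)) := by
    refine ⟨RingHom.injective _, fun y => ?_⟩
    obtain ⟨c, hc⟩ := hres y
    exact ⟨residue 𝒪 c, by rw [ResidueField.map_residue]; exact hc⟩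
  let e : ResidueField 𝒪 ≃+* ResidueField A := RingEquiv.ofBijective _ hbij
  let res : A →+* ResidueField 𝒪 := (e.symm : ResidueField A →+* ResidueField 𝒪).comp (residue A)
  have hres_alg : ∀ c : 𝒪, res (algebraMap 𝒪 A c) = residue 𝒪 c := by
    intro c
    show e.symm (residue A (algebraMap 𝒪 A c)) = residue 𝒪 c
    rw [RingEquiv.symm_apply_eq]
    exact (ResidueField.map_residue (algebraMap 𝒪 A) c).symm
  have hresι : ∀ s : ResidueField 𝒪, res (ι s) = s := by
    intro s
    obtain ⟨c, rfl⟩ := residue_surjective s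
    rw [hι, hres_alg]
  have hres0 : ∀ x : A, res x = 0 ↔ x ∈ maximalIdeal A := by
    intro x
    show e.symm (residue A x) = 0 ↔ _
    rw [map_eq_zero_iff _ e.symm.injective, residue_eq_zero_iff]
  have hmem : ∀ x : A, x - ι (res x) ∈ maximalIdeal A := by
    intro x
    rw [← hres0, map_sub, hresι, sub_self]
  -- `A` as a `k`-vector space
  letI : Module (ResidueField 𝒪) A := Module.compHom A ι
  have hsmul : ∀ (s : ResidueField 𝒪) (z : A), s • z = ι s * z := fun s z => rfl
  obtain ⟨g, hg⟩ : ∃ g : Module.Dual (ResidueField 𝒪) A, g a ≠ 0 := by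
    by_contra hcon
    push Not at hcon
    exact ha ((Module.forall_dual_apply_eq_zero_iff (ResidueField 𝒪) a).mp hcon)
  let toF : A → DualNumber (ResidueField 𝒪) := fun x =>
    TrivSqZeroExt.inl (res x) + TrivSqZeroExt.inr (g (x - ι (res x)))
  have hmul : ∀ x y, toF (x * y) = toF x * toF y := by
    intro x y
    have key : x * y - ι (res (x * y)) =
        res x • (y - ι (res y)) + res y • (x - ι (res x)) := by
      have h0 := hsq _ (hmem x) _ (hmem y)
      rw [hsmul, hsmul, map_mul, map_mul]
      linear_combination h0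
    ext
    · simp [toF]
    · simp only [toF, key, map_add, map_smul, TrivSqZeroExt.snd_add, TrivSqZeroExt.snd_inl,
        TrivSqZeroExt.snd_inr, TrivSqZeroExt.snd_mul, TrivSqZeroExt.fst_add, TrivSqZeroExt.fst_inl,
        TrivSqZeroExt.fst_inr, smul_eq_mul, zero_add, add_zero, MulOpposite.smul_eq_mul_unop,
        MulOpposite.unop_op]
      ring
  have hadd : ∀ x y, toF (x + y) = toF x + toF y := by
    intro x y
    have key : x + y - ι (res (x + y)) = (x - ι (res x)) + (y - ι (res y)) := by
      rw [map_add, map_add]; ring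
    ext
    · simp [toF]
    · have h2 : g (x + y - ι (res (x + y))) = g (x - ι (res x)) + g (y - ι (res y)) := by
        rw [key, map_add]
      simpa only [toF, TrivSqZeroExt.snd_add, TrivSqZeroExt.snd_inl,
        TrivSqZeroExt.snd_inr, zero_add] using h2
  have halg : ∀ c : 𝒪, toF (algebraMap 𝒪 A c) = algebraMap 𝒪 (DualNumber (ResidueField 𝒪)) c := by
    intro c
    show TrivSqZeroExt.inl (res (algebraMap 𝒪 A c)) +
      TrivSqZeroExt.inr (g (algebraMap 𝒪 A c - ι (res (algebraMap 𝒪 A c)))) =
      TrivSqZeroExt.inl (residue 𝒪 c)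
    rw [hres_alg, hι, sub_self, map_zero, TrivSqZeroExt.inr_zero, add_zero]
  let φ : A →ₐ[𝒪] DualNumber (ResidueField 𝒪) :=
    { toFun := toF
      map_one' := by
        have := halg 1
        rwa [map_one, map_one] at this
      map_mul' := hmul
      map_zero' := by
        have := halg 0
        rwa [map_zero, map_zero] at this
      map_add' := hadd
      commutes' := halg }
  refine ⟨φ, fun h => ?_⟩
  have h1 : res a = 0 := by
    have := congrArg TrivSqZeroExt.fst h
    simpa [φ, toF] using this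
  have h2 : g (a - ι (res a)) = 0 := by
    have := congrArg TrivSqZeroExt.snd h
    simpa [φ, toF] using this
  rw [h1, map_zero, sub_zero] at h2
  exact hg h2

end Fermat.Agent.S53
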