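import Mathlib
import Fermat.Prelude.Thm_IsAdicComplete_of_module_finite

set_option autoImplicit false

namespace Fermat.Agent.S53

open IsLocalRing

namespace Completion

section MittagLeffler

variable {P : Type*} [CommRing P] (𝔞 : Ideal P) (J : ℕ → Ideal P)

/-- Cauchy sequences (successive form) converge in a precomplete ring. -/
theorem exists_limit_of_succ [IsPrecomplete 𝔞 P] (c : ℕ → P)
    (hc : ∀ m, c (m + 1) - c m ∈ 𝔞 ^ m) : ∃ F : P, ∀ m, F - c m ∈ 𝔞 ^ m := by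
  have hc' : ∀ {m n : ℕ}, m ≤ n → c m ≡ c n [SMOD (𝔞 ^ m • ⊤ : Submodule P P)] := by
    intro m n hmn
    induction n, hmn using Nat.le_induction with
    | base => exact SModEq.refl _
    | succ n hmn ih =>
      refine ih.trans ?_
      rw [SModEq.sub_mem, smul_eq_mul, Ideal.mul_top]
      have := Ideal.pow_le_pow_right hmn (hc n)
      rw [← neg_sub]
      exact neg_mem this
  obtain ⟨F, hF⟩ := IsPrecomplete.prec ‹_› hc'
  refine ⟨F, fun m => ?_⟩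
  have := hF m
  rw [SModEq.sub_mem, smul_eq_mul, Ideal.mul_top] at this
  rw [← neg_sub]
  exact neg_mem this

theorem mittagLeffler_core [IsPrecomplete 𝔞 P]
    (hpow : ∀ n, 𝔞 ^ n ≤ J n) (hsucc : ∀ n, J n ≤ J (n + 1) ⊔ 𝔞 ^ n)
    (f : ℕ → P) (N : ℕ) (hf : ∀ n, N ≤ n → f (n + 1) - f n ∈ J n)
    (g₀ : P) (hg₀ : g₀ - f N ∈ J N) :
    ∃ F : P, F - g₀ ∈ 𝔞 ^ N ∧ ∀ n, N ≤ n → F - f n ∈ J n := by
  -- one step of the construction
  have step : ∀ (k : ℕ) (g : P), g - f (N + k) ∈ J (N + k) →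
      ∃ g' : P, g' - f (N + k + 1) ∈ J (N + k + 1) ∧ g' - g ∈ 𝔞 ^ (N + k) := by
    intro k g hg
    have h1 : f (N + k + 1) - g ∈ J (N + k) := by
      have := sub_mem (hf (N + k) (Nat.le_add_right _ _)) hg
      simpa using this
    obtain ⟨j, hj, a, ha, hja⟩ := Submodule.mem_sup.mp (hsucc _ h1)
    refine ⟨g + a, ?_, by simpa using ha⟩
    have : g + a - f (N + k + 1) = -j := by
      have : a = f (N + k + 1) - g - j := by rw [← hja]; ring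
      rw [this]; ring
    rw [this]
    exact neg_mem hj
  choose! nxt hnxt1 hnxt2 using step
  obtain ⟨hv, hv0, hvmem, hvs⟩ : ∃ hv : ℕ → P, hv 0 = g₀ ∧
      (∀ k, hv k - f (N + k) ∈ J (N + k)) ∧ ∀ k, hv (k + 1) - hv k ∈ 𝔞 ^ (N + k) := by
    let h : ∀ k : ℕ, {g : P // g - f (N + k) ∈ J (N + k)} := fun k =>
      Nat.rec (motive := fun k => {g : P // g - f (N + k) ∈ J (N + k)}) ⟨g₀, hg₀⟩
        (fun k g => ⟨nxt k g.1, hnxt1 k g.1 g.2⟩) k
    exact ⟨fun k => (h k).1, rfl, fun k => (h k).2, fun k => hnxt2 k (h k).1 (h k).2⟩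
  obtain ⟨F, hF⟩ := exists_limit_of_succ 𝔞 (fun m => hv (m - N)) (by
    intro m
    by_cases hm : N ≤ m
    · obtain ⟨k, rfl⟩ := Nat.exists_eq_add_of_le hm
      have e1 : N + k + 1 - N = k + 1 := by omega
      have e2 : N + k - N = k := by omega
      simp only [e1, e2]
      exact hvs k
    · have e1 : m + 1 - N = 0 := by omega
      have e2 : m - N = 0 := by omega
      simp only [e1, e2, sub_self, zero_mem])
  refine ⟨F, ?_, fun n hn => ?_⟩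
  · have := hF N
    simpa [hv0] using this
  · obtain ⟨k, rfl⟩ := Nat.exists_eq_add_of_le hn
    have h1 := hpow _ (hF (N + k))
    have e2 : N + k - N = k := by omega
    simp only [e2] at h1
    have := add_mem h1 (hvmem k)
    simpa using this

theorem mittagLeffler_exists [IsPrecomplete 𝔞 P]
    (hpow : ∀ n, 𝔞 ^ n ≤ J n) (hsucc : ∀ n, J n ≤ J (n + 1) ⊔ 𝔞 ^ n)
    (f : ℕ → P) (hf : ∀ n, f (n + 1) - f n ∈ J n) :
    ∃ F : P, ∀ n, F - f n ∈ J n := by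
  obtain ⟨F, -, hF⟩ := mittagLeffler_core 𝔞 J hpow hsucc f 0 (fun n _ => hf n) (f 0) (by simp)
  exact ⟨F, fun n => hF n (Nat.zero_le _)⟩

theorem le_iInf_sup_pow [IsPrecomplete 𝔞 P]
    (hpow : ∀ n, 𝔞 ^ n ≤ J n) (hsucc : ∀ n, J n ≤ J (n + 1) ⊔ 𝔞 ^ n)
    (hanti : ∀ n, J (n + 1) ≤ J n) (n : ℕ) :
    J n ≤ (⨅ k, J k) ⊔ 𝔞 ^ n := by
  intro x hx
  have hanti' : Antitone J := antitone_nat_of_succ_le hanti
  obtain ⟨F, hF0, hF⟩ := mittagLeffler_core 𝔞 J hpow hsucc (fun _ => x) n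
    (fun _ _ => by simp) 0 (by simpa using hx)
  rw [sub_zero] at hF0
  refine Submodule.mem_sup.mpr ⟨x - F, ?_, F, hF0, by ring⟩
  rw [Ideal.mem_iInf]
  intro k
  rw [← neg_sub]
  refine neg_mem ?_
  rcases le_total n k with h | h
  · exact hF k h
  · exact hanti' h (hF n le_rfl)

end MittagLeffler

theorem sup_pow_le {A : Type*} [CommRing A] (K L : Ideal A) (n : ℕ) :
    (K ⊔ L) ^ n ≤ K ^ n ⊔ L := by
  induction n with
  | zero => simp
  | succ n ih =>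
    calc (K ⊔ L) ^ (n + 1) = (K ⊔ L) ^ n * (K ⊔ L) := pow_succ _ _
      _ ≤ (K ^ n ⊔ L) * (K ⊔ L) := Ideal.mul_mono_left ih
      _ = K ^ n * (K ⊔ L) ⊔ L * (K ⊔ L) := Ideal.sup_mul _ _ _
      _ = (K ^ n * K ⊔ K ^ n * L) ⊔ L * (K ⊔ L) := by rw [Ideal.mul_sup]
      _ ≤ K ^ (n + 1) ⊔ L :=
        sup_le (sup_le (le_sup_of_le_left (le_of_eq (pow_succ _ _).symm))
          (le_sup_of_le_right Ideal.mul_le_right)) (le_sup_of_le_right Ideal.mul_le_left)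

theorem surjective_of_nilpotent_aux {P A : Type*} [CommRing P] [CommRing A] (g : P →+* A)
    (𝔞 : Ideal P) [IsPrecomplete 𝔞 P] (n : ℕ) (hn : (𝔞.map g) ^ n = ⊥)
    (h : ∀ a : A, ∃ p : P, g p - a ∈ 𝔞.map g) : Function.Surjective g := by
  have hH : IsHausdorff (𝔞.map g) A := by
    refine ⟨fun x hx => ?_⟩
    have h := hx n
    rw [hn, SModEq.sub_mem] at h
    simpa using h
  refine surjective_of_mk_map_comp_surjective (I := 𝔞) g ?_
  intro a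
  obtain ⟨a, rfl⟩ := Ideal.Quotient.mk_surjective a
  obtain ⟨p, hp⟩ := h a
  exact ⟨p, (Ideal.Quotient.mk_eq_mk_iff_sub_mem _ _).mpr hp⟩

section Construction

variable {𝒪 : Type} [CommRing 𝒪] {Λ : Type} [CommRing Λ] [Algebra 𝒪 Λ]
  (𝔪 : Ideal Λ) (I : ℕ → Ideal Λ) {d : ℕ} (y : Fin d → Λ)

theorem le_span_sup (hanti : ∀ n, I (n + 1) ≤ I n) (hpow : ∀ n, 𝔪 ^ n ≤ I n)
    (hsucc : ∀ n, I n ≤ I (n + 1) ⊔ 𝔪 ^ n)
    (hgen : 𝔪 ≤ Ideal.span (Set.range y) ⊔ I 2) (n : ℕ) :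
    𝔪 ≤ Ideal.span (Set.range y) ⊔ I n := by
  have hanti' : Antitone I := antitone_nat_of_succ_le hanti
  -- `I 2 ≤ I n ⊔ 𝔪 ^ 2`
  have h2 : I 2 ≤ I n ⊔ 𝔪 ^ 2 := by
    rcases le_total n 2 with h | h
    · exact (hanti' h).trans le_sup_left
    · induction n, h using Nat.le_induction with
      | base => exact le_sup_left
      | succ k hk ih =>
        refine ih.trans (sup_le ((hsucc k).trans (sup_le le_sup_left ?_)) le_sup_right)
        exact (Ideal.pow_le_pow_right hk).trans le_sup_right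
  have h3 : 𝔪 ≤ Ideal.span (Set.range y) ⊔ I n ⊔ 𝔪 ^ 2 := by
    refine hgen.trans (sup_le (le_sup_left.trans le_sup_left) ?_)
    refine h2.trans (sup_le (le_sup_right.trans le_sup_left) le_sup_right)
  have h4 : ∀ j : ℕ, 𝔪 ≤ Ideal.span (Set.range y) ⊔ I n ⊔ 𝔪 ^ (j + 1) := by
    intro j
    induction j with
    | zero => simp
    | succ j ih =>
      refine h3.trans (sup_le le_sup_left ?_)
      calc 𝔪 ^ 2 = 𝔪 * 𝔪 := pow_two _
        _ ≤ (Ideal.span (Set.range y) ⊔ I n ⊔ 𝔪 ^ (j + 1)) * 𝔪 := Ideal.mul_mono_left ih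
        _ = (Ideal.span (Set.range y) ⊔ I n) * 𝔪 ⊔ 𝔪 ^ (j + 1) * 𝔪 := Ideal.sup_mul _ _ _
        _ ≤ Ideal.span (Set.range y) ⊔ I n ⊔ 𝔪 ^ (j + 1 + 1) :=
          sup_le_sup Ideal.mul_le_left (le_of_eq (pow_succ _ _).symm)
  refine (h4 n).trans (sup_le le_rfl ?_)
  exact ((Ideal.pow_le_pow_right (Nat.le_succ n)).trans (hpow n)).trans le_sup_right

theorem aeval_mem_pow (hy : ∀ i, y i ∈ 𝔪) (n : ℕ) (a : MvPolynomial (Fin d) 𝒪)
    (ha : a ∈ MvPolynomial.idealOfVars (Fin d) 𝒪 ^ n) :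
    MvPolynomial.aeval y a ∈ 𝔪 ^ n := by
  have h1 : (MvPolynomial.idealOfVars (Fin d) 𝒪).map (MvPolynomial.aeval (R := 𝒪) y) ≤ 𝔪 := by
    rw [MvPolynomial.idealOfVars, Ideal.map_span, Ideal.span_le]
    rintro _ ⟨_, ⟨i, rfl⟩, rfl⟩
    simpa using hy i
  have h2 := Ideal.mem_map_of_mem (MvPolynomial.aeval (R := 𝒪) y) ha
  rw [Ideal.map_pow] at h2
  exact Ideal.pow_right_mono h1 n h2

/-- The evaluation map from the power series ring to the `n`-th quotient. -/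
noncomputable def gam (hy : ∀ i, y i ∈ 𝔪) (hpow : ∀ n, 𝔪 ^ n ≤ I n) (n : ℕ) :
    MvPowerSeries (Fin d) 𝒪 →ₐ[𝒪] Λ ⧸ I n :=
  (Ideal.Quotient.liftₐ (MvPolynomial.idealOfVars (Fin d) 𝒪 ^ n)
      ((Ideal.Quotient.mkₐ 𝒪 (I n)).comp (MvPolynomial.aeval y))
      (fun a ha => by
        simp only [AlgHom.comp_apply, Ideal.Quotient.mkₐ_eq_mk]
        exact Ideal.Quotient.eq_zero_iff_mem.mpr (hpow n (aeval_mem_pow 𝔪 y hy n a ha)))).comp
    ((MvPowerSeries.truncTotalAlgHom (Fin d) 𝒪 n).restrictScalars 𝒪)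

theorem gam_apply (hy : ∀ i, y i ∈ 𝔪) (hpow : ∀ n, 𝔪 ^ n ≤ I n) (n : ℕ)
    (f : MvPowerSeries (Fin d) 𝒪) :
    gam 𝔪 I y hy hpow n f =
      Ideal.Quotient.mk (I n) (MvPolynomial.aeval y (MvPowerSeries.truncTotal n f)) := by
  rfl

theorem gam_coe (hy : ∀ i, y i ∈ 𝔪) (hpow : ∀ n, 𝔪 ^ n ≤ I n) (n : ℕ)
    (p : MvPolynomial (Fin d) 𝒪) :
    gam 𝔪 I y hy hpow n (p : MvPowerSeries (Fin d) 𝒪) =
      Ideal.Quotient.mk (I n) (MvPolynomial.aeval y p) := by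
  have h := (MvPowerSeries.truncTotalAlgHom (Fin d) 𝒪 n).commutes p
  have h' : (MvPowerSeries.truncTotalAlgHom (Fin d) 𝒪 n) (p : MvPowerSeries (Fin d) 𝒪) =
      Ideal.Quotient.mk (MvPolynomial.idealOfVars (Fin d) 𝒪 ^ n) p := h
  simp only [gam, AlgHom.comp_apply, AlgHom.restrictScalars_apply, h']
  rfl

theorem gam_X (hy : ∀ i, y i ∈ 𝔪) (hpow : ∀ n, 𝔪 ^ n ≤ I n) (n : ℕ) (i : Fin d) :
    gam 𝔪 I y hy hpow n (MvPowerSeries.X i : MvPowerSeries (Fin d) 𝒪) =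
      Ideal.Quotient.mk (I n) (y i) := by
  rw [← MvPolynomial.coe_X, gam_coe, MvPolynomial.aeval_X]

theorem gam_compat (hy : ∀ i, y i ∈ 𝔪) (hpow : ∀ n, 𝔪 ^ n ≤ I n)
    (hanti : ∀ n, I (n + 1) ≤ I n) (n : ℕ) (f : MvPowerSeries (Fin d) 𝒪) :
    Ideal.Quotient.factor (hanti n) (gam 𝔪 I y hy hpow (n + 1) f) = gam 𝔪 I y hy hpow n f := by
  rw [gam_apply, gam_apply, Ideal.Quotient.factor_mk, Ideal.Quotient.mk_eq_mk_iff_sub_mem,
    ← map_sub]
  exact hpow n (aeval_mem_pow 𝔪 y hy n _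
    (MvPowerSeries.truncTotal_sub_truncTotal_mem_pow_idealOfVars (Nat.le_succ n) le_rfl f))

theorem map_gam_span_X (hy : ∀ i, y i ∈ 𝔪) (hpow : ∀ n, 𝔪 ^ n ≤ I n) (n : ℕ) :
    (Ideal.span (Set.range (MvPowerSeries.X : Fin d → MvPowerSeries (Fin d) 𝒪))).map
        (gam 𝔪 I y hy hpow n) =
      (Ideal.span (Set.range y)).map (Ideal.Quotient.mk (I n)) := by
  rw [Ideal.map_span, Ideal.map_span, ← Set.range_comp, ← Set.range_comp]
  congr 2
  funext i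
  exact gam_X 𝔪 I y hy hpow n i

theorem span_le (hy : ∀ i, y i ∈ 𝔪) : Ideal.span (Set.range y) ≤ 𝔪 := by
  rw [Ideal.span_le]
  rintro _ ⟨i, rfl⟩
  exact hy i

theorem map_gam_span_X_pow_eq_bot (hy : ∀ i, y i ∈ 𝔪) (hpow : ∀ n, 𝔪 ^ n ≤ I n) (n : ℕ) :
    ((Ideal.span (Set.range (MvPowerSeries.X : Fin d → MvPowerSeries (Fin d) 𝒪))).map
        (gam 𝔪 I y hy hpow n)) ^ n = ⊥ := by
  rw [map_gam_span_X, ← Ideal.map_pow, eq_bot_iff]
  refine (Ideal.map_mono ((Ideal.pow_right_mono (span_le 𝔪 y hy) n).trans (hpow n))).trans ?_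
  rw [Ideal.map_quotient_self]

theorem span_X_pow_le_ker_gam (hy : ∀ i, y i ∈ 𝔪) (hpow : ∀ n, 𝔪 ^ n ≤ I n) (n : ℕ) :
    (Ideal.span (Set.range (MvPowerSeries.X : Fin d → MvPowerSeries (Fin d) 𝒪))) ^ n ≤
      RingHom.ker (gam 𝔪 I y hy hpow n) := by
  intro f hf
  have h := Ideal.mem_map_of_mem (gam 𝔪 I y hy hpow n) hf
  rw [Ideal.map_pow, map_gam_span_X_pow_eq_bot] at h
  exact h

theorem gam_surjective (hy : ∀ i, y i ∈ 𝔪) (hpow : ∀ n, 𝔪 ^ n ≤ I n)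
    (hk : Function.Surjective (fun a : 𝒪 => Ideal.Quotient.mk 𝔪 (algebraMap 𝒪 Λ a)))
    (hgen' : ∀ n, 𝔪 ≤ Ideal.span (Set.range y) ⊔ I n) (n : ℕ) :
    Function.Surjective (gam (𝒪 := 𝒪) 𝔪 I y hy hpow n) := by
  refine surjective_of_nilpotent_aux (gam (𝒪 := 𝒪) 𝔪 I y hy hpow n).toRingHom
    (Ideal.span (Set.range (MvPowerSeries.X : Fin d → MvPowerSeries (Fin d) 𝒪))) n
    (map_gam_span_X_pow_eq_bot 𝔪 I y hy hpow n) ?_
  intro a
  obtain ⟨x, rfl⟩ := Ideal.Quotient.mk_surjective a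
  obtain ⟨c, hc⟩ := hk (Ideal.Quotient.mk 𝔪 x)
  refine ⟨algebraMap 𝒪 _ c, ?_⟩
  have hz : algebraMap 𝒪 Λ c - x ∈ 𝔪 := (Ideal.Quotient.mk_eq_mk_iff_sub_mem _ _).mp hc
  have e : ((Ideal.span (Set.range (MvPowerSeries.X : Fin d → MvPowerSeries (Fin d) 𝒪))).map
        (gam 𝔪 I y hy hpow n).toRingHom) =
      (Ideal.span (Set.range y)).map (Ideal.Quotient.mk (I n)) := map_gam_span_X 𝔪 I y hy hpow n
  rw [e]
  obtain ⟨s, hs, t, ht, hst⟩ := Submodule.mem_sup.mp (hgen' n hz)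
  have h0 : (gam 𝔪 I y hy hpow n).toRingHom (algebraMap 𝒪 _ c) = algebraMap 𝒪 (Λ ⧸ I n) c :=
    (gam 𝔪 I y hy hpow n).commutes c
  have : algebraMap 𝒪 (Λ ⧸ I n) c - Ideal.Quotient.mk (I n) x = Ideal.Quotient.mk (I n) s := by
    have h1 : algebraMap 𝒪 (Λ ⧸ I n) c = Ideal.Quotient.mk (I n) (algebraMap 𝒪 Λ c) := rfl
    rw [h1, ← map_sub, ← hst, map_add, Ideal.Quotient.eq_zero_iff_mem.mpr ht, add_zero]
  rw [h0, this]
  exact Ideal.mem_map_of_mem _ hs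

theorem ker_gam_anti (hy : ∀ i, y i ∈ 𝔪) (hpow : ∀ n, 𝔪 ^ n ≤ I n)
    (hanti : ∀ n, I (n + 1) ≤ I n) (n : ℕ) :
    RingHom.ker (gam (𝒪 := 𝒪) 𝔪 I y hy hpow (n + 1)) ≤
      RingHom.ker (gam (𝒪 := 𝒪) 𝔪 I y hy hpow n) := by
  intro f hf
  rw [RingHom.mem_ker] at hf ⊢
  rw [← gam_compat 𝔪 I y hy hpow hanti n f, hf, map_zero]

theorem ker_gam_succ (hy : ∀ i, y i ∈ 𝔪) (hpow : ∀ n, 𝔪 ^ n ≤ I n)
    (hanti : ∀ n, I (n + 1) ≤ I n) (hsucc : ∀ n, I n ≤ I (n + 1) ⊔ 𝔪 ^ n)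
    (hk : Function.Surjective (fun a : 𝒪 => Ideal.Quotient.mk 𝔪 (algebraMap 𝒪 Λ a)))
    (hgen' : ∀ n, 𝔪 ≤ Ideal.span (Set.range y) ⊔ I n) (n : ℕ) :
    RingHom.ker (gam 𝔪 I y hy hpow n) ≤ RingHom.ker (gam 𝔪 I y hy hpow (n + 1)) ⊔
      (Ideal.span (Set.range (MvPowerSeries.X : Fin d → MvPowerSeries (Fin d) 𝒪))) ^ n := by
  intro f hf
  rw [RingHom.mem_ker] at hf
  obtain ⟨x, hx⟩ := Ideal.Quotient.mk_surjective (gam 𝔪 I y hy hpow (n + 1) f)
  have hxn : x ∈ I n := by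
    rw [← Ideal.Quotient.eq_zero_iff_mem, ← hf, ← gam_compat 𝔪 I y hy hpow hanti n f, ← hx,
      Ideal.Quotient.factor_mk]
  -- `𝔪 ^ n ≤ (span y) ^ n ⊔ I (n+1)`
  have hmn : 𝔪 ^ n ≤ Ideal.span (Set.range y) ^ n ⊔ I (n + 1) := by
    exact (Ideal.pow_right_mono (hgen' (n + 1)) n).trans (sup_pow_le _ _ n)
  have hx2 : x ∈ Ideal.span (Set.range y) ^ n ⊔ I (n + 1) :=
    (sup_le le_sup_right hmn) (hsucc n hxn)
  obtain ⟨s, hs, t, ht, hst⟩ := Submodule.mem_sup.mp hx2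
  have h1 : gam 𝔪 I y hy hpow (n + 1) f = Ideal.Quotient.mk (I (n + 1)) s := by
    rw [← hx, ← hst, map_add, Ideal.Quotient.eq_zero_iff_mem.mpr ht, add_zero]
  have h2 : Ideal.Quotient.mk (I (n + 1)) s ∈
      ((Ideal.span (Set.range (MvPowerSeries.X : Fin d → MvPowerSeries (Fin d) 𝒪))) ^ n).map
        (gam 𝔪 I y hy hpow (n + 1)) := by
    rw [Ideal.map_pow, map_gam_span_X, ← Ideal.map_pow]
    exact Ideal.mem_map_of_mem _ hs
  obtain ⟨g, hg, hgs⟩ := (Ideal.mem_map_iff_of_surjective _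
    (gam_surjective 𝔪 I y hy hpow hk hgen' (n + 1))).mp h2
  refine Submodule.mem_sup.mpr ⟨f - g, ?_, g, hg, by ring⟩
  rw [RingHom.mem_ker, map_sub, h1, hgs, sub_self]

end Construction

theorem map_maximalIdeal_pow_le {A B : Type*} [CommRing A] [CommRing B] [IsLocalRing A]
    [IsLocalRing B] (φ : A →+* B) [IsLocalHom φ] (n : ℕ) {a : A} (ha : a ∈ maximalIdeal A ^ n) :
    φ a ∈ maximalIdeal B ^ n := by
  have h1 : (maximalIdeal A).map φ ≤ maximalIdeal B :=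
    ((IsLocalRing.local_hom_TFAE φ).out 0 2).mp ‹_›
  have h2 := Ideal.mem_map_of_mem φ ha
  rw [Ideal.map_pow] at h2
  exact Ideal.pow_right_mono h1 n h2

end Completion

open Completion

theorem exists_completion
    {𝒪 : Type} [CommRing 𝒪] [IsNoetherianRing 𝒪]
    {Λ : Type} [CommRing Λ] [Algebra 𝒪 Λ]
    (𝔪 : Ideal Λ) [h𝔪 : 𝔪.IsMaximal]
    (hk : Function.Surjective (fun a : 𝒪 => Ideal.Quotient.mk 𝔪 (algebraMap 𝒪 Λ a)))
    (I : ℕ → Ideal Λ)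
    (hanti : ∀ n, I (n + 1) ≤ I n)
    (hpow : ∀ n, 𝔪 ^ n ≤ I n)
    (hsucc : ∀ n, I n ≤ I (n + 1) ⊔ 𝔪 ^ n)
    (hone : I 1 = 𝔪)
    {d : ℕ} (y : Fin d → Λ) (hy : ∀ i, y i ∈ 𝔪)
    (hgen : 𝔪 ≤ Ideal.span (Set.range y) ⊔ I 2) :
    ∃ (R : Type) (_ : CommRing R) (_ : Algebra 𝒪 R) (_ : IsLocalRing R) (_ : IsNoetherianRing R)
      (_ : IsAdicComplete (maximalIdeal R) R) (ι : Λ →ₐ[𝒪] R),
      (∀ n, (maximalIdeal R ^ n).comap ι = I n) ∧
      (∀ n (r : R), ∃ x : Λ, r - ι x ∈ maximalIdeal R ^ n) := by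
  classical
  have hgen' := le_span_sup 𝔪 I y hanti hpow hsucc hgen
  set 𝔞 : Ideal (MvPowerSeries (Fin d) 𝒪) :=
    Ideal.span (Set.range (MvPowerSeries.X : Fin d → MvPowerSeries (Fin d) 𝒪)) with h𝔞
  let γ : ∀ n, MvPowerSeries (Fin d) 𝒪 →ₐ[𝒪] Λ ⧸ I n := gam 𝔪 I y hy hpow
  have hγsurj : ∀ n, Function.Surjective (γ n) := gam_surjective 𝔪 I y hy hpow hk hgen'
  have hγcompat : ∀ n f, Ideal.Quotient.factor (hanti n) (γ (n + 1) f) = γ n f :=
    gam_compat 𝔪 I y hy hpow hanti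
  let J : ℕ → Ideal (MvPowerSeries (Fin d) 𝒪) := fun n => RingHom.ker (γ n)
  have hJpow : ∀ n, 𝔞 ^ n ≤ J n := span_X_pow_le_ker_gam 𝔪 I y hy hpow
  have hJanti : ∀ n, J (n + 1) ≤ J n := ker_gam_anti 𝔪 I y hy hpow hanti
  have hJsucc : ∀ n, J n ≤ J (n + 1) ⊔ 𝔞 ^ n := ker_gam_succ 𝔪 I y hy hpow hanti hsucc hk hgen'
  let Jinf : Ideal (MvPowerSeries (Fin d) 𝒪) := ⨅ n, J n
  have hJ : ∀ n, J n = 𝔞 ^ n ⊔ Jinf := fun n =>
    le_antisymm ((le_iInf_sup_pow 𝔞 J hJpow hJsucc hJanti n).trans (le_of_eq (sup_comm _ _)))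
      (sup_le (hJpow n) (iInf_le _ _))
  let R := MvPowerSeries (Fin d) 𝒪 ⧸ Jinf
  let M : Ideal R := 𝔞.map (Ideal.Quotient.mk Jinf)
  let π : ∀ n, R →ₐ[𝒪] Λ ⧸ I n := fun n =>
    Ideal.Quotient.liftₐ Jinf (γ n) (fun a ha => (Ideal.mem_iInf.mp ha n))
  have hπmk : ∀ n f, π n (Ideal.Quotient.mk Jinf f) = γ n f := fun n f => rfl
  have hπsurj : ∀ n, Function.Surjective (π n) := fun n a => by
    obtain ⟨f, rfl⟩ := hγsurj n a
    exact ⟨Ideal.Quotient.mk Jinf f, rfl⟩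
  have hkerπ : ∀ n (r : R), π n r = 0 ↔ r ∈ M ^ n := by
    intro n r
    obtain ⟨f, rfl⟩ := Ideal.Quotient.mk_surjective r
    rw [hπmk, ← Ideal.map_pow, Ideal.mem_quotient_iff_mem_sup, ← hJ n]
    exact Iff.rfl
  have hinj : ∀ r r' : R, (∀ n, π n r = π n r') → r = r' := by
    intro r r' h
    obtain ⟨f, rfl⟩ := Ideal.Quotient.mk_surjective r
    obtain ⟨f', rfl⟩ := Ideal.Quotient.mk_surjective r'
    rw [Ideal.Quotient.mk_eq_mk_iff_sub_mem, Ideal.mem_iInf]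
    intro n
    have := h n
    rw [hπmk, hπmk] at this
    show γ n (f - f') = 0
    rw [map_sub, this, sub_self]
  have hMmax : M.IsMaximal := by
    have h1 : M = Ideal.comap (π 1) ⊥ := by
      ext r
      rw [Ideal.mem_comap, Ideal.mem_bot, hkerπ 1 r, pow_one M]
    rw [h1]
    have : (I 1).IsMaximal := hone ▸ h𝔪
    have : (⊥ : Ideal (Λ ⧸ I 1)).IsMaximal := Ideal.bot_quotient_isMaximal_iff _ |>.mpr ‹_›
    exact Ideal.comap_isMaximal_of_surjective (π 1) (hπsurj 1)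
  have hcompl : IsAdicComplete M R := by
    have : IsAdicComplete 𝔞 R := IsAdicComplete.of_module_finite 𝔞 R
    exact (IsAdicComplete.map_algebraMap_iff 𝔞 R).mpr this
  have hloc : IsLocalRing R := isLocalRing_of_isAdicComplete_maximal M
  have hM : maximalIdeal R = M := (eq_maximalIdeal hMmax).symm
  -- construction of `ι`
  have hex : ∀ x : Λ, ∃ F : MvPowerSeries (Fin d) 𝒪, ∀ n, γ n F = Ideal.Quotient.mk (I n) x := by
    intro x
    choose f hf using fun n => hγsurj n (Ideal.Quotient.mk (I n) x)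
    obtain ⟨F, hF⟩ := mittagLeffler_exists 𝔞 J hJpow hJsucc f (by
      intro n
      show γ n (f (n + 1) - f n) = 0
      rw [map_sub, ← hγcompat, hf, hf, Ideal.Quotient.factor_mk, sub_self])
    refine ⟨F, fun n => ?_⟩
    have : γ n (F - f n) = 0 := hF n
    rw [map_sub, hf, sub_eq_zero] at this
    exact this
  choose Fx hFx using hex
  have hπι : ∀ n x, π n (Ideal.Quotient.mk Jinf (Fx x)) = Ideal.Quotient.mk (I n) x :=
    fun n x => hFx x n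
  let ι : Λ →ₐ[𝒪] R :=
    { toFun := fun x => Ideal.Quotient.mk Jinf (Fx x)
      map_one' := hinj _ _ fun n => by rw [hπι, map_one, map_one]
      map_mul' := fun a b => hinj _ _ fun n => by rw [hπι, map_mul (π n), hπι, hπι, map_mul]
      map_zero' := hinj _ _ fun n => by rw [hπι, map_zero, map_zero]
      map_add' := fun a b => hinj _ _ fun n => by rw [hπι, map_add (π n), hπι, hπι, map_add]
      commutes' := fun c => hinj _ _ fun n => by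
        rw [hπι, AlgHom.commutes]; rfl }
  have hπι' : ∀ n x, π n (ι x) = Ideal.Quotient.mk (I n) x := hπι
  refine ⟨R, inferInstance, inferInstance, hloc, inferInstance, hM ▸ hcompl, ι, ?_, ?_⟩
  · intro n
    ext x
    rw [Ideal.mem_comap, hM, ← hkerπ, hπι', Ideal.Quotient.eq_zero_iff_mem]
  · intro n r
    obtain ⟨x, hx⟩ := Ideal.Quotient.mk_surjective (π n r)
    refine ⟨x, ?_⟩
    rw [hM, ← hkerπ, map_sub, hπι', hx, sub_self]

section Mapping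

variable {𝒪 : Type*} [CommRing 𝒪] {Λ : Type*} [CommRing Λ] [Algebra 𝒪 Λ]
  {R : Type*} [CommRing R] [Algebra 𝒪 R] [IsLocalRing R] (ι : Λ →ₐ[𝒪] R) (I : ℕ → Ideal Λ)

theorem completion_hom_ext
    (h2 : ∀ n (r : R), ∃ x : Λ, r - ι x ∈ maximalIdeal R ^ n)
    {A : Type*} [CommRing A] [Algebra 𝒪 A] [IsLocalRing A] [IsHausdorff (maximalIdeal A) A]
    (φ φ' : R →ₐ[𝒪] A) (hφ : IsLocalHom (φ : R →+* A)) (hφ' : IsLocalHom (φ' : R →+* A))
    (h : φ.comp ι = φ'.comp ι) : φ = φ' := by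
  ext r
  rw [← sub_eq_zero]
  refine IsHausdorff.haus ‹_› _ fun n => ?_
  rw [SModEq.sub_mem, sub_zero, smul_eq_mul, Ideal.mul_top]
  obtain ⟨x, hx⟩ := h2 n r
  have e : φ (ι x) = φ' (ι x) := DFunLike.congr_fun h x
  have e2 : φ r - φ' r = (φ : R →+* A) (r - ι x) - (φ' : R →+* A) (r - ι x) := by
    simp only [map_sub, RingHom.coe_coe, e]; ring
  rw [e2]
  exact sub_mem (map_maximalIdeal_pow_le (φ : R →+* A) n hx)
    (map_maximalIdeal_pow_le (φ' : R →+* A) n hx)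

theorem completion_lift
    (h1 : ∀ n, (maximalIdeal R ^ n).comap ι = I n)
    (h2 : ∀ n (r : R), ∃ x : Λ, r - ι x ∈ maximalIdeal R ^ n)
    {A : Type*} [CommRing A] [Algebra 𝒪 A] [IsLocalRing A] [IsAdicComplete (maximalIdeal A) A]
    (f : Λ →ₐ[𝒪] A) (hf : ∀ n, I n ≤ (maximalIdeal A ^ n).comap f) :
    ∃ φ : R →ₐ[𝒪] A, φ.comp ι = f ∧ IsLocalHom (φ : R →+* A) := by
  classical
  choose ap hap using h2
  have wd : ∀ n (r : R) (x x' : Λ), r - ι x ∈ maximalIdeal R ^ n →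
      r - ι x' ∈ maximalIdeal R ^ n →
      Ideal.Quotient.mk (maximalIdeal A ^ n) (f x) = Ideal.Quotient.mk (maximalIdeal A ^ n) (f x') := by
    intro n r x x' hx hx'
    rw [Ideal.Quotient.mk_eq_mk_iff_sub_mem, ← map_sub]
    refine hf n ?_
    rw [← h1 n, Ideal.mem_comap, map_sub]
    have := sub_mem hx' hx
    simpa using this
  have key : ∀ n (r : R) (x : Λ), r - ι x ∈ maximalIdeal R ^ n →
      Ideal.Quotient.mk (maximalIdeal A ^ n) (f (ap n r)) =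
        Ideal.Quotient.mk (maximalIdeal A ^ n) (f x) :=
    fun n r x hx => wd n r _ _ (hap n r) hx
  let φn : ∀ n, R →ₐ[𝒪] A ⧸ maximalIdeal A ^ n := fun n =>
    { toFun := fun r => Ideal.Quotient.mk (maximalIdeal A ^ n) (f (ap n r))
      map_one' := by
        rw [key n 1 1 (by simp), map_one, map_one]
      map_mul' := fun r r' => by
        rw [key n (r * r') (ap n r * ap n r') ?_, map_mul, map_mul]
        have e : r * r' - ι (ap n r * ap n r') =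
            r * (r' - ι (ap n r')) + (r - ι (ap n r)) * ι (ap n r') := by
          rw [map_mul]; ring
        rw [e]
        exact add_mem (Ideal.mul_mem_left _ _ (hap n r')) (Ideal.mul_mem_right _ _ (hap n r))
      map_zero' := by
        rw [key n 0 0 (by simp), map_zero, map_zero]
      map_add' := fun r r' => by
        rw [key n (r + r') (ap n r + ap n r') ?_, map_add, map_add]
        have e : r + r' - ι (ap n r + ap n r') = (r - ι (ap n r)) + (r' - ι (ap n r')) := by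
          rw [map_add]; ring
        rw [e]
        exact add_mem (hap n r) (hap n r')
      commutes' := fun c => by
        rw [key n (algebraMap 𝒪 R c) (algebraMap 𝒪 Λ c) (by simp), AlgHom.commutes]
        rfl }
  have hφn : ∀ n (r : R) (x : Λ), r - ι x ∈ maximalIdeal R ^ n →
      φn n r = Ideal.Quotient.mk (maximalIdeal A ^ n) (f x) := key
  have hcompat : ∀ {m n : ℕ} (hle : m ≤ n),
      (Ideal.Quotient.factorₐ 𝒪 (Ideal.pow_le_pow_right hle)).comp (φn n) = φn m := by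
    intro m n hle
    ext r
    rw [AlgHom.comp_apply, hφn n r _ (hap n r),
      hφn m r (ap n r) (Ideal.pow_le_pow_right hle (hap n r))]
    rfl
  let φ : R →ₐ[𝒪] A := IsAdicComplete.liftAlgHom (maximalIdeal A) φn hcompat
  have hφ : ∀ n r, Ideal.Quotient.mk (maximalIdeal A ^ n) (φ r) = φn n r :=
    fun n r => IsAdicComplete.mk_liftAlgHom (maximalIdeal A) φn hcompat n r
  have hφι : φ.comp ι = f := by
    refine IsAdicComplete.algHom_ext (maximalIdeal A) fun n => ?_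
    ext x
    simp only [AlgHom.comp_apply, Ideal.Quotient.mkₐ_eq_mk]
    rw [hφ, hφn n (ι x) x (by simp)]
  refine ⟨φ, hφι, ?_⟩
  refine ((IsLocalRing.local_hom_TFAE (φ : R →+* A)).out 0 2).mpr ?_
  rw [Ideal.map_le_iff_le_comap]
  intro r hr
  rw [Ideal.mem_comap]
  have h3 := hφ 1 r
  have hr1 : r ∈ maximalIdeal R ^ 1 := by simpa using hr
  have hx : ι (ap 1 r) ∈ maximalIdeal R ^ 1 := by
    have := sub_mem hr1 (hap 1 r)
    simpa using this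
  have hx' : ap 1 r ∈ I 1 := by rw [← h1 1]; exact hx
  have hfx := hf 1 hx'
  rw [Ideal.mem_comap] at hfx
  rw [hφn 1 r _ (hap 1 r), Ideal.Quotient.mk_eq_mk_iff_sub_mem] at h3
  have := add_mem h3 hfx
  simpa using this

end Mapping

end Fermat.Agent.S53
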