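import Mathlib

set_option autoImplicit false

namespace Fermat.Agent.S53

open IsLocalRing MvPowerSeries Finsupp

variable {σ : Type} [Finite σ] {A : Type} [CommRing A] [IsLocalRing A]

/-- The ideal of power series whose coefficient at `α` lies in `𝔪 ^ (n - |α|)`. -/
def wIdeal (σ : Type) (A : Type) [CommRing A] [IsLocalRing A] (n : ℕ) :
    Ideal (MvPowerSeries σ A) where
  carrier := {f | ∀ α : σ →₀ ℕ, coeff α f ∈ maximalIdeal A ^ (n - degree α)}
  add_mem' {f g} hf hg α := by
    rw [map_add]; exact Ideal.add_mem _ (hf α) (hg α)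
  zero_mem' α := by simp
  smul_mem' g f hf α := by
    classical
    rw [smul_eq_mul, coeff_mul]
    refine Ideal.sum_mem _ fun x hx => ?_
    have hx' : x.1 + x.2 = α := by simpa using hx
    refine Ideal.mul_mem_left _ _ (Ideal.pow_le_pow_right ?_ (hf x.2))
    have : degree α = degree x.1 + degree x.2 := by rw [← hx', map_add]
    omega

omit [Finite σ] in
lemma mem_wIdeal {n : ℕ} {f : MvPowerSeries σ A} :
    f ∈ wIdeal σ A n ↔ ∀ α : σ →₀ ℕ, coeff α f ∈ maximalIdeal A ^ (n - degree α) := Iff.rfl

omit [Finite σ] in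
lemma wIdeal_mul_le (a b : ℕ) : wIdeal σ A a * wIdeal σ A b ≤ wIdeal σ A (a + b) := by
  classical
  rw [Ideal.mul_le]
  intro f hf g hg α
  rw [coeff_mul]
  refine Ideal.sum_mem _ fun x hx => ?_
  have hx' : x.1 + x.2 = α := by simpa using hx
  have hd : degree α = degree x.1 + degree x.2 := by rw [← hx', map_add]
  have h1 := Ideal.mul_mem_mul (hf x.1) (hg x.2)
  rw [← pow_add] at h1
  exact Ideal.pow_le_pow_right (by omega) h1

omit [Finite σ] in
lemma maximalIdeal_le_wIdeal_one : maximalIdeal (MvPowerSeries σ A) ≤ wIdeal σ A 1 := by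
  intro f hf α
  by_cases hα : α = 0
  · subst hα
    simp only [map_zero, Nat.sub_zero, pow_one]
    rw [mem_maximalIdeal, mem_nonunits_iff] at hf ⊢
    rw [MvPowerSeries.isUnit_iff_constantCoeff] at hf
    simpa using hf
  · have : 1 - degree α = 0 := by
      have : degree α ≠ 0 := by
        simpa [Finsupp.degree_eq_zero_iff] using hα
      omega
    rw [this, pow_zero, Ideal.one_eq_top]; trivial

omit [Finite σ] in
lemma maximalIdeal_pow_le_wIdeal (n : ℕ) :
    maximalIdeal (MvPowerSeries σ A) ^ n ≤ wIdeal σ A n := by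
  induction n with
  | zero => intro f _ α; simp
  | succ n ih =>
    rw [pow_succ]
    exact (Ideal.mul_mono ih maximalIdeal_le_wIdeal_one).trans (wIdeal_mul_le n 1)


omit [IsLocalRing A] in
/-- A power series with vanishing coefficients in degrees `< n` lies in the `n`-th power of any
ideal containing all the variables. -/
lemma mem_pow_of_coeff_eq_zero {J : Ideal (MvPowerSeries σ A)}
    (hJ : ∀ i : σ, (X i : MvPowerSeries σ A) ∈ J) (n : ℕ) (g : MvPowerSeries σ A)
    (hg : ∀ α : σ →₀ ℕ, degree α < n → coeff α g = 0) : g ∈ J ^ n := by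
  set I₀ := MvPolynomial.idealOfVars σ A with hI₀
  have hfg : I₀.FG := MvPolynomial.idealOfVars_fg σ A
  have h0 : truncTotal n g = 0 := by
    ext α
    by_cases hα : degree α < n
    · rw [coeff_truncTotal _ hα, hg α hα]; simp
    · rw [coeff_truncTotal_eq_zero _ (not_lt.mp hα)]; simp
  have h1 : toAdicCompletionAlgEquiv σ A g ∈
      (I₀ ^ n • ⊤ : Submodule (MvPolynomial σ A) (AdicCompletion I₀ (MvPolynomial σ A))) := by
    rw [AdicCompletion.pow_smul_top_eq_ker_eval hfg, LinearMap.mem_ker]
    change (toAdicCompletion σ A g).val n = 0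
    rw [toAdicCompletion_apply_eq_mk_truncTotal, h0]; simp
  have h2 : g ∈ (I₀ ^ n • ⊤ : Submodule (MvPolynomial σ A) (MvPowerSeries σ A)) := by
    have h3 := Submodule.mem_map_of_mem
      (f := (toAdicCompletionAlgEquiv σ A).symm.toLinearEquiv.toLinearMap) h1
    rw [Submodule.map_smul''] at h3
    simp only [Submodule.map_top, LinearEquiv.range] at h3
    have h4 : (toAdicCompletionAlgEquiv σ A).symm.toLinearEquiv.toLinearMap
        (toAdicCompletionAlgEquiv σ A g) = g :=
      (toAdicCompletionAlgEquiv σ A).symm_apply_apply g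
    rwa [h4] at h3
  have hmap : I₀.map (algebraMap (MvPolynomial σ A) (MvPowerSeries σ A)) ≤ J := by
    rw [hI₀, MvPolynomial.idealOfVars, Ideal.map_span, Ideal.span_le]
    rintro _ ⟨_, ⟨i, rfl⟩, rfl⟩
    have : algebraMap (MvPolynomial σ A) (MvPowerSeries σ A) (MvPolynomial.X i) = X i :=
      MvPolynomial.coe_X i
    rw [this]; exact hJ i
  refine Submodule.smul_induction_on h2 ?_ ?_
  · intro a ha p _
    rw [Algebra.smul_def]
    refine Ideal.mul_mem_right _ _ ?_
    have := Ideal.mem_map_of_mem (algebraMap (MvPolynomial σ A) (MvPowerSeries σ A)) ha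
    rw [Ideal.map_pow] at this
    exact Ideal.pow_right_mono hmap n this
  · intro x y hx hy
    exact Ideal.add_mem _ hx hy

omit [Finite σ] in
lemma X_mem_maximalIdeal (i : σ) : (X i : MvPowerSeries σ A) ∈ maximalIdeal (MvPowerSeries σ A) := by
  rw [mem_maximalIdeal, mem_nonunits_iff, MvPowerSeries.isUnit_iff_constantCoeff]
  simp

omit [Finite σ] in
lemma C_mem_maximalIdeal_pow {j : ℕ} {c : A} (hc : c ∈ maximalIdeal A ^ j) :
    (C c : MvPowerSeries σ A) ∈ maximalIdeal (MvPowerSeries σ A) ^ j := by
  have h1 : (maximalIdeal A).map (C : A →+* MvPowerSeries σ A) ≤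
      maximalIdeal (MvPowerSeries σ A) := by
    rw [Ideal.map_le_iff_le_comap]
    intro a ha
    rw [Ideal.mem_comap, mem_maximalIdeal, mem_nonunits_iff,
      MvPowerSeries.isUnit_iff_constantCoeff]
    simpa using ha
  have h2 := Ideal.mem_map_of_mem (C : A →+* MvPowerSeries σ A) hc
  rw [Ideal.map_pow] at h2
  exact Ideal.pow_right_mono h1 j h2

omit [Finite σ] in
lemma monomial_mem_maximalIdeal_pow {n : ℕ} (α : σ →₀ ℕ) {c : A}
    (hc : c ∈ maximalIdeal A ^ (n - degree α)) :
    ((MvPolynomial.monomial α c : MvPolynomial σ A) : MvPowerSeries σ A) ∈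
      maximalIdeal (MvPowerSeries σ A) ^ n := by
  rw [MvPolynomial.monomial_eq, MvPolynomial.coe_mul, MvPolynomial.coe_C]
  have h1 : ((α.prod fun i e => (MvPolynomial.X i : MvPolynomial σ A) ^ e : MvPolynomial σ A) :
      MvPowerSeries σ A) ∈ maximalIdeal (MvPowerSeries σ A) ^ degree α := by
    rw [Finsupp.prod, ← MvPolynomial.coeToMvPowerSeries.ringHom_apply, map_prod,
      Finsupp.degree_apply, ← Finset.prod_pow_eq_pow_sum]
    refine Ideal.prod_mem_prod fun i _ => ?_
    rw [map_pow, MvPolynomial.coeToMvPowerSeries.ringHom_apply, MvPolynomial.coe_X]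
    exact Ideal.pow_mem_pow (X_mem_maximalIdeal i) _
  have h2 := Ideal.mul_mem_mul (C_mem_maximalIdeal_pow (σ := σ) hc) h1
  rw [← pow_add] at h2
  exact Ideal.pow_le_pow_right (by omega) h2

lemma wIdeal_le_maximalIdeal_pow (n : ℕ) :
    wIdeal σ A n ≤ maximalIdeal (MvPowerSeries σ A) ^ n := by
  intro f hf
  have hsplit : f = ((truncTotal n f : MvPolynomial σ A) : MvPowerSeries σ A) +
      (f - ((truncTotal n f : MvPolynomial σ A) : MvPowerSeries σ A)) := by ring
  rw [hsplit]
  refine Ideal.add_mem _ ?_ ?_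
  · rw [(truncTotal n f).as_sum, ← MvPolynomial.coeToMvPowerSeries.ringHom_apply, map_sum]
    refine Ideal.sum_mem _ fun α _ => ?_
    rw [MvPolynomial.coeToMvPowerSeries.ringHom_apply]
    refine monomial_mem_maximalIdeal_pow α ?_
    by_cases hα : degree α < n
    · rw [coeff_truncTotal _ hα]; exact hf α
    · rw [coeff_truncTotal_eq_zero _ (not_lt.mp hα)]; exact Ideal.zero_mem _
  · refine mem_pow_of_coeff_eq_zero X_mem_maximalIdeal n _ fun α hα => ?_
    rw [map_sub, MvPolynomial.coeff_coe, coeff_truncTotal _ hα, sub_self]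

lemma maximalIdeal_pow_eq_wIdeal (n : ℕ) :
    maximalIdeal (MvPowerSeries σ A) ^ n = wIdeal σ A n :=
  le_antisymm (maximalIdeal_pow_le_wIdeal n) (wIdeal_le_maximalIdeal_pow n)

/-- Power series in finitely many variables over a complete noetherian local ring are complete
for the topology defined by the maximal ideal. -/
theorem isAdicComplete_mvPowerSeries [IsNoetherianRing A] [IsAdicComplete (maximalIdeal A) A] :
    IsAdicComplete (maximalIdeal (MvPowerSeries σ A)) (MvPowerSeries σ A) where
  toIsHausdorff := inferInstance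
  prec' f hf := by
    have key : ∀ α : σ →₀ ℕ, ∃ L : A, ∀ j : ℕ,
        coeff α (f (j + degree α)) - L ∈ maximalIdeal A ^ j := by
      intro α
      obtain ⟨L, hL⟩ := IsPrecomplete.prec (I := maximalIdeal A) (M := A) inferInstance
        (f := fun j => coeff α (f (j + degree α))) (by
          intro m n hmn
          have h1 := hf (m := m + degree α) (n := n + degree α) (by omega)
          rw [SModEq.sub_mem, smul_eq_mul, Ideal.mul_top, maximalIdeal_pow_eq_wIdeal] at h1
          have h2 := h1 α
          rw [SModEq.sub_mem, smul_eq_mul, Ideal.mul_top]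
          simpa using h2)
      refine ⟨L, fun j => ?_⟩
      have := hL j
      rwa [SModEq.sub_mem, smul_eq_mul, Ideal.mul_top] at this
    choose L hL using key
    obtain ⟨F, hF⟩ : ∃ F : MvPowerSeries σ A, ∀ α, coeff α F = L α := ⟨fun α => L α, fun _ => rfl⟩
    refine ⟨F, fun n => ?_⟩
    rw [SModEq.sub_mem, smul_eq_mul, Ideal.mul_top, maximalIdeal_pow_eq_wIdeal]
    intro α
    by_cases hα : degree α ≤ n
    · have := hL α (n - degree α)
      rw [Nat.sub_add_cancel hα] at this
      rw [map_sub, hF]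
      exact this
    · have : n - degree α = 0 := by omega
      rw [this, pow_zero, Ideal.one_eq_top]; trivial

end Fermat.Agent.S53
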