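import Mathlib

set_option autoImplicit false

namespace Fermat.Agent.S53

open Matrix

variable {G : Type*} {𝒪 : Type*} [CommRing 𝒪] {A : Type*} [CommRing A] [Algebra 𝒪 A]

/-- The combination `X(r) = ∑ c_g • r(g)`. -/
noncomputable def comb (c : G →₀ 𝒪) (r : G → Matrix (Fin 2) (Fin 2) A) :
    Matrix (Fin 2) (Fin 2) A :=
  c.sum fun g a => a • r g

theorem comb_apply (c : G →₀ 𝒪) (r : G → Matrix (Fin 2) (Fin 2) A) (i j : Fin 2) :
    comb c r i j = c.sum fun g a => a • r g i j := by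
  unfold comb Finsupp.sum
  rw [Matrix.sum_apply]
  refine Finset.sum_congr rfl fun g _ => ?_
  simp only [Matrix.smul_apply]

theorem comb_map {B : Type*} [CommRing B] [Algebra 𝒪 B] (φ : A →ₐ[𝒪] B) (c : G →₀ 𝒪)
    (r : G → Matrix (Fin 2) (Fin 2) A) :
    comb c (fun g => (r g).map φ) = (comb c r).map φ := by
  ext i j
  rw [Matrix.map_apply, comb_apply, comb_apply]
  unfold Finsupp.sum
  rw [map_sum]
  refine Finset.sum_congr rfl fun g _ => ?_
  simp only [Matrix.map_apply, map_smul]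

theorem mul_comb (c : G →₀ 𝒪) (r : G → Matrix (Fin 2) (Fin 2) A) (M : Matrix (Fin 2) (Fin 2) A) :
    M * comb c r = comb c (fun g => M * r g) := by
  unfold comb Finsupp.sum
  rw [Finset.mul_sum]
  refine Finset.sum_congr rfl fun g _ => ?_
  rw [Matrix.mul_smul]

theorem comb_mul (c : G →₀ 𝒪) (r : G → Matrix (Fin 2) (Fin 2) A) (M : Matrix (Fin 2) (Fin 2) A) :
    comb c r * M = comb c (fun g => r g * M) := by
  unfold comb Finsupp.sum
  rw [Finset.sum_mul]
  refine Finset.sum_congr rfl fun g _ => ?_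
  rw [Matrix.smul_mul]

/-- Normal form: `e₀` is an eigenvector of `X(r)` and `r(g₀) e₀ = e₁`. -/
structure IsNF (c : G →₀ 𝒪) (g₀ : G) (r : G → Matrix (Fin 2) (Fin 2) A) : Prop where
  h00 : r g₀ 0 0 = 0
  h10 : r g₀ 1 0 = 1
  hX : comb c r 1 0 = 0

theorem IsNF.map {B : Type*} [CommRing B] [Algebra 𝒪 B] (φ : A →ₐ[𝒪] B) {c : G →₀ 𝒪} {g₀ : G}
    {r : G → Matrix (Fin 2) (Fin 2) A} (h : IsNF c g₀ r) :
    IsNF c g₀ (fun g => (r g).map φ) where
  h00 := by rw [Matrix.map_apply, h.h00, map_zero]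
  h10 := by rw [Matrix.map_apply, h.h10, map_one]
  hX := by rw [comb_map, Matrix.map_apply, h.hX, map_zero]

theorem IsNF.of_map_injective {B : Type*} [CommRing B] [Algebra 𝒪 B] (φ : A →ₐ[𝒪] B)
    (hφ : Function.Injective φ) {c : G →₀ 𝒪} {g₀ : G}
    {r : G → Matrix (Fin 2) (Fin 2) A} (h : IsNF c g₀ (fun g => (r g).map φ)) :
    IsNF c g₀ r where
  h00 := hφ (by have := h.h00; rwa [Matrix.map_apply, ← map_zero φ] at this)
  h10 := hφ (by have := h.h10; rwa [Matrix.map_apply, ← map_one φ] at this)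
  hX := hφ (by have := h.hX; rwa [comb_map, Matrix.map_apply, ← map_zero φ] at this)

/-- Uniqueness of the normal form inside a conjugacy class. -/
theorem IsNF.eq_of_conj {c : G →₀ 𝒪} {g₀ : G} {r r' : G → Matrix (Fin 2) (Fin 2) A}
    (hr : IsNF c g₀ r) (hr' : IsNF c g₀ r')
    (hu : IsUnit (comb c r 0 0 - comb c r' 1 1))
    (M : Matrix (Fin 2) (Fin 2) A) (hM : IsUnit M.det) (hconj : ∀ g, M * r g = r' g * M) :
    r = r' := by
  have hX : M * comb c r = comb c r' * M := by
    rw [mul_comb, comb_mul]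
    exact congrArg _ (funext hconj)
  have h10 : M 1 0 = 0 := by
    have h := congrFun (congrFun hX 1) 0
    rw [Matrix.mul_apply, Matrix.mul_apply, Fin.sum_univ_two, Fin.sum_univ_two, hr.hX, hr'.hX] at h
    have h2 : (comb c r 0 0 - comb c r' 1 1) * M 1 0 = 0 := by linear_combination h
    exact (hu.mul_right_eq_zero).mp h2
  have hcol := fun i => congrFun (congrFun (hconj g₀) i) 0
  have h01 : M 0 1 = 0 := by
    have h := hcol 0
    rw [Matrix.mul_apply, Matrix.mul_apply, Fin.sum_univ_two, Fin.sum_univ_two, hr.h00, hr.h10,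
      hr'.h00, h10] at h
    linear_combination h
  have h11 : M 1 1 = M 0 0 := by
    have h := hcol 1
    rw [Matrix.mul_apply, Matrix.mul_apply, Fin.sum_univ_two, Fin.sum_univ_two, hr.h00, hr.h10,
      hr'.h10, h10] at h
    linear_combination h
  have hMs : M = M 0 0 • (1 : Matrix (Fin 2) (Fin 2) A) := by
    ext i j
    fin_cases i <;> fin_cases j <;> simp [h10, h01, h11]
  have hu0 : IsUnit (M 0 0) := by
    rw [Matrix.det_fin_two, h10, h11, mul_zero, sub_zero] at hM
    exact isUnit_of_mul_isUnit_left hM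
  funext g
  have h := hconj g
  rw [hMs, Matrix.smul_mul, Matrix.mul_smul, Matrix.one_mul, Matrix.mul_one] at h
  obtain ⟨u, hu'⟩ := hu0
  rw [← hu'] at h
  have := congrArg (fun X => (↑u⁻¹ : A) • X) h
  simpa [smul_smul] using this

theorem conj_col_zero (P Y : Matrix (Fin 2) (Fin 2) A) (hP : IsUnit P.det) (a b : A)
    (h : ∀ j, (Y * P) j 0 = a * P j 0 + b * P j 1) (i : Fin 2) :
    (P⁻¹ * Y * P) i 0 = a * (1 : Matrix (Fin 2) (Fin 2) A) i 0
      + b * (1 : Matrix (Fin 2) (Fin 2) A) i 1 := by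
  have h1 : P⁻¹ * P = 1 := Matrix.nonsing_inv_mul P hP
  rw [Matrix.mul_assoc, Matrix.mul_apply, Fin.sum_univ_two, h 0, h 1, ← h1, Matrix.mul_apply,
    Matrix.mul_apply, Fin.sum_univ_two, Fin.sum_univ_two]
  ring

/-- Existence of the normal form over a henselian local ring. -/
theorem exists_conj_isNF [HenselianLocalRing A] (c : G →₀ 𝒪) (g₀ : G)
    (r : G → Matrix (Fin 2) (Fin 2) A)
    (hX00 : comb c r 0 0 - 1 ∈ IsLocalRing.maximalIdeal A)
    (hX10 : comb c r 1 0 ∈ IsLocalRing.maximalIdeal A)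
    (hX11 : comb c r 1 1 ∈ IsLocalRing.maximalIdeal A)
    (hg00 : r g₀ 0 0 ∈ IsLocalRing.maximalIdeal A)
    (hg10 : r g₀ 1 0 - 1 ∈ IsLocalRing.maximalIdeal A) :
    ∃ P : Matrix (Fin 2) (Fin 2) A, IsUnit P.det ∧
      (∀ i j, P i j - (1 : Matrix (Fin 2) (Fin 2) A) i j ∈ IsLocalRing.maximalIdeal A) ∧
      IsNF c g₀ (fun g => P⁻¹ * r g * P) := by
  classical
  set X := comb c r with hXdef
  set 𝔪 := IsLocalRing.maximalIdeal A with h𝔪
  -- the characteristic polynomial of `X`
  let χ : Polynomial A := Polynomial.X ^ 2 - Polynomial.C (X 0 0 + X 1 1) * Polynomial.X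
    + Polynomial.C (X 0 0 * X 1 1 - X 0 1 * X 1 0)
  have hχmonic : χ.Monic := by
    have : χ = Polynomial.X ^ 2 + (- Polynomial.C (X 0 0 + X 1 1) * Polynomial.X
        + Polynomial.C (X 0 0 * X 1 1 - X 0 1 * X 1 0)) := by
      simp only [χ]; ring
    rw [this]
    apply Polynomial.monic_X_pow_add
    rw [← Polynomial.C_neg]
    exact lt_of_le_of_lt Polynomial.degree_linear_le (by norm_num)
  have hχ1 : χ.eval 1 ∈ 𝔪 := by
    have : χ.eval 1 = (X 0 0 - 1) * (X 1 1 - 1) - X 0 1 * X 1 0 := by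
      simp only [χ, Polynomial.eval_add, Polynomial.eval_sub, Polynomial.eval_pow,
        Polynomial.eval_X, Polynomial.eval_mul, Polynomial.eval_C]
      ring
    rw [this]
    exact 𝔪.sub_mem (𝔪.mul_mem_right _ hX00) (𝔪.mul_mem_left _ hX10)
  have hunit_of : ∀ a : A, a - 1 ∈ 𝔪 → IsUnit a := by
    intro a ha
    by_contra hna
    have h1 : a ∈ 𝔪 := (IsLocalRing.mem_maximalIdeal a).mpr hna
    have : (1 : A) ∈ 𝔪 := by
      have := 𝔪.sub_mem h1 ha
      simpa using this
    exact (Ideal.ne_top_iff_one 𝔪).mp (IsLocalRing.maximalIdeal.isMaximal A).ne_top this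
  have hχ' : IsUnit (χ.derivative.eval 1) := by
    have : χ.derivative.eval 1 = 2 - (X 0 0 + X 1 1) := by
      simp only [χ, Polynomial.derivative_add, Polynomial.derivative_sub,
        Polynomial.derivative_X_pow, Polynomial.derivative_mul, Polynomial.derivative_C,
        Polynomial.derivative_X, Polynomial.eval_add, Polynomial.eval_sub, Polynomial.eval_pow,
        Polynomial.eval_X, Polynomial.eval_mul, Polynomial.eval_C, Polynomial.eval_zero,
        Polynomial.eval_one]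
      norm_num
    rw [this]
    apply hunit_of
    have : (2 - (X 0 0 + X 1 1) - 1 : A) = - (X 0 0 - 1) - X 1 1 := by ring
    rw [this]
    exact 𝔪.sub_mem (𝔪.neg_mem hX00) hX11
  obtain ⟨β, hβroot, hβ1⟩ := HenselianLocalRing.is_henselian χ hχmonic 1 hχ1 hχ'
  have hβ : β ^ 2 - (X 0 0 + X 1 1) * β + (X 0 0 * X 1 1 - X 0 1 * X 1 0) = 0 := by
    have := hβroot
    simpa only [χ, Polynomial.IsRoot.def, Polynomial.eval_add, Polynomial.eval_sub,
      Polynomial.eval_pow, Polynomial.eval_X, Polynomial.eval_mul, Polynomial.eval_C] using this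
  have hd : IsUnit (β - X 1 1) := by
    apply hunit_of
    have : β - X 1 1 - 1 = (β - 1) - X 1 1 := by ring
    rw [this]
    exact 𝔪.sub_mem hβ1 hX11
  obtain ⟨d, hd⟩ := hd
  -- `t` with `X 1 0 + X 1 1 * t = β * t`
  set t : A := (↑d⁻¹ : A) * X 1 0 with ht
  have htm : t ∈ 𝔪 := 𝔪.mul_mem_left _ hX10
  have hdt : (β - X 1 1) * t = X 1 0 := by
    rw [ht, ← hd, ← mul_assoc, Units.mul_inv, one_mul]
  have hrow0 : X 0 0 + X 0 1 * t = β := by
    have h1 : (β - X 1 1) * (X 0 0 + X 0 1 * t - β) = 0 := by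
      have : (β - X 1 1) * (X 0 0 + X 0 1 * t - β)
          = (β - X 1 1) * (X 0 0 - β) + X 0 1 * ((β - X 1 1) * t) := by ring
      rw [this, hdt]
      linear_combination - hβ
    have h2 := (IsUnit.mul_right_eq_zero (hd ▸ d.isUnit)).mp h1
    linear_combination h2
  set w0 : A := r g₀ 0 0 + r g₀ 0 1 * t with hw0
  set w1 : A := r g₀ 1 0 + r g₀ 1 1 * t with hw1
  have hw0m : w0 ∈ 𝔪 := 𝔪.add_mem hg00 (𝔪.mul_mem_left _ htm)
  have hw1m : w1 - 1 ∈ 𝔪 := by
    have : w1 - 1 = (r g₀ 1 0 - 1) + r g₀ 1 1 * t := by rw [hw1]; ring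
    rw [this]
    exact 𝔪.add_mem hg10 (𝔪.mul_mem_left _ htm)
  let P : Matrix (Fin 2) (Fin 2) A := !![1, w0; t, w1]
  have hPdet : IsUnit P.det := by
    apply hunit_of
    have : P.det - 1 = (w1 - 1) - w0 * t := by
      simp only [P, Matrix.det_fin_two_of]; ring
    rw [this]
    exact 𝔪.sub_mem hw1m (𝔪.mul_mem_left _ htm)
  refine ⟨P, hPdet, ?_, ?_⟩
  · intro i j
    fin_cases i <;> fin_cases j
    · simp [P]
    · simpa [P] using hw0m
    · simpa [P] using htm
    · simpa [P] using hw1m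
  · have hg : ∀ j, (r g₀ * P) j 0 = 0 * P j 0 + 1 * P j 1 := by
      intro j
      rw [Matrix.mul_apply, Fin.sum_univ_two]
      fin_cases j
      · simp [P, hw0]
      · simp [P, hw1]
    have hXP : ∀ j, (X * P) j 0 = β * P j 0 + 0 * P j 1 := by
      intro j
      rw [Matrix.mul_apply, Fin.sum_univ_two]
      fin_cases j
      · simpa [P] using hrow0
      · simp only [P]
        simp
        linear_combination - hdt
    refine ⟨?_, ?_, ?_⟩
    · have := conj_col_zero P (r g₀) hPdet 0 1 hg 0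
      simpa using this
    · have := conj_col_zero P (r g₀) hPdet 0 1 hg 1
      simpa using this
    · have h1 : comb c (fun g => P⁻¹ * r g * P) = P⁻¹ * X * P := by
        rw [hXdef, mul_comb, comb_mul]
      rw [h1]
      have := conj_col_zero P X hPdet β 0 hXP 1
      simpa using this

end Fermat.Agent.S53
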