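import Fermat.Statements.S53
import Fermat.Agent.S53.NormalForm
import Fermat.Agent.S53.RepDefs

set_option autoImplicit false

open IsLocalRing

namespace Fermat.Agent.S53

/-- The absolute Galois group of `ℚ`. -/
abbrev G : Type := AlgebraicClosure ℚ ≃ₐ[ℚ] AlgebraicClosure ℚ

/-- `2 × 2` matrices. -/
abbrev M2 (A : Type) : Type := Matrix (Fin 2) (Fin 2) A

/-- `r` is the matrix of `ρ` in some basis. -/
def HasMatrix {A : Type} [CommRing A] [IsLocalRing A] (ρ : GaloisRepAdic A) (r : G → M2 A) : Prop :=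
  ∃ b : Module.Basis (Fin 2) A ρ.V, ∀ σ : G, LinearMap.toMatrix b b (ρ.ρ σ) = r σ

/-- `r` is the matrix of the residual representation `ρ` in some basis. -/
def HasMatrixRes {k : Type} [Field k] (ρ : ResidualGaloisRep k) (r : G → M2 k) : Prop :=
  ∃ b : Module.Basis (Fin 2) k ρ.V, ∀ σ : G, LinearMap.toMatrix b b (ρ.ρ σ) = r σ

/-- `r` is a continuous matrix representation. -/
structure IsMatRep {A : Type} [CommRing A] [IsLocalRing A] (r : G → M2 A) : Prop where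
  map_one : r 1 = 1
  map_mul : ∀ σ τ : G, r (σ * τ) = r σ * r τ
  cont : ∀ n : ℕ, ∃ L : IntermediateField ℚ (AlgebraicClosure ℚ), FiniteDimensional ℚ L ∧
    ∀ σ : G, (∀ x ∈ L, σ x = x) → ∀ i j, (r σ - 1) i j ∈ maximalIdeal A ^ n

/-- (Superseded by `RigidData`; kept for `NFDataExists.lean`.) -/
structure NFData (𝒪 : Type) [CommRing 𝒪] [IsLocalRing 𝒪] where
  rt : G → M2 𝒪
  a : G →₀ 𝒪
  g1 : G
  hx00 : (a.sum fun g c => c • rt g) 0 0 - 1 ∈ maximalIdeal 𝒪
  hx01 : (a.sum fun g c => c • rt g) 0 1 ∈ maximalIdeal 𝒪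
  hx10 : (a.sum fun g c => c • rt g) 1 0 ∈ maximalIdeal 𝒪
  hx11 : (a.sum fun g c => c • rt g) 1 1 ∈ maximalIdeal 𝒪
  hg1 : IsUnit (rt g1 1 0)

/-- The index set of the matrix entries. -/
abbrev Idx : Type := G × Fin 2 × Fin 2

/-- The family of matrices with given entries. -/
def mat {A : Type} (f : Idx → A) : G → M2 A := fun g => Matrix.of fun i j => f (g, i, j)

/-- The entries of a family of matrices. -/
def entries {A : Type} (r : G → M2 A) : Idx → A := fun x => r x.1 x.2.1 x.2.2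

/-- The rigidifying data: a set-theoretic lift `f0` of the residual matrix entries to `𝒪`,
an element `c` of the group algebra acting residually as `diag(1,0)` (first column and
lower right entry), an element `g₀` acting residually by `e₀ ↦ e₁`. -/
structure RigidData (𝒪 : Type) [CommRing 𝒪] [IsLocalRing 𝒪] where
  f0 : Idx → 𝒪
  c : G →₀ 𝒪
  g₀ : G
  h00 : f0 (g₀, 0, 0) ∈ maximalIdeal 𝒪
  h10 : f0 (g₀, 1, 0) - 1 ∈ maximalIdeal 𝒪
  hX00 : comb c (mat f0) 0 0 - 1 ∈ maximalIdeal 𝒪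
  hX10 : comb c (mat f0) 1 0 ∈ maximalIdeal 𝒪
  hX11 : comb c (mat f0) 1 1 ∈ maximalIdeal 𝒪

/-- The type of deformation conditions. -/
abbrev Cond (𝒪 : Type) [CommRing 𝒪] : Type 1 :=
  ∀ ⦃A : Type⦄ [CommRing A] [IsLocalRing A] [Algebra 𝒪 A], GaloisRepAdic A → Prop

/-- `f` reduces to the residual matrix entries. -/
def RigidData.IsLift {𝒪 : Type} [CommRing 𝒪] [IsLocalRing 𝒪] (dat : RigidData 𝒪)
    {A : Type} [CommRing A] [IsLocalRing A] [Algebra 𝒪 A] (f : Idx → A) : Prop :=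
  ∀ x, f x - algebraMap 𝒪 A (dat.f0 x) ∈ maximalIdeal A

/-- The functor of normal form lifts of type `𝒟`, as a subfunctor of `A ↦ (Idx → A)`. -/
def PFun {𝒪 : Type} [CommRing 𝒪] [IsLocalRing 𝒪] (dat : RigidData 𝒪) (𝒟 : Cond 𝒪) :
    ∀ ⦃A : Type⦄ [CommRing A] [IsLocalRing A] [Algebra 𝒪 A], (Idx → A) → Prop :=
  fun A _ _ _ f => IsNF dat.c dat.g₀ (mat f) ∧ dat.IsLift f ∧
    ∃ ρ : GaloisRepAdic A, HasMatrix ρ (mat f) ∧ 𝒟 ρ

end Fermat.Agent.S53
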