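import Fermat.Agent.S53.Functor

set_option autoImplicit false
set_option linter.unusedSectionVars false

open IsLocalRing GaloisRep

namespace Fermat.Agent.S53.Asm

open Fermat.Agent.S53

variable {𝒪 : Type} [CommRing 𝒪] [IsLocalRing 𝒪] (dat : RigidData 𝒪)

/-- The residual matrices. -/
noncomputable def rbar : G → M2 (ResidueField 𝒪) := mat fun x => residue 𝒪 (dat.f0 x)

section
variable {A : Type} [CommRing A] [IsLocalRing A] [Algebra 𝒪 A]

theorem mat_entries (r : G → M2 A) : mat (entries r) = r := by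
  funext g
  ext i j
  rfl

theorem mat_comp {B : Type} (φ : A → B) (f : Idx → A) :
    mat (φ ∘ f) = fun σ => (mat f σ).map φ := by
  funext g
  ext i j
  rfl

theorem isLift_iff [IsLocalHom (algebraMap 𝒪 A)] (f : Idx → A) :
    dat.IsLift f ↔ ∀ σ, (mat f σ).map (residue A) =
      (rbar dat σ).map (ResidueField.map (algebraMap 𝒪 A)) := by
  have key : ∀ x, f x - algebraMap 𝒪 A (dat.f0 x) ∈ maximalIdeal A ↔
      residue A (f x) = ResidueField.map (algebraMap 𝒪 A) (residue 𝒪 (dat.f0 x)) := by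
    intro x
    rw [ResidueField.map_residue, ← sub_eq_zero, ← map_sub, residue_eq_zero_iff]
  constructor
  · intro h σ
    ext i j
    exact (key (σ, i, j)).mp (h (σ, i, j))
  · intro h x
    obtain ⟨σ, i, j⟩ := x
    exact (key (σ, i, j)).mpr (congrFun (congrFun (h σ) i) j)

theorem IsLift.comp {B : Type} [CommRing B] [IsLocalRing B] [Algebra 𝒪 B] {f : Idx → A}
    (h : dat.IsLift f) (φ : A →ₐ[𝒪] B) (hφ : IsLocalHom (φ : A →+* B)) :
    dat.IsLift (φ ∘ f) := by
  intro x
  have h1 : (φ ∘ f) x - algebraMap 𝒪 B (dat.f0 x) = φ (f x - algebraMap 𝒪 A (dat.f0 x)) := by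
    rw [map_sub, AlgHom.commutes]
    rfl
  rw [h1]
  exact map_nonunit (φ : A →+* B) _ (h x)

theorem IsLift.comb_sub_mem {f : Idx → A} (h : dat.IsLift f) (i j : Fin 2) :
    comb dat.c (mat f) i j - algebraMap 𝒪 A (comb dat.c (mat dat.f0) i j) ∈ maximalIdeal A := by
  rw [comb_apply, comb_apply]
  unfold Finsupp.sum
  rw [map_sum, ← Finset.sum_sub_distrib]
  refine Ideal.sum_mem _ fun g _ => ?_
  have h1 : dat.c g • mat f g i j - algebraMap 𝒪 A (dat.c g • mat dat.f0 g i j) =
      algebraMap 𝒪 A (dat.c g) * (f (g, i, j) - algebraMap 𝒪 A (dat.f0 (g, i, j))) := by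
    rw [Algebra.smul_def, smul_eq_mul, map_mul, mul_sub]
    rfl
  rw [h1]
  exact Ideal.mul_mem_left _ _ (h (g, i, j))

theorem algebraMap_mem [IsLocalHom (algebraMap 𝒪 A)] {c : 𝒪} (hc : c ∈ maximalIdeal 𝒪) :
    algebraMap 𝒪 A c ∈ maximalIdeal A :=
  map_nonunit (algebraMap 𝒪 A) c hc

theorem IsLift.comb00 [IsLocalHom (algebraMap 𝒪 A)] {f : Idx → A} (h : dat.IsLift f) :
    comb dat.c (mat f) 0 0 - 1 ∈ maximalIdeal A := by
  have h1 := IsLift.comb_sub_mem dat h 0 0
  have h2 := algebraMap_mem (A := A) dat.hX00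
  rw [map_sub, map_one] at h2
  have := Ideal.add_mem _ h1 h2
  simpa using this

theorem IsLift.comb10 [IsLocalHom (algebraMap 𝒪 A)] {f : Idx → A} (h : dat.IsLift f) :
    comb dat.c (mat f) 1 0 ∈ maximalIdeal A := by
  have h1 := IsLift.comb_sub_mem dat h 1 0
  have h2 := algebraMap_mem (A := A) dat.hX10
  have := Ideal.add_mem _ h1 h2
  simpa using this

theorem IsLift.comb11 [IsLocalHom (algebraMap 𝒪 A)] {f : Idx → A} (h : dat.IsLift f) :
    comb dat.c (mat f) 1 1 ∈ maximalIdeal A := by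
  have h1 := IsLift.comb_sub_mem dat h 1 1
  have h2 := algebraMap_mem (A := A) dat.hX11
  have := Ideal.add_mem _ h1 h2
  simpa using this

theorem IsLift.g00 [IsLocalHom (algebraMap 𝒪 A)] {f : Idx → A} (h : dat.IsLift f) :
    mat f dat.g₀ 0 0 ∈ maximalIdeal A := by
  have h1 := h (dat.g₀, 0, 0)
  have h2 := algebraMap_mem (A := A) dat.h00
  have := Ideal.add_mem _ h1 h2
  rw [sub_add_cancel] at this
  exact this

theorem IsLift.g10 [IsLocalHom (algebraMap 𝒪 A)] {f : Idx → A} (h : dat.IsLift f) :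
    mat f dat.g₀ 1 0 - 1 ∈ maximalIdeal A := by
  have h1 := h (dat.g₀, 1, 0)
  have h2 := algebraMap_mem (A := A) dat.h10
  rw [map_sub, map_one] at h2
  have := Ideal.add_mem _ h1 h2
  rw [sub_add_sub_cancel] at this
  exact this

theorem IsLift.isUnit_sub [IsLocalHom (algebraMap 𝒪 A)] {f f' : Idx → A} (h : dat.IsLift f)
    (h' : dat.IsLift f') : IsUnit (comb dat.c (mat f) 0 0 - comb dat.c (mat f') 1 1) := by
  by_contra hn
  have h1 : comb dat.c (mat f) 0 0 - comb dat.c (mat f') 1 1 ∈ maximalIdeal A :=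
    (mem_maximalIdeal _).mpr hn
  have h2 := IsLift.comb00 dat h
  have h3 := IsLift.comb11 dat h'
  have h4 : (1 : A) ∈ maximalIdeal A := by
    have := Ideal.sub_mem _ (Ideal.add_mem _ h1 h3) h2
    rwa [sub_add_cancel, sub_sub_cancel] at this
  exact (Ideal.ne_top_iff_one _).mp (maximalIdeal.isMaximal A).ne_top h4

/-- conjugating a lift by a matrix congruent to `1`. -/
theorem IsLift.conj [IsLocalHom (algebraMap 𝒪 A)] {f : Idx → A} (h : dat.IsLift f) (P : M2 A)
    (hP : IsUnit P.det) (hP1 : ∀ i j, P i j - (1 : M2 A) i j ∈ maximalIdeal A) :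
    dat.IsLift (entries fun g => P⁻¹ * mat f g * P) := by
  rw [isLift_iff, mat_entries]
  rw [isLift_iff] at h
  intro σ
  have hP' : P.map (residue A) = 1 := by
    ext i j
    have := hP1 i j
    rw [← residue_eq_zero_iff, map_sub, sub_eq_zero] at this
    rw [Matrix.map_apply, this, Matrix.one_apply, Matrix.one_apply]
    split_ifs <;> simp
  rw [Matrix.map_mul, Matrix.map_mul, map_nonsing_inv _ P hP, hP', inv_one, Matrix.one_mul,
    Matrix.mul_one, h σ]

end

/-- an `𝒪`-algebra hom into a local ring with residue field `k` is local. -/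
theorem isLocalHom_of_residue_surjective {R A : Type} [CommRing R] [IsLocalRing R] [Algebra 𝒪 R]
    [CommRing A] [IsLocalRing A] [Algebra 𝒪 A]
    (hres : Function.Surjective (IsLocalRing.residue A ∘ algebraMap 𝒪 A)) (φ : R →ₐ[𝒪] A) :
    IsLocalHom (φ : R →+* A) := by
  have hsurj : Function.Surjective ((residue A).comp (φ : R →+* A)) := by
    intro y
    obtain ⟨c, hc⟩ := hres y
    refine ⟨algebraMap 𝒪 R c, ?_⟩
    rw [← hc]
    simp
  have hmax := RingHom.ker_isMaximal_of_surjective _ hsurj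
  have hker := IsLocalRing.eq_maximalIdeal hmax
  refine ⟨fun z hz => ?_⟩
  by_contra hn
  have h1 : z ∈ maximalIdeal R := (mem_maximalIdeal _).mpr hn
  rw [← hker, RingHom.mem_ker, RingHom.comp_apply, residue_eq_zero_iff] at h1
  exact (mem_maximalIdeal _).mp h1 hz

end Fermat.Agent.S53.Asm

namespace Fermat.Agent.S53.Asm

open Fermat.Agent.S53

theorem henselianLocalRing_of_complete (A : Type) [CommRing A] [IsLocalRing A]
    [IsAdicComplete (maximalIdeal A) A] : HenselianLocalRing A where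
  is_henselian f hf a₀ h₁ h₂ :=
    HenselianRing.is_henselian (I := maximalIdeal A) f hf a₀ h₁ (h₂.map (Ideal.Quotient.mk _))

variable {𝒪 : Type} [CommRing 𝒪] [IsLocalRing 𝒪] (dat : RigidData 𝒪) {𝒟 : Cond 𝒪}

/-- Every deformation of type `𝒟` over a complete local ring has a normal form. -/
theorem exists_PFun_of_deformation (ρbar : ResidualGaloisRep (ResidueField 𝒪))
    (hmat : HasMatrixRes ρbar (mat fun x => residue 𝒪 (dat.f0 x)))
    {A : Type} [CommRing A] [IsLocalRing A] [IsAdicComplete (maximalIdeal A) A] [Algebra 𝒪 A]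
    [IsLocalHom (algebraMap 𝒪 A)] (ρA : GaloisRepAdic A)
    (hres : ρA.residual.IsEquiv
      (ρbar.baseChangeAlong (IsLocalRing.ResidueField.map (algebraMap 𝒪 A)))) :
    ∃ f : Idx → A, IsNF dat.c dat.g₀ (mat f) ∧ dat.IsLift f ∧ HasMatrix ρA (mat f) := by
  have := henselianLocalRing_of_complete A
  obtain ⟨bbar, hb⟩ := hmat
  obtain ⟨r, hr, he, hlift⟩ := exists_lift_of_residual_isEquiv
    (IsLocalRing.ResidueField.map (algebraMap 𝒪 A)) ρbar bbar ρA hres
  have h1 : HasMatrix ρA r := (hasMatrix_ofMat r hr).of_isEquiv he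
  have hl : dat.IsLift (entries r) := by
    rw [isLift_iff, mat_entries]
    intro σ
    rw [hlift σ, hb σ]
    rfl
  obtain ⟨P, hP, hP1, hNF⟩ := exists_conj_isNF dat.c dat.g₀ (mat (entries r))
    (IsLift.comb00 dat hl) (IsLift.comb10 dat hl) (IsLift.comb11 dat hl)
    (IsLift.g00 dat hl) (IsLift.g10 dat hl)
  refine ⟨entries fun g => P⁻¹ * mat (entries r) g * P, ?_, IsLift.conj dat hl P hP hP1, ?_⟩
  · rw [mat_entries]
    exact hNF
  · rw [mat_entries, mat_entries]
    have hP' : IsUnit P⁻¹ := by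
      rw [Matrix.isUnit_iff_isUnit_det, Matrix.det_nonsing_inv]
      exact hP.ringInverse
    have h2 := h1.conj P⁻¹ hP'
    rwa [Matrix.nonsing_inv_nonsing_inv P hP] at h2

end Fermat.Agent.S53.Asm
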