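import Fermat.Agent.S53.Rep.Least
import Fermat.Agent.S53.Completion

set_option autoImplicit false
set_option linter.style.haveILetI false
set_option linter.unusedSectionVars false

open IsLocalRing GaloisRep

namespace Fermat.Agent.S53

namespace Rep

section

variable {𝒪 : Type} [CommRing 𝒪] [IsLocalRing 𝒪] {X : Type} {f0 : X → 𝒪}
  {P : ∀ ⦃A : Type⦄ [CommRing A] [IsLocalRing A] [Algebra 𝒪 A], (X → A) → Prop}

theorem exists_fin_reps {I : Ideal (MvPolynomial X 𝒪)} (a : Adm f0 I) :
    ∃ (d : ℕ) (y : Fin d → MvPolynomial X 𝒪), (∀ i, y i ∈ mLam f0) ∧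
      mLam f0 ≤ Ideal.span (Set.range y) ⊔ I := by
  classical
  have := a.finite
  have := Fintype.ofFinite (MvPolynomial X 𝒪 ⧸ I)
  let Z : Finset (MvPolynomial X 𝒪) :=
    (Finset.univ.image (fun c : MvPolynomial X 𝒪 ⧸ I => Quotient.out c)).filter (· ∈ mLam f0)
  refine ⟨Z.card, fun i => (Z.equivFin.symm i : MvPolynomial X 𝒪), fun i => ?_, ?_⟩
  · exact (Finset.mem_filter.mp (Z.equivFin.symm i).2).2
  · intro p hp
    let z := Quotient.out (Ideal.Quotient.mk I p)
    have hz : Ideal.Quotient.mk I z = Ideal.Quotient.mk I p := Ideal.Quotient.mk_out _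
    have hzp : z - p ∈ I := Ideal.Quotient.eq.mp hz
    have hzm : z ∈ mLam f0 := by
      have := (mLam f0).add_mem (a.le hzp) hp
      simpa using this
    have hzZ : z ∈ Z := by
      simp only [Z, Finset.mem_filter, Finset.mem_image, Finset.mem_univ, true_and]
      exact ⟨⟨_, rfl⟩, hzm⟩
    have : p = z + -(z - p) := by ring
    rw [this]
    refine Submodule.add_mem_sup (Ideal.subset_span ⟨Z.equivFin ⟨z, hzZ⟩, ?_⟩) (I.neg_mem hzp)
    simp

/-- The tower of least ideals. -/
theorem exists_chain [IsNoetherianRing 𝒪] [Finite (ResidueField 𝒪)]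
    (hP : IsRepFunctor 𝒪 X f0 P) :
    ∃ I : ℕ → Ideal (MvPolynomial X 𝒪),
      (∀ n, Fam f0 P (I (n + 1))) ∧
      (∀ n, I (n + 1) ≤ I n) ∧ (∀ n, mLam f0 ^ n ≤ I n) ∧
      (∀ n, I n ≤ I (n + 1) ⊔ mLam f0 ^ n) ∧ I 1 = mLam f0 ∧
      (∀ n K, Fam f0 P K → mLam f0 ^ n ≤ K → I n ≤ K) := by
  choose J hJ hJn hJmin using exists_least hP
  have hanti : ∀ m, J (m + 1) ≤ J m := fun m =>
    hJmin (m + 1) (J m) (hJ m) ((Ideal.pow_le_pow_right (by omega)).trans (hJn m))
  refine ⟨fun n => Nat.casesOn n ⊤ J, fun n => hJ n, ?_, ?_, ?_, ?_, ?_⟩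
  · intro n
    cases n with
    | zero => exact le_top
    | succ m => exact hanti m
  · intro n
    cases n with
    | zero => exact le_top
    | succ m => exact hJn m
  · intro n
    cases n with
    | zero => simp
    | succ m =>
      refine hJmin m _ ((hJ (m + 1)).mono hP le_sup_left
        (sup_le (hJ (m + 1)).adm.le (Ideal.pow_le_self (by omega)))) le_sup_right
  · exact le_antisymm (hJ 0).adm.le (by simpa using hJn 0)
  · intro n K hK hn
    cases n with
    | zero =>
      exfalso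
      have h1 : (⊤ : Ideal (MvPolynomial X 𝒪)) ≤ mLam f0 := by
        simpa using hn.trans hK.adm.le
      exact (mLam_isMaximal f0).ne_top (top_le_iff.mp h1)
    | succ m => exact hJmin m K hK hn

end

end Rep

open Fermat.Agent.S53.Rep in
theorem isRepresentable_of_isRepFunctor (𝒪 : Type) [CommRing 𝒪] [IsLocalRing 𝒪]
    [IsNoetherianRing 𝒪] [IsAdicComplete (maximalIdeal 𝒪) 𝒪] [Finite (ResidueField 𝒪)]
    {X : Type} {f0 : X → 𝒪}
    {P : ∀ ⦃A : Type⦄ [CommRing A] [IsLocalRing A] [Algebra 𝒪 A], (X → A) → Prop}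
    (h : IsRepFunctor 𝒪 X f0 P) : IsRepresentable 𝒪 X P := by
  obtain ⟨I, hFam, hanti, hpow, hsucc, hone, hmin⟩ := exists_chain h
  obtain ⟨d, y, hy, hgen⟩ := exists_fin_reps (hFam 1).adm
  have hk : Function.Surjective (fun a : 𝒪 => Ideal.Quotient.mk (mLam f0)
      (algebraMap 𝒪 (MvPolynomial X 𝒪) a)) := by
    intro c
    obtain ⟨p, rfl⟩ := Ideal.Quotient.mk_surjective c
    obtain ⟨o, ho⟩ := exists_sub_C_mem_mLam f0 p
    exact ⟨o, (Ideal.Quotient.eq.mpr ho).symm⟩
  obtain ⟨R, _, _, _, _, _, ι, h1, h2⟩ :=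
    exists_completion (mLam f0) hk I hanti hpow hsucc hone y hy hgen
  have hcomap : ∀ p, ι p ∈ maximalIdeal R ↔ p ∈ mLam f0 := by
    intro p
    have := h1 1
    rw [hone, pow_one] at this
    rw [← this, Ideal.mem_comap]
  have hloc : IsLocalHom (algebraMap 𝒪 R) := by
    constructor
    intro o ho
    by_contra hno
    have h3 : ι (MvPolynomial.C o) ∈ maximalIdeal R :=
      (hcomap _).mpr ((C_mem_mLam f0).mpr ((mem_maximalIdeal o).mpr hno))
    have h4 : ι (MvPolynomial.C o) = algebraMap 𝒪 R o := ι.commutes o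
    rw [h4] at h3
    exact (mem_maximalIdeal _).mp h3 ho
  have hres : Function.Surjective (IsLocalRing.residue R ∘ algebraMap 𝒪 R) := by
    intro c
    obtain ⟨r, rfl⟩ := residue_surjective c
    obtain ⟨p, hp⟩ := h2 1 r
    obtain ⟨o, ho⟩ := exists_sub_C_mem_mLam f0 p
    refine ⟨o, ?_⟩
    have h3 : ι (p - MvPolynomial.C o) ∈ maximalIdeal R := (hcomap _).mpr ho
    have h4 : ι (MvPolynomial.C o) = algebraMap 𝒪 R o := ι.commutes o
    rw [map_sub, h4] at h3
    rw [pow_one] at hp
    have h5 := (maximalIdeal R).add_mem hp h3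
    have h6 : r - ι p + (ι p - algebraMap 𝒪 R o) = r - algebraMap 𝒪 R o := by ring
    rw [h6, ← residue_eq_zero_iff, map_sub, sub_eq_zero] at h5
    exact h5.symm
  refine ⟨R, inferInstance, inferInstance, inferInstance, inferInstance, inferInstance, hloc, hres,
    fun x => ι (MvPolynomial.X x), ?_, ?_⟩
  · -- the universal point satisfies `P`
    rw [h.limit hloc hres]
    intro B _ _ _ hB q _
    obtain ⟨n, hn⟩ := test_exists_pow_eq_bot hB
    let g : MvPolynomial X 𝒪 →ₐ[𝒪] B := q.comp ι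
    have hK1 : I (n + 1) ≤ RingHom.ker g := by
      intro p hp
      have h3 : p ∈ I n := hanti n hp
      rw [← h1 n, Ideal.mem_comap] at h3
      have h4 := map_mem_maximalIdeal_pow hB.residue_surjective q h3
      rw [hn] at h4
      exact h4
    have hK2 : RingHom.ker g ≤ mLam f0 := by
      intro p hp
      by_contra hpn
      have h3 : IsUnit (ι p) := by
        by_contra hnu
        exact hpn ((hcomap p).mp ((mem_maximalIdeal _).mpr hnu))
      have h4 : IsUnit (q (ι p)) := h3.map q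
      have h5 : q (ι p) = 0 := hp
      rw [h5] at h4
      exact not_isUnit_zero h4
    have hF : Fam f0 P (RingHom.ker g) := (hFam n).mono h hK1 hK2
    have a := hF.adm
    have := a.isLocalRing
    have h6 := h.push a.isTest hB (Ideal.kerLiftAlg g) hF.prop
    have h7 : (Ideal.kerLiftAlg g) ∘ taut (RingHom.ker g) = q ∘ fun x => ι (MvPolynomial.X x) := by
      funext x
      simp [taut, g]
    rw [h7] at h6
    exact h6
  · intro A _ _ _ _ _ hlocA hresA f hf
    have hquot : ∀ n : ℕ, Fam f0 P (RingHom.ker (MvPolynomial.aeval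
        ((Ideal.Quotient.mkₐ 𝒪 (maximalIdeal A ^ (n + 1))) ∘ f) :
          MvPolynomial X 𝒪 →ₐ[𝒪] A ⧸ maximalIdeal A ^ (n + 1))) ∧
        ∀ x, f x - algebraMap 𝒪 A (f0 x) ∈ maximalIdeal A := by
      intro n
      have := isLocalRing_quotient (pow_succ_ne_top (A := A) n)
      have hB : IsArtinianTestAlgebra 𝒪 (A ⧸ maximalIdeal A ^ (n + 1)) :=
        isTest_of_surjective hlocA hresA (Ideal.Quotient.mkₐ 𝒪 _)
          (Ideal.Quotient.mkₐ_surjective 𝒪 _) (isArtinianRing_quotient_pow n)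
      have hPq := (h.limit hlocA hresA f).mp hf hB (Ideal.Quotient.mkₐ 𝒪 _)
        (Ideal.Quotient.mkₐ_surjective 𝒪 _)
      refine ⟨fam_ker h hB hPq, fun x => ?_⟩
      have h3 := h.lift hB hPq x
      by_contra hnm
      have h4 : IsUnit (f x - algebraMap 𝒪 A (f0 x)) := by
        by_contra hnu
        exact hnm ((mem_maximalIdeal _).mpr hnu)
      have h5 := h4.map (Ideal.Quotient.mkₐ 𝒪 (maximalIdeal A ^ (n + 1)))
      rw [map_sub, AlgHom.commutes] at h5
      exact (mem_maximalIdeal _).mp h3 h5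
    have hlift : ∀ x, f x - algebraMap 𝒪 A (f0 x) ∈ maximalIdeal A := (hquot 0).2
    have hcm := comap_aeval_maximalIdeal f0 hlocA f hlift
    have hle : ∀ n, I n ≤ (maximalIdeal A ^ n).comap
        (MvPolynomial.aeval f : MvPolynomial X 𝒪 →ₐ[𝒪] A) := by
      intro n
      cases n with
      | zero => simp
      | succ m =>
        have h3 : (MvPolynomial.aeval ((Ideal.Quotient.mkₐ 𝒪 (maximalIdeal A ^ (m + 1))) ∘ f) :
            MvPolynomial X 𝒪 →ₐ[𝒪] A ⧸ maximalIdeal A ^ (m + 1)) =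
            (Ideal.Quotient.mkₐ 𝒪 (maximalIdeal A ^ (m + 1))).comp (MvPolynomial.aeval f) := by
          apply MvPolynomial.algHom_ext
          intro x
          simp
        have h4 : RingHom.ker (MvPolynomial.aeval
            ((Ideal.Quotient.mkₐ 𝒪 (maximalIdeal A ^ (m + 1))) ∘ f) :
            MvPolynomial X 𝒪 →ₐ[𝒪] A ⧸ maximalIdeal A ^ (m + 1)) =
            (maximalIdeal A ^ (m + 1)).comap
              (MvPolynomial.aeval f : MvPolynomial X 𝒪 →ₐ[𝒪] A) := by
          rw [h3]
          ext p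
          rw [RingHom.mem_ker, Ideal.mem_comap, AlgHom.comp_apply, Ideal.Quotient.mkₐ_eq_mk,
            Ideal.Quotient.eq_zero_iff_mem]
        rw [← h4]
        apply hmin (m + 1) _ (hquot m).1
        rw [h4, ← hcm]
        exact Ideal.le_comap_pow _ _
    obtain ⟨φ, hφ, _⟩ := completion_lift ι I h1 h2 (MvPolynomial.aeval f) hle
    refine ⟨φ, fun x => ?_, fun φ' hφ' => ?_⟩
    · have := congrArg (fun ψ => ψ (MvPolynomial.X x)) hφ
      simpa using this
    · apply completion_hom_ext ι h2 φ' φ (isLocalHom_algHom hresA φ') (isLocalHom_algHom hresA φ)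
      rw [hφ]
      apply MvPolynomial.algHom_ext
      intro x
      simpa using hφ' x

end Fermat.Agent.S53
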