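import Mathlib

set_option autoImplicit false

namespace Fermat.Agent.S53

open scoped TensorProduct

variable {G : Type*} [Monoid G] {k : Type*} [Field k] {V : Type*} [AddCommGroup V] [Module k V]

/-- Absolute irreducibility, in the shape used by the residual representations. -/
def AbsIrr (ρ : G →* Module.End k V) : Prop :=
  ∀ W : Submodule (AlgebraicClosure k) (AlgebraicClosure k ⊗[k] V),
    (∀ σ : G, ∀ x ∈ W, (ρ σ).baseChange (AlgebraicClosure k) x ∈ W) → W = ⊥ ∨ W = ⊤

theorem tmul_one_injective :
    Function.Injective (fun v : V => (1 : AlgebraicClosure k) ⊗ₜ[k] v) :=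
  Module.FaithfullyFlat.tensorProduct_mk_injective (A := k) (B := AlgebraicClosure k) V

/-- Irreducibility over the base field. -/
theorem AbsIrr.irreducible {ρ : G →* Module.End k V} (h : AbsIrr ρ) (W : Submodule k V)
    (hW : ∀ σ : G, ∀ x ∈ W, ρ σ x ∈ W) : W = ⊥ ∨ W = ⊤ := by
  have hst : ∀ σ : G, ∀ x ∈ W.baseChange (AlgebraicClosure k),
      (ρ σ).baseChange (AlgebraicClosure k) x ∈ W.baseChange (AlgebraicClosure k) := by
    intro σ x hx
    rw [Submodule.baseChange_eq_span] at hx
    induction hx using Submodule.span_induction with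
    | mem y hy =>
      obtain ⟨w, hw, rfl⟩ := hy
      rw [TensorProduct.mk_apply, LinearMap.baseChange_tmul]
      exact Submodule.tmul_mem_baseChange_of_mem _ (hW σ w hw)
    | zero => rw [map_zero]; exact Submodule.zero_mem _
    | add y z _ _ hy hz => rw [map_add]; exact Submodule.add_mem _ hy hz
    | smul a y _ hy => rw [map_smul]; exact Submodule.smul_mem _ a hy
  rcases h _ hst with h0 | h1
  · left
    rw [Submodule.eq_bot_iff]
    intro w hw
    have : (1 : AlgebraicClosure k) ⊗ₜ[k] w ∈ W.baseChange (AlgebraicClosure k) :=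
      Submodule.tmul_mem_baseChange_of_mem _ hw
    rw [h0, Submodule.mem_bot] at this
    exact tmul_one_injective (this.trans (TensorProduct.tmul_zero _ _).symm)
  · right
    by_contra hne
    obtain ⟨f, hf0, hfW⟩ := Submodule.exists_le_ker_of_lt_top W (lt_top_iff_ne_top.mpr hne)
    apply hf0
    have hker : W.baseChange (AlgebraicClosure k) ≤
        LinearMap.ker (f.baseChange (AlgebraicClosure k)) := by
      rw [Submodule.baseChange_eq_span, Submodule.span_le]
      rintro _ ⟨w, hw, rfl⟩
      rw [SetLike.mem_coe, LinearMap.mem_ker, TensorProduct.mk_apply, LinearMap.baseChange_tmul,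
        LinearMap.mem_ker.mp (hfW hw), TensorProduct.tmul_zero]
    ext v
    have : (1 : AlgebraicClosure k) ⊗ₜ[k] v ∈ W.baseChange (AlgebraicClosure k) := by
      rw [h1]; exact Submodule.mem_top
    have h2 := LinearMap.mem_ker.mp (hker this)
    rw [LinearMap.baseChange_tmul] at h2
    exact tmul_one_injective (V := k) (h2.trans (TensorProduct.tmul_zero _ _).symm)

/-- Schur's lemma. -/
theorem AbsIrr.schur [FiniteDimensional k V] [Nontrivial V] {ρ : G →* Module.End k V}
    (h : AbsIrr ρ) (c : Module.End k V) (hc : ∀ σ : G, c * ρ σ = ρ σ * c) :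
    ∃ a : k, c = a • (1 : Module.End k V) := by
  classical
  have : Nontrivial (AlgebraicClosure k ⊗[k] V) :=
    (tmul_one_injective (k := k) (V := V)).nontrivial
  obtain ⟨μ, hμ⟩ := Module.End.exists_eigenvalue (c.baseChange (AlgebraicClosure k))
  have hst : ∀ σ : G, ∀ x ∈ Module.End.eigenspace (c.baseChange (AlgebraicClosure k)) μ,
      (ρ σ).baseChange (AlgebraicClosure k) x ∈
        Module.End.eigenspace (c.baseChange (AlgebraicClosure k)) μ := by
    intro σ x hx
    rw [Module.End.mem_eigenspace_iff] at hx ⊢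
    have h1 : c.baseChange (AlgebraicClosure k) ((ρ σ).baseChange (AlgebraicClosure k) x)
        = (ρ σ).baseChange (AlgebraicClosure k) (c.baseChange (AlgebraicClosure k) x) := by
      rw [← Module.End.mul_apply, ← Module.End.mul_apply, ← LinearMap.baseChange_mul,
        ← LinearMap.baseChange_mul, hc σ]
    rw [h1, hx, map_smul]
  have htop : Module.End.eigenspace (c.baseChange (AlgebraicClosure k)) μ = ⊤ :=
    (h _ hst).resolve_left hμ
  have hall : ∀ v : V, (1 : AlgebraicClosure k) ⊗ₜ[k] c v = μ • ((1 : AlgebraicClosure k) ⊗ₜ[k] v) := by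
    intro v
    have : (1 : AlgebraicClosure k) ⊗ₜ[k] v ∈ Module.End.eigenspace (c.baseChange (AlgebraicClosure k)) μ := by
      rw [htop]; exact Submodule.mem_top
    rw [Module.End.mem_eigenspace_iff, LinearMap.baseChange_tmul] at this
    exact this
  -- `μ` lies in `k`
  let b := Module.finBasis k V
  have hpos : 0 < Module.finrank k V := Module.finrank_pos
  let i₀ : Fin (Module.finrank k V) := ⟨0, hpos⟩
  let B := Algebra.TensorProduct.basis (AlgebraicClosure k) b
  have hμk : algebraMap k (AlgebraicClosure k) (b.repr (c (b i₀)) i₀) = μ := by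
    have h1 := congrArg (fun x => B.repr x i₀) (hall (b i₀))
    simp only [B, map_smul, Finsupp.smul_apply, Algebra.TensorProduct.basis_repr_tmul,
      Module.Basis.repr_self, Finsupp.single_eq_same, smul_eq_mul, one_smul,
      Finsupp.mapRange_apply] at h1
    simpa [Algebra.smul_def] using h1
  refine ⟨b.repr (c (b i₀)) i₀, ?_⟩
  ext v
  apply tmul_one_injective (k := k)
  show (1 : AlgebraicClosure k) ⊗ₜ[k] c v = 1 ⊗ₜ[k] ((b.repr (c (b i₀)) i₀ • (1 : Module.End k V)) v)
  rw [hall v, LinearMap.smul_apply, Module.End.one_apply, TensorProduct.tmul_smul, ← hμk,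
    algebraMap_smul]

/-- Burnside's theorem: the image of an absolutely irreducible representation spans `End V`. -/
theorem AbsIrr.span_range_eq_top [FiniteDimensional k V] [Nontrivial V] {ρ : G →* Module.End k V}
    (h : AbsIrr ρ) : Submodule.span k (Set.range ρ) = ⊤ := by
  classical
  let R : Subalgebra k (Module.End k V) := Algebra.adjoin k (Set.range ρ)
  have hρR : ∀ σ, ρ σ ∈ R := fun σ => Algebra.subset_adjoin ⟨σ, rfl⟩
  have hsimple : IsSimpleModule R V := by
    rw [isSimpleModule_iff]
    refine { exists_pair_ne := ⟨⊥, ⊤, ?_⟩, eq_bot_or_eq_top := ?_ }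
    · exact bot_ne_top
    · intro W
      have hW := h.irreducible (W.restrictScalars k) (fun σ x hx => by
        have : (⟨ρ σ, hρR σ⟩ : R) • x ∈ W := W.smul_mem _ hx
        exact this)
      rcases hW with h0 | h1
      · left
        exact (Submodule.restrictScalars_eq_bot_iff k R V).mp h0
      · right
        exact (Submodule.restrictScalars_eq_top_iff k R V).mp h1
  have hEnd : ∀ f : Module.End R V, ∃ a : k, ∀ v, f v = a • v := by
    intro f
    obtain ⟨a, ha⟩ := h.schur (f.restrictScalars k) (fun σ => by
      ext v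
      have := f.map_smul (⟨ρ σ, hρR σ⟩ : R) v
      exact this)
    exact ⟨a, fun v => by
      have := LinearMap.congr_fun ha v
      simpa using this⟩
  have hfin : Module.Finite (Module.End R V) V :=
    Module.Finite.of_restrictScalars_finite k (Module.End R V) V
  have hsurj := Module.Finite.toModuleEnd_moduleEnd_surjective (R := R) (M := V)
  have hRtop : R = ⊤ := by
    rw [eq_top_iff]
    intro φ _
    let φ' : Module.End (Module.End R V) V :=
      { toFun := φ
        map_add' := φ.map_add
        map_smul' := fun f v => by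
          obtain ⟨a, ha⟩ := hEnd f
          simp only [Module.End.smul_def, RingHom.id_apply, ha, map_smul] }
    obtain ⟨r, hr⟩ := hsurj φ'
    have : (r : Module.End k V) = φ := by
      ext v
      have := LinearMap.congr_fun hr v
      exact this
    rw [← this]
    exact r.2
  have h1 := Algebra.adjoin_eq_span k (Set.range ρ)
  have h2 : (Submonoid.closure (Set.range ρ) : Set (Module.End k V)) = Set.range ρ := by
    rw [← MonoidHom.coe_mrange, Submonoid.closure_eq]
  rw [h2] at h1
  rw [← h1]
  show Subalgebra.toSubmodule R = ⊤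
  rw [hRtop, Algebra.top_toSubmodule]

/-- The data used to define normal forms of lifts. -/
theorem AbsIrr.exists_nfData (hfr : Module.finrank k V = 2) {ρ : G →* Module.End k V}
    (h : AbsIrr ρ) :
    ∃ (b : Module.Basis (Fin 2) k V) (g₀ : G) (c : G →₀ k),
      LinearMap.toMatrix b b (ρ g₀) 0 0 = 0 ∧ LinearMap.toMatrix b b (ρ g₀) 1 0 = 1 ∧
      (c.sum fun g a => a • LinearMap.toMatrix b b (ρ g)) = !![1, 0; 0, 0] := by
  classical
  have hfd : FiniteDimensional k V := Module.finite_of_finrank_eq_succ hfr
  have hnt : Nontrivial V := Module.nontrivial_of_finrank_pos (R := k) (by omega)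
  obtain ⟨e, he⟩ := exists_ne (0 : V)
  have hg : ∃ g₀ : G, ρ g₀ e ∉ Submodule.span k {e} := by
    by_contra hcon
    push Not at hcon
    have hst : ∀ σ : G, ∀ x ∈ Submodule.span k {e}, ρ σ x ∈ Submodule.span k {e} := by
      intro σ x hx
      obtain ⟨a, rfl⟩ := Submodule.mem_span_singleton.mp hx
      rw [map_smul]
      exact Submodule.smul_mem _ a (hcon σ)
    rcases h.irreducible _ hst with h0 | h1
    · exact he ((Submodule.span_singleton_eq_bot).mp h0)
    · have h2 := finrank_span_singleton (K := k) he
      rw [h1, finrank_top, hfr] at h2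
      omega
  obtain ⟨g₀, hg₀⟩ := hg
  have hli : LinearIndependent k ![e, ρ g₀ e] := by
    rw [LinearIndependent.pair_iff' he]
    intro a ha
    exact hg₀ (Submodule.mem_span_singleton.mpr ⟨a, ha⟩)
  let b : Module.Basis (Fin 2) k V :=
    basisOfLinearIndependentOfCardEqFinrank hli (by rw [hfr]; rfl)
  have hb0 : b 0 = e := by simp [b]
  have hb1 : b 1 = ρ g₀ e := by simp [b]
  have hx : Matrix.toLin b b !![1, 0; 0, 0] ∈ Submodule.span k (Set.range ρ) := by
    rw [h.span_range_eq_top]; exact Submodule.mem_top
  obtain ⟨c, hc⟩ := Finsupp.mem_span_range_iff_exists_finsupp.mp hx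
  refine ⟨b, g₀, c, ?_, ?_, ?_⟩
  · rw [LinearMap.toMatrix_apply, hb0, ← hb1, Module.Basis.repr_self]
    simp
  · rw [LinearMap.toMatrix_apply, hb0, ← hb1, Module.Basis.repr_self]
    simp
  · have := congrArg (LinearMap.toMatrix b b) hc
    rw [LinearMap.toMatrix_toLin, map_finsuppSum] at this
    rw [← this]
    refine Finsupp.sum_congr fun g _ => ?_
    rw [map_smul]

end Fermat.Agent.S53
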