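import Fermat.Agent.S53.Dict
import Fermat.Agent.S53.AbsIrr

set_option autoImplicit false

open IsLocalRing GaloisRep

namespace Fermat.Agent.S53

/-- `mat` is injective. -/
theorem fb_mat_injective {A : Type} : Function.Injective (mat : (Idx → A) → G → M2 A) := by
  intro f f' h
  funext x
  obtain ⟨g, i, j⟩ := x
  exact congrFun (congrFun (congrFun h g) i) j

/-- Entries of `comb` of a family reducing to `f0`. -/
theorem fb_comb_sub_mem {𝒪 : Type} [CommRing 𝒪] {A : Type} [CommRing A] [Algebra 𝒪 A]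
    (I : Ideal A) (c : G →₀ 𝒪) (f0 : Idx → 𝒪) (f : Idx → A)
    (hf : ∀ x, f x - algebraMap 𝒪 A (f0 x) ∈ I) (i j : Fin 2) :
    comb c (mat f) i j - algebraMap 𝒪 A (comb c (mat f0) i j) ∈ I := by
  rw [comb_apply, comb_apply]
  unfold Finsupp.sum
  rw [map_sum, ← Finset.sum_sub_distrib]
  refine Ideal.sum_mem _ fun g _ => ?_
  have h1 : c g • mat f g i j - algebraMap 𝒪 A (c g • mat f0 g i j) =
      algebraMap 𝒪 A (c g) * (f (g, i, j) - algebraMap 𝒪 A (f0 (g, i, j))) := by
    simp only [mat, Matrix.of_apply, Algebra.smul_def, map_mul, Algebra.algebraMap_self,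
      RingHom.id_apply]
    ring
  rw [h1]
  exact Ideal.mul_mem_left _ _ (hf _)

/-- (G0) rigidifying data exist. -/
theorem exists_rigidData (𝒪 : Type) [CommRing 𝒪] [IsLocalRing 𝒪]
    (ρbar : ResidualGaloisRep (ResidueField 𝒪)) (habs : ρbar.IsAbsolutelyIrreducible) :
    ∃ dat : RigidData 𝒪, HasMatrixRes ρbar (mat fun x => residue 𝒪 (dat.f0 x)) := by
  classical
  have habs' : AbsIrr ρbar.ρ := habs
  obtain ⟨b, g₀, c, h00, h10, hc⟩ := habs'.exists_nfData ρbar.finrank_eq
  let s : ResidueField 𝒪 → 𝒪 := fun x => if x = 0 then 0 else (residue_surjective x).choose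
  have hs : ∀ x, residue 𝒪 (s x) = x := by
    intro x
    by_cases hx : x = 0
    · simp [s, hx]
    · simp only [s, if_neg hx]
      exact (residue_surjective x).choose_spec
  have hs0 : s 0 = 0 := by simp [s]
  let f0 : Idx → 𝒪 := fun x => s (LinearMap.toMatrix b b (ρbar.ρ x.1) x.2.1 x.2.2)
  let c' : G →₀ 𝒪 := c.mapRange s hs0
  have hent : ∀ i j, residue 𝒪 (comb c' (mat f0) i j) =
      (!![1, 0; 0, 0] : M2 (ResidueField 𝒪)) i j := by
    intro i j
    rw [← hc, comb_apply, map_finsuppSum, Finsupp.sum_mapRange_index (by intro g; simp)]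
    unfold Finsupp.sum
    rw [Matrix.sum_apply]
    refine Finset.sum_congr rfl fun g _ => ?_
    simp [mat, f0, hs]
  refine ⟨⟨f0, c', g₀, ?_, ?_, ?_, ?_, ?_⟩, b, fun σ => ?_⟩
  · rw [← residue_eq_zero_iff]
    simp only [f0, hs]
    exact h00
  · rw [← residue_eq_zero_iff, map_sub]
    simp only [f0, hs]
    rw [h10]
    simp
  · rw [← residue_eq_zero_iff, map_sub, hent]
    simp
  · rw [← residue_eq_zero_iff, hent]
    simp
  · rw [← residue_eq_zero_iff, hent]
    simp
  · ext i j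
    simp [mat, f0, hs]

variable {𝒪 : Type} [CommRing 𝒪] [IsLocalRing 𝒪] {dat : RigidData 𝒪} {𝒟 : Cond 𝒪}

theorem PFun.base (ρbar : ResidualGaloisRep (ResidueField 𝒪))
    (hmat : HasMatrixRes ρbar (mat fun x => residue 𝒪 (dat.f0 x)))
    (hbar : 𝒟 (GaloisRepAdic.ofResidualGaloisRep ρbar)) :
    PFun dat 𝒟 (fun x => IsLocalRing.residue 𝒪 (dat.f0 x)) := by
  refine ⟨⟨?_, ?_, ?_⟩, fun x => ?_, GaloisRepAdic.ofResidualGaloisRep ρbar,
    hmat.ofResidualGaloisRep, hbar⟩
  · show residue 𝒪 (dat.f0 (dat.g₀, 0, 0)) = 0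
    rw [residue_eq_zero_iff]
    exact dat.h00
  · show residue 𝒪 (dat.f0 (dat.g₀, 1, 0)) = 1
    have := dat.h10
    rw [← residue_eq_zero_iff, map_sub, map_one, sub_eq_zero] at this
    exact this
  · have h1 := fb_comb_sub_mem (A := ResidueField 𝒪) ⊥ dat.c dat.f0
      (fun x => residue 𝒪 (dat.f0 x)) (fun x => by
        rw [Ideal.mem_bot, sub_eq_zero]; rfl) 1 0
    rw [Ideal.mem_bot, sub_eq_zero] at h1
    rw [h1]
    show residue 𝒪 _ = 0
    rw [residue_eq_zero_iff]
    exact dat.hX10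
  · have : residue 𝒪 (dat.f0 x) - algebraMap 𝒪 (ResidueField 𝒪) (dat.f0 x) = 0 := sub_self _
    rw [this]
    exact Ideal.zero_mem _

theorem PFun.tangent (ρbar : ResidualGaloisRep (ResidueField 𝒪))
    (hmat : HasMatrixRes ρbar (mat fun x => residue 𝒪 (dat.f0 x)))
    (hfin : TangentFinite 𝒪 ρbar 𝒟) :
    letI := dualAlg 𝒪
    Set.Finite {f : Idx → DualNumber (ResidueField 𝒪) | PFun dat 𝒟 f} := by
  let _ := dualAlg 𝒪
  let alg2 : Algebra (ResidueField 𝒪) (ResidueField (DualNumber (ResidueField 𝒪))) :=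
    ((IsLocalRing.residue (DualNumber (ResidueField 𝒪))).comp
      (algebraMap (ResidueField 𝒪) (DualNumber (ResidueField 𝒪)))).toAlgebra
  -- the algebra map kills the maximal ideal
  have hmax : ∀ a ∈ maximalIdeal 𝒪, algebraMap 𝒪 (DualNumber (ResidueField 𝒪)) a = 0 := by
    intro a ha
    show algebraMap (ResidueField 𝒪) (DualNumber (ResidueField 𝒪)) (residue 𝒪 a) = 0
    rw [(residue_eq_zero_iff a).mpr ha, map_zero]
  -- the residual representation of a point of the functor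
  have hres : ∀ (f : Idx → DualNumber (ResidueField 𝒪)), dat.IsLift f →
      ∀ ρ : GaloisRepAdic (DualNumber (ResidueField 𝒪)), HasMatrix ρ (mat f) →
      ρ.residual.IsEquiv (ρbar.baseChange (ResidueField (DualNumber (ResidueField 𝒪)))) := by
    intro f hf ρ hρ
    have h1 := hρ.residual
    have h2 := hmat.baseChangeAlong ((IsLocalRing.residue (DualNumber (ResidueField 𝒪))).comp
      (algebraMap (ResidueField 𝒪) (DualNumber (ResidueField 𝒪))))
    have h3 : (fun σ => (mat f σ).map (residue (DualNumber (ResidueField 𝒪)))) =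
        (fun σ => ((mat fun x => residue 𝒪 (dat.f0 x)) σ).map
          ((IsLocalRing.residue (DualNumber (ResidueField 𝒪))).comp
            (algebraMap (ResidueField 𝒪) (DualNumber (ResidueField 𝒪))))) := by
      funext σ
      ext i j
      have h4 := hf (σ, i, j)
      rw [← residue_eq_zero_iff, map_sub, sub_eq_zero] at h4
      exact h4
    rw [h3] at h1
    exact h1.isEquiv h2
  choose R hR1 hR2 using fun (f : Idx → DualNumber (ResidueField 𝒪)) (hf : PFun dat 𝒟 f) => hf.2.2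
  let F : {f : Idx → DualNumber (ResidueField 𝒪) | PFun dat 𝒟 f} →
      Quotient (⟨fun ρ ρ' : {ρ : GaloisRepAdic (DualNumber (ResidueField 𝒪)) //
      𝒟 ρ ∧ ρ.residual.IsEquiv (ρbar.baseChange (ResidueField (DualNumber (ResidueField 𝒪)))) } =>
      ρ.1.IsEquiv ρ'.1, ⟨fun ρ => ⟨GaloisRepAdic.Equiv.refl ρ.1⟩,
        fun ⟨e⟩ => ⟨e.symm⟩, fun ⟨e⟩ ⟨e'⟩ => ⟨e.trans e'⟩⟩⟩ : Setoid _) :=
    fun f => Quotient.mk _ ⟨R f.1 f.2, hR2 f.1 f.2, hres f.1 f.2.2.1 (R f.1 f.2) (hR1 f.1 f.2)⟩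
  have hF : Function.Injective F := by
    intro f f' hff
    have h1 : (R f.1 f.2).IsEquiv (R f'.1 f'.2) := Quotient.exact hff
    have h2 := (hR1 f.1 f.2).of_isEquiv h1
    obtain ⟨P, hP, hconj⟩ := h2.exists_conj (hR1 f'.1 f'.2)
    have hu : IsUnit (comb dat.c (mat f.1) 0 0 - comb dat.c (mat f'.1) 1 1) := by
      have e1 := fb_comb_sub_mem (maximalIdeal _) dat.c dat.f0 f.1 f.2.2.1 0 0
      have e2 := fb_comb_sub_mem (maximalIdeal _) dat.c dat.f0 f'.1 f'.2.2.1 1 1
      have e3 := hmax _ dat.hX00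
      have e4 := hmax _ dat.hX11
      rw [map_sub, map_one, sub_eq_zero] at e3
      rw [e3] at e1
      rw [e4, sub_zero] at e2
      have e5 : (comb dat.c (mat f.1) 0 0 - comb dat.c (mat f'.1) 1 1) - 1 ∈
          maximalIdeal (DualNumber (ResidueField 𝒪)) := by
        have := Ideal.sub_mem _ e1 e2
        convert this using 1
        ring
      by_contra hnu
      have e6 : comb dat.c (mat f.1) 0 0 - comb dat.c (mat f'.1) 1 1 ∈
          maximalIdeal (DualNumber (ResidueField 𝒪)) := (mem_maximalIdeal _).mpr hnu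
      have e7 := Ideal.sub_mem _ e6 e5
      rw [sub_sub_cancel] at e7
      exact (Ideal.ne_top_iff_one _).mp (maximalIdeal.isMaximal _).ne_top e7
    have h3 := IsNF.eq_of_conj f.2.1 f'.2.1 hu P ((Matrix.isUnit_iff_isUnit_det P).mp hP) hconj
    exact Subtype.ext (fb_mat_injective h3)
  exact Set.finite_coe_iff.mp (@Finite.of_injective _ _ hfin F hF)

end Fermat.Agent.S53
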