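import Fermat.Agent.S53.Dict

set_option autoImplicit false

open IsLocalRing GaloisRep

namespace Fermat.Agent.S53

namespace FunctorLimit

section QuotPow

variable {A : Type} [CommRing A] [IsLocalRing A]

theorem pow_succ_ne_top (n : ℕ) : maximalIdeal A ^ (n + 1) ≠ ⊤ := fun h =>
  (maximalIdeal.isMaximal A).ne_top (top_le_iff.mp (h ▸ Ideal.pow_le_self (Nat.succ_ne_zero n)))

theorem isLocalRing_quot (n : ℕ) : IsLocalRing (A ⧸ maximalIdeal A ^ (n + 1)) := by
  have : Nontrivial (A ⧸ maximalIdeal A ^ (n + 1)) :=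
    Ideal.Quotient.nontrivial_iff.mpr (pow_succ_ne_top n)
  exact IsLocalRing.of_surjective' (Ideal.Quotient.mk _) Ideal.Quotient.mk_surjective

theorem maximalIdeal_quot_pow (n : ℕ) [IsLocalRing (A ⧸ maximalIdeal A ^ (n + 1))] :
    maximalIdeal (A ⧸ maximalIdeal A ^ (n + 1)) ^ (n + 1) = ⊥ := by
  rw [← IsLocalRing.map_maximalIdeal_of_surjective (Ideal.Quotient.mk (maximalIdeal A ^ (n + 1)))
    Ideal.Quotient.mk_surjective, ← Ideal.map_pow, Ideal.map_quotient_self]

theorem isArtinianTestAlgebra_quot {𝒪 : Type} [CommRing 𝒪] [IsLocalRing 𝒪] [Algebra 𝒪 A]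
    [IsNoetherianRing A] (hloc : IsLocalHom (algebraMap 𝒪 A))
    (hres : Function.Surjective (IsLocalRing.residue A ∘ algebraMap 𝒪 A)) (n : ℕ)
    [IsLocalRing (A ⧸ maximalIdeal A ^ (n + 1))] :
    IsArtinianTestAlgebra 𝒪 (A ⧸ maximalIdeal A ^ (n + 1)) where
  isLocalHom := by
    have h1 : IsLocalHom (Ideal.Quotient.mk (maximalIdeal A ^ (n + 1))) :=
      IsLocalHom.of_surjective _ Ideal.Quotient.mk_surjective
    have h2 : algebraMap 𝒪 (A ⧸ maximalIdeal A ^ (n + 1)) =
        (Ideal.Quotient.mk (maximalIdeal A ^ (n + 1))).comp (algebraMap 𝒪 A) := rfl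
    rw [h2]
    exact RingHom.isLocalHom_comp _ _
  residue_surjective := by
    intro x
    obtain ⟨b, rfl⟩ := IsLocalRing.residue_surjective x
    obtain ⟨a, rfl⟩ := Ideal.Quotient.mk_surjective b
    obtain ⟨c, hc⟩ := hres (IsLocalRing.residue A a)
    refine ⟨c, ?_⟩
    have h1 : IsLocalHom (Ideal.Quotient.mk (maximalIdeal A ^ (n + 1))) :=
      IsLocalHom.of_surjective _ Ideal.Quotient.mk_surjective
    have hz : algebraMap 𝒪 A c - a ∈ maximalIdeal A := by
      rw [← IsLocalRing.residue_eq_zero_iff, map_sub, sub_eq_zero]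
      exact hc
    have h3 : Ideal.Quotient.mk (maximalIdeal A ^ (n + 1)) (algebraMap 𝒪 A c - a) ∈
        maximalIdeal (A ⧸ maximalIdeal A ^ (n + 1)) := by
      rw [← IsLocalRing.map_maximalIdeal_of_surjective
        (Ideal.Quotient.mk (maximalIdeal A ^ (n + 1))) Ideal.Quotient.mk_surjective]
      exact Ideal.mem_map_of_mem _ hz
    rw [← IsLocalRing.residue_eq_zero_iff, map_sub, map_sub, sub_eq_zero] at h3
    exact h3
  isArtinian := by
    rw [isArtinianRing_iff_isNilpotent_maximalIdeal]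
    exact ⟨n + 1, maximalIdeal_quot_pow n⟩

/-- Elements which vanish in all the quotients `A ⧸ 𝔪 ^ (n + 1)` vanish. -/
theorem eq_zero_of_forall_mk [IsHausdorff (maximalIdeal A) A] (a : A)
    (h : ∀ n : ℕ, Ideal.Quotient.mk (maximalIdeal A ^ (n + 1)) a = 0) : a = 0 := by
  refine IsHausdorff.haus ‹_› a fun n => ?_
  rw [SModEq.sub_mem, sub_zero, smul_eq_mul, Ideal.mul_top]
  exact Ideal.pow_le_pow_right (Nat.le_succ n) (Ideal.Quotient.eq_zero_iff_mem.mp (h n))

theorem eq_of_forall_mk [IsHausdorff (maximalIdeal A) A] (a b : A)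
    (h : ∀ n : ℕ, Ideal.Quotient.mk (maximalIdeal A ^ (n + 1)) a =
      Ideal.Quotient.mk (maximalIdeal A ^ (n + 1)) b) : a = b := by
  rw [← sub_eq_zero]
  exact eq_zero_of_forall_mk _ fun n => by rw [map_sub, h n, sub_self]

end QuotPow

theorem mat_comp {A B : Type} (q : A → B) (f : Idx → A) :
    mat (q ∘ f) = fun g => (mat f g).map q := by
  funext g
  ext i j
  rfl

end FunctorLimit

open FunctorLimit

variable {𝒪 : Type} [CommRing 𝒪] [IsLocalRing 𝒪] {dat : RigidData 𝒪} {𝒟 : Cond 𝒪}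

theorem PFun.limit (h𝒟 : IsDeformationCondition 𝒪 𝒟)
    ⦃A : Type⦄ [CommRing A] [IsLocalRing A] [IsNoetherianRing A]
    [IsAdicComplete (maximalIdeal A) A] [Algebra 𝒪 A]
    (hloc : IsLocalHom (algebraMap 𝒪 A))
    (hres : Function.Surjective (IsLocalRing.residue A ∘ algebraMap 𝒪 A)) (f : Idx → A) :
    PFun dat 𝒟 f ↔ ∀ ⦃B : Type⦄ [CommRing B] [IsLocalRing B] [Algebra 𝒪 B],
      IsArtinianTestAlgebra 𝒪 B → ∀ (q : A →ₐ[𝒪] B), Function.Surjective q →
        PFun dat 𝒟 (q ∘ f) := by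
  constructor
  · rintro ⟨hnf, hlift, ρ, hρ, hD⟩ B _ _ _ hB q hq
    have hql : IsLocalHom (q : A →+* B) := IsLocalHom.of_surjective _ hq
    refine ⟨?_, ?_, ρ.baseChangeAlong (q : A →+* B) hql, ?_, ?_⟩
    · rw [mat_comp]
      exact hnf.map q
    · intro x
      have h1 := hlift x
      have h2 : (q ∘ f) x - algebraMap 𝒪 B (dat.f0 x) =
          (q : A →+* B) (f x - algebraMap 𝒪 A (dat.f0 x)) := by
        simp
      rw [h2, ← IsLocalRing.map_maximalIdeal_of_surjective (q : A →+* B) hq]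
      exact Ideal.mem_map_of_mem _ h1
    · rw [mat_comp]
      exact hρ.baseChangeAlong (q : A →+* B) hql
    · exact (h𝒟.iff_forall_surjective hloc hres ρ).mp hD hB q hql hq
  · intro H
    -- the quotients `A ⧸ 𝔪 ^ (n + 1)`
    have hlocn : ∀ n, IsLocalRing (A ⧸ maximalIdeal A ^ (n + 1)) := isLocalRing_quot
    have Hn : ∀ n, PFun dat 𝒟 (Ideal.Quotient.mkₐ 𝒪 (maximalIdeal A ^ (n + 1)) ∘ f) := fun n =>
      H (isArtinianTestAlgebra_quot hloc hres n) (Ideal.Quotient.mkₐ 𝒪 _)
        (Ideal.Quotient.mkₐ_surjective _ _)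
    have Hmat : ∀ n, IsMatRep (fun g => (mat f g).map
        (Ideal.Quotient.mkₐ 𝒪 (maximalIdeal A ^ (n + 1)))) := fun n => by
      obtain ⟨-, -, ρ, hρ, -⟩ := Hn n
      rw [mat_comp] at hρ
      exact hρ.isMatRep
    have hnf : IsNF dat.c dat.g₀ (mat f) := by
      refine ⟨?_, ?_, ?_⟩
      · refine eq_of_forall_mk _ _ fun n => ?_
        have := (Hn n).1.h00
        rw [map_zero]
        exact this
      · refine eq_of_forall_mk _ _ fun n => ?_
        have := (Hn n).1.h10
        rw [map_one]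
        exact this
      · refine eq_of_forall_mk _ _ fun n => ?_
        have := (Hn n).1.hX
        rw [mat_comp, comb_map] at this
        rw [map_zero]
        exact this
    have hlift : dat.IsLift f := by
      intro x
      have h1 := (Hn 0).2.1 x
      by_contra hx
      have hu : IsUnit (f x - algebraMap 𝒪 A (dat.f0 x)) := by
        by_contra hu
        exact hx ((IsLocalRing.mem_maximalIdeal _).mpr hu)
      have hu' := hu.map (Ideal.Quotient.mkₐ 𝒪 (maximalIdeal A ^ (0 + 1)))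
      have h2 : (Ideal.Quotient.mkₐ 𝒪 (maximalIdeal A ^ (0 + 1))) (f x - algebraMap 𝒪 A (dat.f0 x)) =
          (Ideal.Quotient.mkₐ 𝒪 (maximalIdeal A ^ (0 + 1)) ∘ f) x -
            algebraMap 𝒪 (A ⧸ maximalIdeal A ^ (0 + 1)) (dat.f0 x) := by
        rw [map_sub, AlgHom.commutes]; rfl
      rw [h2] at hu'
      exact (IsLocalRing.mem_maximalIdeal _).mp h1 hu'
    have hrep : IsMatRep (mat f) := by
      refine ⟨?_, ?_, ?_⟩
      · ext i j
        refine eq_of_forall_mk _ _ fun n => ?_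
        have := congrFun (congrFun (Hmat n).map_one i) j
        rw [Matrix.map_apply] at this
        rw [← Ideal.Quotient.mkₐ_eq_mk 𝒪, this]
        by_cases hij : i = j
        · subst hij; simp
        · simp [Matrix.one_apply_ne hij]
      · intro σ τ
        ext i j
        refine eq_of_forall_mk _ _ fun n => ?_
        have := congrFun (congrFun ((Hmat n).map_mul σ τ) i) j
        rw [Matrix.map_apply, ← Matrix.map_mul, Matrix.map_apply] at this
        exact this
      · intro n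
        rcases n with _ | n
        · exact ⟨⊥, inferInstance, fun σ _ i j => by simp⟩
        · obtain ⟨L, hL, h⟩ := (Hmat n).cont (n + 1)
          refine ⟨L, hL, fun σ hσ i j => ?_⟩
          have h1 := h σ hσ i j
          rw [maximalIdeal_quot_pow, Ideal.mem_bot] at h1
          rw [← Ideal.Quotient.eq_zero_iff_mem, ← h1, ← Ideal.Quotient.mkₐ_eq_mk 𝒪]
          by_cases hij : i = j
          · subst hij; simp
          · simp [Matrix.one_apply_ne hij]
    obtain ⟨ρ, hρ⟩ := hrep.exists_hasMatrix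
    refine ⟨hnf, hlift, ρ, hρ, ?_⟩
    refine (h𝒟.iff_forall_surjective hloc hres ρ).mpr ?_
    intro B _ _ _ hB q hql hq
    obtain ⟨-, -, ρ', hρ', hD'⟩ := H hB q hq
    rw [mat_comp] at hρ'
    exact h𝒟.of_isEquiv hB (hρ'.isEquiv (hρ.baseChangeAlong (q : A →+* B) hql)) hD'

end Fermat.Agent.S53
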