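import Fermat.Agent.S53.FunctorPush
import Fermat.Agent.S53.FunctorLimit
import Fermat.Agent.S53.FunctorBase

set_option autoImplicit false

open IsLocalRing GaloisRep

namespace Fermat.Agent.S53

variable {𝒪 : Type} [CommRing 𝒪] [IsLocalRing 𝒪] {dat : RigidData 𝒪} {𝒟 : Cond 𝒪}

theorem isRepFunctor_PFun (h𝒟 : IsDeformationCondition 𝒪 𝒟)
    (ρbar : ResidualGaloisRep (ResidueField 𝒪))
    (hmat : HasMatrixRes ρbar (mat fun x => residue 𝒪 (dat.f0 x)))
    (hbar : 𝒟 (GaloisRepAdic.ofResidualGaloisRep ρbar))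
    (hfin : TangentFinite 𝒪 ρbar 𝒟) : IsRepFunctor 𝒪 Idx dat.f0 (PFun dat 𝒟) where
  push := PFun.push h𝒟
  inj := PFun.inj h𝒟
  fibre := PFun.fibre h𝒟
  limit := PFun.limit h𝒟
  lift := fun _ _ _ _ _ _ hf => hf.2.1
  base := PFun.base ρbar hmat hbar
  tangent := PFun.tangent ρbar hmat hfin

end Fermat.Agent.S53
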