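import Fermat.Agent.S53.Dict

set_option autoImplicit false

open IsLocalRing GaloisRep

namespace Fermat.Agent.S53

section aux

theorem exists_maximalIdeal_pow_eq_bot (A : Type) [CommRing A] [IsLocalRing A]
    [IsArtinianRing A] : ∃ n : ℕ, maximalIdeal A ^ n = ⊥ := by
  have h := IsArtinianRing.isNilpotent_jacobson_bot (R := A)
  rw [IsLocalRing.jacobson_eq_maximalIdeal ⊥ bot_ne_top] at h
  exact h

theorem isLocalHom_of_isArtinianRing {A B : Type} [CommRing A] [IsLocalRing A]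
    [IsArtinianRing A] [CommRing B] [Nontrivial B] (φ : A →+* B) : IsLocalHom φ := by
  refine ⟨fun a ha => ?_⟩
  by_contra hna
  obtain ⟨n, hn⟩ := exists_maximalIdeal_pow_eq_bot A
  have h1 : a ^ n ∈ maximalIdeal A ^ n := Ideal.pow_mem_pow ((mem_maximalIdeal a).mpr hna) n
  rw [hn, Ideal.mem_bot] at h1
  have h2 : IsUnit (φ a ^ n) := ha.pow n
  rw [← map_pow, h1, map_zero] at h2
  exact not_isUnit_zero h2

theorem mem_maximalIdeal_of_map {A B : Type} [CommRing A] [IsLocalRing A]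
    [CommRing B] [IsLocalRing B] (φ : A →+* B) {a : A} (h : φ a ∈ maximalIdeal B) :
    a ∈ maximalIdeal A := by
  rw [mem_maximalIdeal] at h ⊢
  exact fun ha => h (ha.map φ)

theorem mat_comp {A B : Type} (φ : A → B) (f : Idx → A) :
    mat (φ ∘ f) = fun σ => (mat f σ).map φ := rfl

theorem IsMatRep.of_map_injective₂ {Q A B : Type} [CommRing Q] [IsLocalRing Q]
    [CommRing A] [IsLocalRing A] [IsArtinianRing A] [CommRing B] [IsLocalRing B]
    [IsArtinianRing B] (φ : Q →+* A) (ψ : Q →+* B)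
    (hinj : Function.Injective (fun x => (φ x, ψ x))) {r : G → M2 Q}
    (h1 : IsMatRep (fun σ => (r σ).map φ)) (h2 : IsMatRep (fun σ => (r σ).map ψ)) :
    IsMatRep r := by
  have hM : ∀ M N : M2 Q, M.map φ = N.map φ → M.map ψ = N.map ψ → M = N := by
    intro M N hφ hψ
    ext i j
    apply hinj
    have e1 := congrFun (congrFun hφ i) j
    have e2 := congrFun (congrFun hψ i) j
    simp only [Matrix.map_apply] at e1 e2
    exact Prod.ext e1 e2
  refine ⟨?_, ?_, ?_⟩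
  · apply hM
    · rw [h1.map_one, Matrix.map_one _ (_root_.map_zero φ) (_root_.map_one φ)]
    · rw [h2.map_one, Matrix.map_one _ (_root_.map_zero ψ) (_root_.map_one ψ)]
  · intro σ τ
    apply hM
    · rw [h1.map_mul, Matrix.map_mul]
    · rw [h2.map_mul, Matrix.map_mul]
  · intro n
    obtain ⟨N1, hN1⟩ := exists_maximalIdeal_pow_eq_bot A
    obtain ⟨N2, hN2⟩ := exists_maximalIdeal_pow_eq_bot B
    obtain ⟨L1, hL1, hc1⟩ := h1.cont N1
    obtain ⟨L2, hL2, hc2⟩ := h2.cont N2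
    refine ⟨L1 ⊔ L2, IntermediateField.finiteDimensional_sup L1 L2, fun σ hσ i j => ?_⟩
    have e1 := hc1 σ (fun x hx => hσ x ((le_sup_left : L1 ≤ L1 ⊔ L2) hx)) i j
    have e2 := hc2 σ (fun x hx => hσ x ((le_sup_right : L2 ≤ L1 ⊔ L2) hx)) i j
    rw [hN1, Ideal.mem_bot] at e1
    rw [hN2, Ideal.mem_bot] at e2
    have e0 : (r σ - 1) i j = 0 := by
      apply hinj
      refine Prod.ext ?_ ?_
      · simp only [map_zero]
        rw [← e1]
        simp only [Matrix.sub_apply, Matrix.map_apply, map_sub, Matrix.one_apply]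
        split_ifs <;> simp
      · simp only [map_zero]
        rw [← e2]
        simp only [Matrix.sub_apply, Matrix.map_apply, map_sub, Matrix.one_apply]
        split_ifs <;> simp
    rw [e0]
    exact Ideal.zero_mem _

end aux

variable {𝒪 : Type} [CommRing 𝒪] [IsLocalRing 𝒪] {dat : RigidData 𝒪} {𝒟 : Cond 𝒪}

theorem PFun.push (h𝒟 : IsDeformationCondition 𝒪 𝒟)
    ⦃A B : Type⦄ [CommRing A] [IsLocalRing A] [Algebra 𝒪 A]
    [CommRing B] [IsLocalRing B] [Algebra 𝒪 B]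
    (hA : IsArtinianTestAlgebra 𝒪 A) (hB : IsArtinianTestAlgebra 𝒪 B)
    (φ : A →ₐ[𝒪] B) ⦃f : Idx → A⦄ (hf : PFun dat 𝒟 f) : PFun dat 𝒟 (φ ∘ f) := by
  obtain ⟨hnf, hlift, ρ, hρ, hD⟩ := hf
  have := hA.isArtinian
  have hloc : IsLocalHom (φ : A →+* B) := isLocalHom_of_isArtinianRing _
  refine ⟨hnf.map φ, fun x => ?_, ρ.baseChangeAlong (φ : A →+* B) hloc,
    hρ.baseChangeAlong (φ : A →+* B) hloc, h𝒟.baseChangeAlong hA hB φ hloc hD⟩
  have h := hlift x
  have h2 : (φ : A →+* B) (f x - algebraMap 𝒪 A (dat.f0 x)) ∈ maximalIdeal B :=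
    map_nonunit (φ : A →+* B) _ h
  simpa using h2

theorem PFun.fibre (h𝒟 : IsDeformationCondition 𝒪 𝒟)
    ⦃A B C Q : Type⦄ [CommRing A] [IsLocalRing A] [Algebra 𝒪 A]
    [CommRing B] [IsLocalRing B] [Algebra 𝒪 B] [CommRing C] [IsLocalRing C] [Algebra 𝒪 C]
    [CommRing Q] [IsLocalRing Q] [Algebra 𝒪 Q]
    (hA : IsArtinianTestAlgebra 𝒪 A) (hB : IsArtinianTestAlgebra 𝒪 B)
    (hC : IsArtinianTestAlgebra 𝒪 C) (hQ : IsArtinianTestAlgebra 𝒪 Q)
    (f : A →ₐ[𝒪] C) (g : B →ₐ[𝒪] C) (pA : Q →ₐ[𝒪] A) (pB : Q →ₐ[𝒪] B)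
    (hfg : f.comp pA = g.comp pB)
    (hinj : Function.Injective (fun x => (pA x, pB x)))
    (hsurj : ∀ a b, f a = g b → ∃ x, pA x = a ∧ pB x = b)
    ⦃h : Idx → Q⦄ (h1 : PFun dat 𝒟 (pA ∘ h)) (h2 : PFun dat 𝒟 (pB ∘ h)) : PFun dat 𝒟 h := by
  obtain ⟨hnf1, hlift1, ρ1, hρ1, hD1⟩ := h1
  obtain ⟨hnf2, hlift2, ρ2, hρ2, hD2⟩ := h2
  have := hA.isArtinian
  have := hB.isArtinian
  have := hQ.isArtinian
  have hlocA : IsLocalHom (pA : Q →+* A) := isLocalHom_of_isArtinianRing _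
  have hlocB : IsLocalHom (pB : Q →+* B) := isLocalHom_of_isArtinianRing _
  have hrep : IsMatRep (mat h) :=
    IsMatRep.of_map_injective₂ (pA : Q →+* A) (pB : Q →+* B) hinj hρ1.isMatRep hρ2.isMatRep
  obtain ⟨ρ, hρ⟩ := hrep.exists_hasMatrix
  refine ⟨⟨?_, ?_, ?_⟩, fun x => ?_, ρ, hρ, ?_⟩
  · apply hinj
    refine Prod.ext ?_ ?_
    · simpa [mat] using hnf1.h00
    · simpa [mat] using hnf2.h00
  · apply hinj
    refine Prod.ext ?_ ?_
    · simpa [mat] using hnf1.h10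
    · simpa [mat] using hnf2.h10
  · apply hinj
    refine Prod.ext ?_ ?_
    · have := hnf1.hX
      rw [mat_comp, comb_map, Matrix.map_apply] at this
      simpa using this
    · have := hnf2.hX
      rw [mat_comp, comb_map, Matrix.map_apply] at this
      simpa using this
  · apply mem_maximalIdeal_of_map (pA : Q →+* A)
    simpa using hlift1 x
  · refine h𝒟.of_fibreProduct hA hB hC hQ f g pA pB hlocA hlocB hfg hinj hsurj ?_ ?_
    · exact h𝒟.of_isEquiv hA (hρ1.isEquiv (hρ.baseChangeAlong (pA : Q →+* A) hlocA)) hD1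
    · exact h𝒟.of_isEquiv hB (hρ2.isEquiv (hρ.baseChangeAlong (pB : Q →+* B) hlocB)) hD2

theorem PFun.inj (h𝒟 : IsDeformationCondition 𝒪 𝒟)
    ⦃A B : Type⦄ [CommRing A] [IsLocalRing A] [Algebra 𝒪 A]
    [CommRing B] [IsLocalRing B] [Algebra 𝒪 B]
    (hA : IsArtinianTestAlgebra 𝒪 A) (hB : IsArtinianTestAlgebra 𝒪 B)
    (φ : A →ₐ[𝒪] B) (hφ : Function.Injective φ) ⦃f : Idx → A⦄ (hf : PFun dat 𝒟 (φ ∘ f)) :
    PFun dat 𝒟 f := by
  obtain ⟨hnf, hlift, ρ1, hρ1, hD1⟩ := hf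
  have := hA.isArtinian
  have := hB.isArtinian
  have hloc : IsLocalHom (φ : A →+* B) := isLocalHom_of_isArtinianRing _
  have hrep : IsMatRep (mat f) :=
    IsMatRep.of_map_injective₂ (φ : A →+* B) (φ : A →+* B)
      (fun x y hxy => hφ (congrArg Prod.fst hxy)) hρ1.isMatRep hρ1.isMatRep
  obtain ⟨ρ, hρ⟩ := hrep.exists_hasMatrix
  refine ⟨IsNF.of_map_injective φ hφ hnf, fun x => ?_, ρ, hρ, ?_⟩
  · apply mem_maximalIdeal_of_map (φ : A →+* B)
    simpa using hlift x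
  · refine h𝒟.of_baseChangeAlong_injective hA hB φ hloc hφ ?_
    exact h𝒟.of_isEquiv hB (hρ1.isEquiv (hρ.baseChangeAlong (φ : A →+* B) hloc)) hD1

end Fermat.Agent.S53
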