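import Fermat.Agent.S53.Defs
import Fermat.Agent.S53.Burnside

set_option autoImplicit false

open IsLocalRing

namespace Fermat.Agent.S53

/-- Burnside in dimension two. -/
theorem exists_good_basis {k : Type} [Field k] (ρbar : ResidualGaloisRep k)
    (habs : ρbar.IsAbsolutelyIrreducible) :
    ∃ (rbar : G → M2 k) (a : G →₀ k) (g1 : G), HasMatrixRes ρbar rbar ∧
      (a.sum fun g c => c • rbar g) = !![1, 0; 0, 0] ∧ rbar g1 1 0 ≠ 0 := by
  classical
  let b : Module.Basis (Fin 2) k ρbar.V := Module.finBasisOfFinrankEq k ρbar.V ρbar.finrank_eq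
  obtain ⟨a, ha⟩ := exists_finsupp_matOfResidual ρbar habs b !![1, 0; 0, 0]
  obtain ⟨c, hc⟩ := exists_finsupp_matOfResidual ρbar habs b !![0, 0; 1, 0]
  have hg1 : ∃ g1 : G, matOfResidual ρbar b g1 1 0 ≠ 0 := by
    by_contra hcon
    push Not at hcon
    have h1 := congrFun (congrFun hc 1) 0
    rw [Finsupp.sum, Matrix.sum_apply] at h1
    simp [hcon] at h1
  obtain ⟨g1, hg1⟩ := hg1
  exact ⟨fun g => matOfResidual ρbar b g, a, g1, ⟨b, fun σ => rfl⟩, ha, hg1⟩

/-- Packaging as `NFData`. -/
theorem exists_nfData (𝒪 : Type) [CommRing 𝒪] [IsLocalRing 𝒪]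
    (ρbar : ResidualGaloisRep (ResidueField 𝒪)) (habs : ρbar.IsAbsolutelyIrreducible) :
    ∃ dat : NFData 𝒪, HasMatrixRes ρbar (fun g => (dat.rt g).map (residue 𝒪)) := by
  classical
  obtain ⟨rbar, a, g1, hmat, ha, hg1⟩ := exists_good_basis ρbar habs
  let s : ResidueField 𝒪 → 𝒪 := fun x => if x = 0 then 0 else (residue_surjective x).choose
  have hs : ∀ x, residue 𝒪 (s x) = x := by
    intro x
    by_cases hx : x = 0
    · simp [s, hx]
    · simp only [s, if_neg hx]
      exact (residue_surjective x).choose_spec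
  have hs0 : s 0 = 0 := by simp [s]
  let rt : G → M2 𝒪 := fun g => (rbar g).map s
  have hrt : ∀ g, (rt g).map (residue 𝒪) = rbar g := by
    intro g
    ext i j
    simp [rt, hs]
  let a' : G →₀ 𝒪 := a.mapRange s hs0
  have hsum : ((a'.sum fun g c => c • rt g)).map (residue 𝒪) = !![1, 0; 0, 0] := by
    rw [← ha]
    have h1 : ((a'.sum fun g c => c • rt g)).map (residue 𝒪) =
        (residue 𝒪).mapMatrix (a'.sum fun g c => c • rt g) := rfl
    rw [h1, map_finsuppSum, Finsupp.sum_mapRange_index (by intro g; simp)]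
    refine Finsupp.sum_congr fun g _ => ?_
    ext i j
    have := congrFun (congrFun (hrt g) i) j
    simp only [Matrix.map_apply] at this
    simp [hs, this]
  have hent : ∀ i j, residue 𝒪 ((a'.sum fun g c => c • rt g) i j) =
      (!![1, 0; 0, 0] : M2 (ResidueField 𝒪)) i j := by
    intro i j
    rw [← hsum]
    rfl
  refine ⟨⟨rt, a', g1, ?_, ?_, ?_, ?_, ?_⟩, ?_⟩
  · rw [← residue_eq_zero_iff, map_sub, hent]
    simp
  · rw [← residue_eq_zero_iff, hent]
    simp
  · rw [← residue_eq_zero_iff, hent]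
    simp
  · rw [← residue_eq_zero_iff, hent]
    simp
  · rw [← IsLocalRing.notMem_maximalIdeal, ← residue_eq_zero_iff]
    have := congrFun (congrFun (hrt g1) 1) 0
    simp only [Matrix.map_apply] at this
    rw [this]
    exact hg1
  · have : (fun g => (rt g).map (residue 𝒪)) = rbar := funext hrt
    show HasMatrixRes ρbar (fun g => (rt g).map (residue 𝒪))
    rw [this]
    exact hmat

end Fermat.Agent.S53
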