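import Fermat.Agent.S53.Tower
import Fermat.Agent.S53.Completion

set_option autoImplicit false

open IsLocalRing

namespace Fermat.Agent.S53

/-- Abstract pro-representability. -/
theorem exists_prorep
    (𝒪 : Type) [CommRing 𝒪] [IsLocalRing 𝒪] [IsNoetherianRing 𝒪]
    (S : Type) [CommRing S] [Algebra 𝒪 S] (M : Ideal S) [M.IsMaximal]
    (hM : Function.Surjective (Ideal.Quotient.mk M ∘ algebraMap 𝒪 S))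
    (𝓙 : Set (Ideal S))
    (h0 : M ∈ 𝓙)
    (h1 : ∀ J ∈ 𝓙, J ≤ M ∧ (∃ n, M ^ n ≤ J) ∧ Finite (S ⧸ J))
    (h2 : ∀ J ∈ 𝓙, ∀ J' ∈ 𝓙, J ⊓ J' ∈ 𝓙)
    (h3 : ∀ J ∈ 𝓙, ∀ K : Ideal S, J ≤ K → K ≤ M → K ∈ 𝓙)
    (h4 : ∃ I₂ ∈ 𝓙, ∀ J ∈ 𝓙, M ^ 2 ≤ J → (maximalIdeal 𝒪).map (algebraMap 𝒪 S) ≤ J → I₂ ≤ J) :
    ∃ (R : Type) (_ : CommRing R) (_ : IsLocalRing R) (_ : IsNoetherianRing R)
      (_ : IsAdicComplete (maximalIdeal R) R) (_ : Algebra 𝒪 R) (Φ : S →ₐ[𝒪] R),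
      (∀ n, 1 ≤ n → (maximalIdeal R ^ n).comap Φ ∈ 𝓙) ∧
      (∀ (n : ℕ) (z : R), ∃ s, z - Φ s ∈ maximalIdeal R ^ n) ∧
      (∀ J ∈ 𝓙, ∃ n, (maximalIdeal R ^ n).comap Φ ≤ J) := by
  obtain ⟨I, d, y, hanti, hpow, hsucc, hone, hy, hgen, hmem, hleast⟩ :=
    exists_tower 𝒪 S M hM 𝓙 h0 h1 h2 h3 h4
  obtain ⟨R, i1, i2, i3, i4, i5, Φ, hc, hd⟩ :=
    exists_completion M hM I hanti hpow hsucc hone y hy hgen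
  refine ⟨R, i1, i3, i4, i5, i2, Φ, fun n hn => ?_, hd, fun J hJ => ?_⟩
  · rw [hc n]; exact hmem n hn
  · obtain ⟨n, hn⟩ := (h1 J hJ).2.1
    exact ⟨n, by rw [hc n]; exact hleast J hJ n hn⟩

end Fermat.Agent.S53
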