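import Fermat.Agent.S53.RepDefs

set_option autoImplicit false

open IsLocalRing GaloisRep

namespace Fermat.Agent.S53.Rep

/-- The type of subfunctors of `A ↦ (X → A)`. -/
abbrev Sub (𝒪 : Type) [CommRing 𝒪] (X : Type) : Type 1 :=
  ∀ ⦃A : Type⦄ [CommRing A] [IsLocalRing A] [Algebra 𝒪 A], (X → A) → Prop

/-- The maximal ideal of `MvPolynomial X 𝒪` given by the residual point. -/
noncomputable def Mid {𝒪 : Type} [CommRing 𝒪] [IsLocalRing 𝒪] {X : Type} (f0 : X → 𝒪) :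
    Ideal (MvPolynomial X 𝒪) :=
  RingHom.ker (MvPolynomial.aeval (fun x => residue 𝒪 (f0 x)) :
    MvPolynomial X 𝒪 →ₐ[𝒪] ResidueField 𝒪)

/-- The tautological point of `MvPolynomial X 𝒪 ⧸ J`. -/
noncomputable def tautQ {𝒪 : Type} [CommRing 𝒪] {X : Type} (J : Ideal (MvPolynomial X 𝒪)) :
    X → MvPolynomial X 𝒪 ⧸ J := fun x => Ideal.Quotient.mk J (MvPolynomial.X x)

/-- The family of ideals `J` with finite local quotient whose tautological point satisfies `P`. -/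
def fam {𝒪 : Type} [CommRing 𝒪] [IsLocalRing 𝒪] {X : Type} (f0 : X → 𝒪) (P : Sub 𝒪 X) :
    Set (Ideal (MvPolynomial X 𝒪)) :=
  {J | J ≤ Mid f0 ∧ (∃ n, Mid f0 ^ n ≤ J) ∧ Finite (MvPolynomial X 𝒪 ⧸ J) ∧
    ∃ _ : IsLocalRing (MvPolynomial X 𝒪 ⧸ J), P (tautQ J)}

end Fermat.Agent.S53.Rep
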