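import Mathlib

set_option autoImplicit false

open IsLocalRing

namespace Fermat.Agent.S53

section aux

variable {S : Type} [CommRing S]

/-- Nilpotent Nakayama for ideals: `M ≤ Z ⊔ M ^ 2` and `M ^ n ≤ Z` imply `M ≤ Z`. -/
lemma tower_le_of_le_sup_sq {M Z : Ideal S} (h : M ≤ Z ⊔ M ^ 2) {n : ℕ} (hn : M ^ n ≤ Z) :
    M ≤ Z := by
  have key : ∀ j : ℕ, M ≤ Z ⊔ M ^ (j + 1) := by
    intro j
    induction j with
    | zero => simp
    | succ j ih =>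
      have h1 : M ^ (j + 1) ≤ Z ⊔ M ^ (j + 1 + 1) := by
        calc M ^ (j + 1) = M ^ j * M := pow_succ M j
          _ ≤ M ^ j * (Z ⊔ M ^ 2) := Ideal.mul_mono_right h
          _ = M ^ j * Z ⊔ M ^ j * M ^ 2 := Ideal.mul_sup _ _ _
          _ ≤ Z ⊔ M ^ (j + 1 + 1) := by
            refine sup_le_sup Ideal.mul_le_right ?_
            rw [← pow_add]
      exact ih.trans (sup_le le_sup_left h1)
  refine (key n).trans (sup_le le_rfl ?_)
  exact (Ideal.pow_le_pow_right (Nat.le_succ n)).trans hn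

variable {𝒪 : Type} [CommRing 𝒪] [Algebra 𝒪 S]

/-- If `M ≤ span (range y) ⊔ J`, `M ^ n ≤ J` and `𝒪 → S ⧸ M` is onto, then the polynomial ring on
the `y i` surjects onto `S ⧸ J`. -/
lemma tower_aeval_surjective {M J : Ideal S}
    (hM : Function.Surjective (Ideal.Quotient.mk M ∘ algebraMap 𝒪 S))
    {d : ℕ} (y : Fin d → S) (hy : ∀ i, y i ∈ M) (hgen : M ≤ Ideal.span (Set.range y) ⊔ J)
    {n : ℕ} (hn : M ^ n ≤ J) :
    Function.Surjective ((Ideal.Quotient.mk J).comp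
      (MvPolynomial.aeval y : MvPolynomial (Fin d) 𝒪 →ₐ[𝒪] S).toRingHom) := by
  set φ : MvPolynomial (Fin d) 𝒪 →ₐ[𝒪] S := MvPolynomial.aeval y with hφ
  set ψ : MvPolynomial (Fin d) 𝒪 →+* S ⧸ J := (Ideal.Quotient.mk J).comp φ.toRingHom with hψ
  let _ : Algebra (MvPolynomial (Fin d) 𝒪) (S ⧸ J) := ψ.toAlgebra
  have halg : ∀ q : MvPolynomial (Fin d) 𝒪, algebraMap (MvPolynomial (Fin d) 𝒪) (S ⧸ J) q = ψ q :=
    fun _ => rfl
  set 𝔫 : Ideal (MvPolynomial (Fin d) 𝒪) := M.comap φ.toRingHom with h𝔫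
  set N' : Submodule (MvPolynomial (Fin d) 𝒪) (S ⧸ J) :=
    LinearMap.range (Algebra.linearMap (MvPolynomial (Fin d) 𝒪) (S ⧸ J)) with hN'
  have step : (⊤ : Submodule (MvPolynomial (Fin d) 𝒪) (S ⧸ J)) ≤ N' ⊔ 𝔫 • ⊤ := by
    intro s _
    obtain ⟨s, rfl⟩ := Ideal.Quotient.mk_surjective s
    obtain ⟨a, ha⟩ := hM (Ideal.Quotient.mk M s)
    have h1 : s - algebraMap 𝒪 S a ∈ M := by
      rw [← Ideal.Quotient.eq]; exact ha.symm
    obtain ⟨u, hu, v, hv, huv⟩ := Submodule.mem_sup.mp (hgen h1)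
    obtain ⟨c, hc⟩ := Ideal.mem_span_range_iff_exists_fun.mp hu
    have h2 : Ideal.Quotient.mk J s = ψ (MvPolynomial.C a) +
        ∑ i, (MvPolynomial.X i : MvPolynomial (Fin d) 𝒪) • Ideal.Quotient.mk J (c i) := by
      have h3 : s = algebraMap 𝒪 S a + (∑ i, c i * y i) + v := by
        rw [hc, add_assoc, huv]; ring
      have h4 : Ideal.Quotient.mk J v = 0 := Ideal.Quotient.eq_zero_iff_mem.mpr hv
      conv_lhs => rw [h3]
      rw [map_add, map_add, h4, add_zero, map_sum]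
      congr 1
      · simp [hψ, hφ]
      · refine Finset.sum_congr rfl fun i _ => ?_
        rw [Algebra.smul_def, halg]
        simp [hψ, hφ, mul_comm]
    rw [h2]
    refine Submodule.add_mem _ (Submodule.mem_sup_left ⟨MvPolynomial.C a, rfl⟩)
      (Submodule.mem_sup_right ?_)
    refine Submodule.sum_mem _ fun i _ => Submodule.smul_mem_smul ?_ Submodule.mem_top
    rw [h𝔫, Ideal.mem_comap]
    simpa [hφ] using hy i
  have key : ∀ j : ℕ, (⊤ : Submodule (MvPolynomial (Fin d) 𝒪) (S ⧸ J)) ≤ N' ⊔ 𝔫 ^ j • ⊤ := by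
    intro j
    induction j with
    | zero => rw [pow_zero, Ideal.one_eq_top, Submodule.top_smul]; exact le_sup_right
    | succ j ih =>
      have h1 : 𝔫 ^ j • (⊤ : Submodule (MvPolynomial (Fin d) 𝒪) (S ⧸ J)) ≤
          N' ⊔ 𝔫 ^ (j + 1) • ⊤ := by
        calc 𝔫 ^ j • (⊤ : Submodule (MvPolynomial (Fin d) 𝒪) (S ⧸ J))
            ≤ 𝔫 ^ j • (N' ⊔ 𝔫 • ⊤) := Submodule.smul_mono le_rfl step
          _ = 𝔫 ^ j • N' ⊔ 𝔫 ^ j • 𝔫 • ⊤ := Submodule.smul_sup _ _ _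
          _ ≤ N' ⊔ 𝔫 ^ (j + 1) • ⊤ := by
            refine sup_le_sup Submodule.smul_le_right ?_
            rw [← Submodule.mul_smul, ← pow_succ]
      exact ih.trans (sup_le le_sup_left h1)
  have hzero : 𝔫 ^ n • (⊤ : Submodule (MvPolynomial (Fin d) 𝒪) (S ⧸ J)) = ⊥ := by
    rw [eq_bot_iff, Submodule.smul_le]
    intro q hq s _
    have h1 : φ.toRingHom q ∈ M ^ n := by
      have := Ideal.mem_map_of_mem φ.toRingHom hq
      rw [Ideal.map_pow] at this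
      exact Ideal.pow_right_mono Ideal.map_comap_le n this
    have h2 : ψ q = 0 := Ideal.Quotient.eq_zero_iff_mem.mpr (hn h1)
    rw [Submodule.mem_bot, Algebra.smul_def, halg, h2, zero_mul]
  intro s
  have := key n (Submodule.mem_top (x := s))
  rw [hzero, sup_bot_eq] at this
  obtain ⟨q, hq⟩ := this
  exact ⟨q, hq⟩

/-- Uniform bound for the cardinality of the quotients `S ⧸ J` with `M ^ n ≤ J`. -/
lemma tower_card_le [IsNoetherianRing 𝒪] {M : Ideal S} [Finite (S ⧸ M)]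
    (hM : Function.Surjective (Ideal.Quotient.mk M ∘ algebraMap 𝒪 S))
    {d : ℕ} (y : Fin d → S) (hy : ∀ i, y i ∈ M) (n : ℕ) :
    ∃ B : ℕ, ∀ J : Ideal S, M ≤ Ideal.span (Set.range y) ⊔ J → M ^ n ≤ J →
      Nat.card (S ⧸ J) ≤ B := by
  set φ : MvPolynomial (Fin d) 𝒪 →ₐ[𝒪] S := MvPolynomial.aeval y with hφ
  set 𝔫 : Ideal (MvPolynomial (Fin d) 𝒪) := M.comap φ.toRingHom with h𝔫
  have : Finite (MvPolynomial (Fin d) 𝒪 ⧸ 𝔫) :=
    Finite.of_injective (Ideal.quotientMap M φ.toRingHom le_rfl) Ideal.quotientMap_injective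
  have hfg : 𝔫.FG := IsNoetherian.noetherian 𝔫
  have : Finite (MvPolynomial (Fin d) 𝒪 ⧸ 𝔫 ^ n) := Ideal.finite_quotient_pow hfg n
  refine ⟨Nat.card (MvPolynomial (Fin d) 𝒪 ⧸ 𝔫 ^ n), fun J hgen hn => ?_⟩
  have hsurj := tower_aeval_surjective hM y hy hgen hn
  have hkill : ∀ q ∈ 𝔫 ^ n, ((Ideal.Quotient.mk J).comp φ.toRingHom) q = 0 := by
    intro q hq
    have h1 : φ.toRingHom q ∈ M ^ n := by
      have := Ideal.mem_map_of_mem φ.toRingHom hq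
      rw [Ideal.map_pow] at this
      exact Ideal.pow_right_mono Ideal.map_comap_le n this
    exact Ideal.Quotient.eq_zero_iff_mem.mpr (hn h1)
  refine Nat.card_le_card_of_surjective
    (Ideal.Quotient.lift (𝔫 ^ n) ((Ideal.Quotient.mk J).comp φ.toRingHom) hkill) ?_
  exact Ideal.Quotient.lift_surjective_of_surjective _ _ hsurj

omit [Algebra 𝒪 S] in
/-- A family of ideals with finite quotients of bounded cardinality which is stable under
intersection has a least element. -/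
lemma tower_exists_least (𝓙 : Set (Ideal S)) (hne : 𝓙.Nonempty)
    (hfin : ∀ J ∈ 𝓙, Finite (S ⧸ J)) (h2 : ∀ J ∈ 𝓙, ∀ J' ∈ 𝓙, J ⊓ J' ∈ 𝓙)
    (B : ℕ) (hB : ∀ J ∈ 𝓙, Nat.card (S ⧸ J) ≤ B) :
    ∃ I ∈ 𝓙, ∀ J ∈ 𝓙, I ≤ J := by
  set C : Set ℕ := (fun J : Ideal S => Nat.card (S ⧸ J)) '' 𝓙 with hC
  have hCne : C.Nonempty := hne.image _
  have hCb : BddAbove C := ⟨B, by rintro _ ⟨J, hJ, rfl⟩; exact hB J hJ⟩
  obtain ⟨I, hI, hIc⟩ := Nat.sSup_mem hCne hCb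
  refine ⟨I, hI, fun J hJ => ?_⟩
  have hIJ := h2 I hI J hJ
  have := hfin _ hIJ
  have := hfin _ hI
  have h1 : Nat.card (S ⧸ (I ⊓ J)) ≤ Nat.card (S ⧸ I) := by
    have : Nat.card (S ⧸ (I ⊓ J)) ≤ sSup C := le_csSup hCb ⟨_, hIJ, rfl⟩
    exact this.trans hIc.ge
  have hs : Function.Surjective (Ideal.Quotient.factor (inf_le_left : I ⊓ J ≤ I)) :=
    Ideal.Quotient.factor_surjective _
  have h2' : Nat.card (S ⧸ I) ≤ Nat.card (S ⧸ (I ⊓ J)) := Nat.card_le_card_of_surjective _ hs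
  have hb := (Nat.bijective_iff_surjective_and_card
    (Ideal.Quotient.factor (inf_le_left : I ⊓ J ≤ I))).mpr ⟨hs, le_antisymm h1 h2'⟩
  intro x hx
  have h3 : Ideal.Quotient.factor (inf_le_left : I ⊓ J ≤ I) (Ideal.Quotient.mk _ x) =
      Ideal.Quotient.factor (inf_le_left : I ⊓ J ≤ I) 0 := by
    rw [Ideal.Quotient.factor_mk, map_zero]
    exact Ideal.Quotient.eq_zero_iff_mem.mpr hx
  have h4 := Ideal.Quotient.eq_zero_iff_mem.mp (hb.1 h3)
  exact h4.2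

end aux

/-- The tower of least elements of an abstract family of open ideals. -/
theorem exists_tower
    (𝒪 : Type) [CommRing 𝒪] [IsLocalRing 𝒪] [IsNoetherianRing 𝒪]
    (S : Type) [CommRing S] [Algebra 𝒪 S] (M : Ideal S) [M.IsMaximal]
    (hM : Function.Surjective (Ideal.Quotient.mk M ∘ algebraMap 𝒪 S))
    (𝓙 : Set (Ideal S))
    (h0 : M ∈ 𝓙)
    (h1 : ∀ J ∈ 𝓙, J ≤ M ∧ (∃ n, M ^ n ≤ J) ∧ Finite (S ⧸ J))
    (h2 : ∀ J ∈ 𝓙, ∀ J' ∈ 𝓙, J ⊓ J' ∈ 𝓙)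
    (h3 : ∀ J ∈ 𝓙, ∀ K : Ideal S, J ≤ K → K ≤ M → K ∈ 𝓙)
    (h4 : ∃ I₂ ∈ 𝓙, ∀ J ∈ 𝓙, M ^ 2 ≤ J → (maximalIdeal 𝒪).map (algebraMap 𝒪 S) ≤ J → I₂ ≤ J) :
    ∃ (I : ℕ → Ideal S) (d : ℕ) (y : Fin d → S),
      (∀ n, I (n + 1) ≤ I n) ∧ (∀ n, M ^ n ≤ I n) ∧ (∀ n, I n ≤ I (n + 1) ⊔ M ^ n) ∧ I 1 = M ∧
      (∀ i, y i ∈ M) ∧ M ≤ Ideal.span (Set.range y) ⊔ I 2 ∧
      (∀ n, 1 ≤ n → I n ∈ 𝓙) ∧ (∀ J ∈ 𝓙, ∀ n, M ^ n ≤ J → I n ≤ J) := by
  classical
  obtain ⟨I₂, hI₂, hI₂min⟩ := h4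
  set 𝔭 : Ideal S := (maximalIdeal 𝒪).map (algebraMap 𝒪 S) with h𝔭
  -- the extension of the maximal ideal of `𝒪` lies in `M`
  have h𝔭M : 𝔭 ≤ M := by
    rw [h𝔭, Ideal.map_le_iff_le_comap]
    intro a ha
    rw [Ideal.mem_comap]
    by_contra hcon
    have hne : Ideal.Quotient.mk M (algebraMap 𝒪 S a) ≠ 0 := by
      rwa [Ne, Ideal.Quotient.eq_zero_iff_mem]
    let _ := Ideal.Quotient.field M
    obtain ⟨b, hb⟩ := hM (Ideal.Quotient.mk M (algebraMap 𝒪 S a))⁻¹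
    have h5 : Ideal.Quotient.mk M (algebraMap 𝒪 S (a * b - 1)) = 0 := by
      have hb' : Ideal.Quotient.mk M (algebraMap 𝒪 S b) =
          (Ideal.Quotient.mk M (algebraMap 𝒪 S a))⁻¹ := hb
      rw [map_sub, map_sub, map_mul, map_mul, hb', mul_inv_cancel₀ hne]
      simp
    have h6 : IsUnit (a * b - 1) := by
      have h7 : a * b ∈ maximalIdeal 𝒪 := Ideal.mul_mem_right _ _ ha
      by_contra h8
      have h9 : a * b - 1 ∈ maximalIdeal 𝒪 := (mem_maximalIdeal _).mpr h8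
      have h10 : (1 : 𝒪) ∈ maximalIdeal 𝒪 := by
        have := Ideal.sub_mem _ h7 h9
        simpa using this
      exact (Ideal.ne_top_iff_one _).mp (maximalIdeal.isMaximal 𝒪).ne_top h10
    have h11 := (h6.map (algebraMap 𝒪 S)).map (Ideal.Quotient.mk M)
    rw [h5] at h11
    exact not_isUnit_zero h11
  -- the generators
  have hfinI₂ : Finite (S ⧸ I₂) := (h1 I₂ hI₂).2.2
  obtain ⟨s, hs⟩ : (maximalIdeal 𝒪).FG := IsNoetherian.noetherian _
  set T : Set S := (Set.range (fun c : S ⧸ I₂ => Quotient.out c) ∩ (M : Set S)) ∪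
    (algebraMap 𝒪 S '' (s : Set 𝒪)) with hT
  have hTfin : T.Finite :=
    ((Set.finite_range _).inter_of_left _).union (s.finite_toSet.image _)
  have h𝔭T : 𝔭 ≤ Ideal.span T := by
    rw [h𝔭, ← hs, Ideal.map_span]
    exact Ideal.span_mono Set.subset_union_right
  have hTM : ∀ t ∈ T, t ∈ M := by
    rintro t (⟨-, ht⟩ | ⟨a, ha, rfl⟩)
    · exact ht
    · refine h𝔭M (Ideal.mem_map_of_mem _ ?_)
      rw [← hs]; exact Ideal.subset_span ha
  have hMT : M ≤ Ideal.span T ⊔ I₂ := by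
    intro m hm
    have h5 : m - Quotient.out (Ideal.Quotient.mk I₂ m) ∈ I₂ := by
      rw [← Ideal.Quotient.eq, Ideal.Quotient.mk_out]
    have h6 : Quotient.out (Ideal.Quotient.mk I₂ m) ∈ M := by
      have := Ideal.sub_mem _ hm ((h1 I₂ hI₂).1 h5)
      simpa using this
    have h7 : m = Quotient.out (Ideal.Quotient.mk I₂ m) +
        (m - Quotient.out (Ideal.Quotient.mk I₂ m)) := by ring
    rw [h7]
    exact Ideal.add_mem _
      (Ideal.mem_sup_left (Ideal.subset_span (Or.inl ⟨⟨_, rfl⟩, h6⟩))) (Ideal.mem_sup_right h5)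
  obtain ⟨d, y, hy⟩ := hTfin.fin_embedding
  have hyM : ∀ i, y i ∈ M := fun i => hTM _ (hy ▸ Set.mem_range_self i)
  -- Claim A
  have hgen : ∀ J ∈ 𝓙, M ≤ Ideal.span (Set.range y) ⊔ J := by
    intro J hJ
    obtain ⟨hJM, ⟨n, hn⟩, -⟩ := h1 J hJ
    rw [hy]
    have hM2 : M ^ 2 ≤ M := Ideal.pow_le_self two_ne_zero
    have hJ' : J ⊔ M ^ 2 ⊔ 𝔭 ∈ 𝓙 :=
      h3 J hJ _ (le_sup_left.trans le_sup_left) (sup_le (sup_le hJM hM2) h𝔭M)
    have h5 : I₂ ≤ J ⊔ M ^ 2 ⊔ 𝔭 :=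
      hI₂min _ hJ' (le_sup_right.trans le_sup_left) le_sup_right
    refine tower_le_of_le_sup_sq (n := n) ?_ (hn.trans le_sup_right)
    refine hMT.trans (sup_le (le_sup_left.trans le_sup_left) (h5.trans ?_))
    refine sup_le (sup_le (le_sup_right.trans le_sup_left) le_sup_right) ?_
    exact h𝔭T.trans (le_sup_left.trans le_sup_left)
  -- least elements
  have hfinM : Finite (S ⧸ M) := (h1 M h0).2.2
  have hleast : ∀ n : ℕ, 1 ≤ n → ∃ I ∈ 𝓙, M ^ n ≤ I ∧ ∀ J ∈ 𝓙, M ^ n ≤ J → I ≤ J := by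
    intro n hn
    obtain ⟨B, hB⟩ := tower_card_le hM y hyM n
    obtain ⟨I, ⟨hI, hI'⟩, hmin⟩ := tower_exists_least {J | J ∈ 𝓙 ∧ M ^ n ≤ J}
      ⟨M, h0, Ideal.pow_le_self (by omega)⟩ (fun J hJ => (h1 J hJ.1).2.2)
      (fun J hJ J' hJ' => ⟨h2 J hJ.1 J' hJ'.1, le_inf hJ.2 hJ'.2⟩) B
      (fun J hJ => hB J (hgen J hJ.1) hJ.2)
    exact ⟨I, hI, hI', fun J hJ hJn => hmin J ⟨hJ, hJn⟩⟩
  choose! I hI𝓙 hIpow hImin using hleast
  refine ⟨fun n => if n = 0 then ⊤ else I n, d, y, ?_, ?_, ?_, ?_, hyM, ?_, ?_, ?_⟩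
  · intro n
    rcases Nat.eq_zero_or_pos n with rfl | hn
    · simp
    · have hn' : n ≠ 0 := by omega
      simp only [Nat.add_eq_zero_iff, one_ne_zero, and_false, if_false, hn']
      exact hImin (n + 1) (by omega) _ (hI𝓙 n hn)
        ((Ideal.pow_le_pow_right (Nat.le_succ n)).trans (hIpow n hn))
  · intro n
    rcases Nat.eq_zero_or_pos n with rfl | hn
    · simp
    · have hn' : n ≠ 0 := by omega
      simp only [if_false, hn']
      exact hIpow n hn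
  · intro n
    rcases Nat.eq_zero_or_pos n with rfl | hn
    · simp
    · have hn' : n ≠ 0 := by omega
      simp only [Nat.add_eq_zero_iff, one_ne_zero, and_false, if_false, hn']
      refine hImin n hn _ (h3 _ (hI𝓙 (n + 1) (by omega)) _ le_sup_left ?_) le_sup_right
      exact sup_le (h1 _ (hI𝓙 (n + 1) (by omega))).1 (Ideal.pow_le_self hn')
  · simp only [one_ne_zero, if_false]
    refine le_antisymm (h1 _ (hI𝓙 1 le_rfl)).1 ?_
    simpa using hIpow 1 le_rfl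
  · simp only [OfNat.ofNat_ne_zero, if_false]
    exact hgen _ (hI𝓙 2 (by omega))
  · intro n hn
    have hn' : n ≠ 0 := by omega
    simp only [if_false, hn']
    exact hI𝓙 n hn
  · intro J hJ n hn
    rcases Nat.eq_zero_or_pos n with rfl | hn0
    · simpa using hn
    · have hn' : n ≠ 0 := by omega
      simp only [if_false, hn']
      exact hImin n hn0 J hJ hn

end Fermat.Agent.S53
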